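import Fermat.Prelude.Def_ModularCurve_LaurentCoeff
import Mathlib.LinearAlgebra.Basis.VectorSpace
import Mathlib.LinearAlgebra.Dual.Lemmas

/-!
`laurentBaseChange L F₀ ∩ K((q)) = laurentBaseChange K F₀` for `K ⊆ L`.
-/

open HahnSeries ModularCurve IntermediateField

namespace FLTAgent.JTors

variable {K L : Type*} [Field K] [Field L] [Algebra ℚ K] [Algebra ℚ L]
variable (F₀ : IntermediateField ℚ (LaurentSeries ℚ))

theorem coeffMap_coeffEmb_of_hom (f : K →+* L) (a : LaurentSeries ℚ) :
    coeffMap f (coeffEmb K a) = coeffEmb L a := by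
  ext k
  simp

theorem coeffMap_mem_laurentBaseChange' (f : K →+* L) {x : LaurentSeries K}
    (hx : x ∈ laurentBaseChange K F₀) : coeffMap f x ∈ laurentBaseChange L F₀ := by
  rw [mem_laurentBaseChange_iff] at hx
  induction hx using Subfield.closure_induction with
  | mem y hy =>
    rcases hy with ⟨a, rfl⟩ | ⟨z, hz, rfl⟩
    · rw [algebraMap_laurentSeries_eq_single, coeffMap_single,
        ← algebraMap_laurentSeries_eq_single]
      exact (laurentBaseChange L F₀).algebraMap_mem _
    · rw [coeffMap_coeffEmb_of_hom]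
      exact coeffEmb_mem_laurentBaseChange L hz
  | one => simp
  | add x y _ _ hx hy => simpa using add_mem hx hy
  | neg x _ hx => simpa using neg_mem hx
  | inv x _ hx => simpa using inv_mem hx
  | mul x y _ _ hx hy => simpa using mul_mem hx hy

/-- The `L`-span of `F₀` in `L((q))`. -/
def rationalSpan (L : Type*) [Field L] [Algebra ℚ L]
    (F₀ : IntermediateField ℚ (LaurentSeries ℚ)) : Submodule L (LaurentSeries L) :=
  Submodule.span L (coeffEmb L '' (F₀ : Set (LaurentSeries ℚ)))

theorem coeffEmb_mem_rationalSpan {a : LaurentSeries ℚ} (ha : a ∈ F₀) :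
    coeffEmb L a ∈ rationalSpan L F₀ :=
  Submodule.subset_span ⟨a, ha, rfl⟩

theorem mul_mem_rationalSpan {x y : LaurentSeries L} (hx : x ∈ rationalSpan L F₀)
    (hy : y ∈ rationalSpan L F₀) : x * y ∈ rationalSpan L F₀ := by
  induction hx using Submodule.span_induction with
  | mem a ha =>
    obtain ⟨a, ha, rfl⟩ := ha
    induction hy using Submodule.span_induction with
    | mem b hb =>
      obtain ⟨b, hb, rfl⟩ := hb
      rw [← map_mul]
      exact coeffEmb_mem_rationalSpan F₀ (mul_mem ha hb)
    | zero => simp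
    | add b c _ _ hb hc => rw [mul_add]; exact add_mem hb hc
    | smul c b _ hb => rw [← HahnSeries.C_mul_eq_smul, mul_left_comm, HahnSeries.C_mul_eq_smul]; exact Submodule.smul_mem _ c hb
  | zero => simp
  | add a b _ _ ha hb => rw [add_mul]; exact add_mem ha hb
  | smul c a _ ha => rw [← HahnSeries.C_mul_eq_smul, mul_assoc, HahnSeries.C_mul_eq_smul]; exact Submodule.smul_mem _ c ha

theorem exists_frac_rationalSpan {x : LaurentSeries L} (hx : x ∈ laurentBaseChange L F₀) :
    ∃ a ∈ rationalSpan L F₀, ∃ b ∈ rationalSpan L F₀, b ≠ 0 ∧ x * b = a := by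
  have h1 : (1 : LaurentSeries L) ∈ rationalSpan L F₀ := by
    simpa using coeffEmb_mem_rationalSpan (L := L) F₀ (one_mem F₀)
  rw [mem_laurentBaseChange_iff] at hx
  induction hx using Subfield.closure_induction with
  | mem y hy =>
    refine ⟨y, ?_, 1, h1, one_ne_zero, mul_one y⟩
    rcases hy with ⟨a, rfl⟩ | ⟨z, hz, rfl⟩
    · rw [algebraMap_laurentSeries_eq_single, ← mul_one (HahnSeries.single (0 : ℤ) a),
        show HahnSeries.single (0 : ℤ) a = HahnSeries.C a from rfl, HahnSeries.C_mul_eq_smul]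
      exact Submodule.smul_mem _ a h1
    · exact coeffEmb_mem_rationalSpan F₀ hz
  | one => exact ⟨1, h1, 1, h1, one_ne_zero, mul_one 1⟩
  | add x y _ _ hx hy =>
    obtain ⟨a, ha, b, hb, hb0, hab⟩ := hx
    obtain ⟨c, hc, d, hd, hd0, hcd⟩ := hy
    exact ⟨a * d + c * b, add_mem (mul_mem_rationalSpan F₀ ha hd) (mul_mem_rationalSpan F₀ hc hb),
      b * d, mul_mem_rationalSpan F₀ hb hd, mul_ne_zero hb0 hd0, by rw [← hab, ← hcd]; ring⟩
  | neg x _ hx =>
    obtain ⟨a, ha, b, hb, hb0, hab⟩ := hx
    exact ⟨-a, neg_mem ha, b, hb, hb0, by rw [← hab, neg_mul]⟩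
  | inv x _ hx =>
    obtain ⟨a, ha, b, hb, hb0, hab⟩ := hx
    rcases eq_or_ne x 0 with rfl | hx0
    · exact ⟨0, zero_mem _, 1, h1, one_ne_zero, by simp⟩
    · have ha0 : a ≠ 0 := by rw [← hab]; exact mul_ne_zero hx0 hb0
      exact ⟨b, hb, a, ha, ha0, by rw [← hab]; field_simp⟩
  | mul x y _ _ hx hy =>
    obtain ⟨a, ha, b, hb, hb0, hab⟩ := hx
    obtain ⟨c, hc, d, hd, hd0, hcd⟩ := hy
    exact ⟨a * c, mul_mem_rationalSpan F₀ ha hc, b * d, mul_mem_rationalSpan F₀ hb hd,
      mul_ne_zero hb0 hd0, by rw [← hab, ← hcd]; ring⟩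

variable [Algebra K L]

/-- Applying a `K`-linear functional to coefficients. -/
def coeffFunctional (φ : L →ₗ[K] K) (x : LaurentSeries L) : LaurentSeries K :=
  x.map φ

theorem coeffFunctional_mem (φ : L →ₗ[K] K) {x : LaurentSeries L} (hx : x ∈ rationalSpan L F₀) :
    coeffFunctional φ x ∈ laurentBaseChange K F₀ := by
  suffices ∀ c : L, coeffFunctional φ (c • x) ∈ laurentBaseChange K F₀ by simpa using this 1
  induction hx using Submodule.span_induction with
  | mem a ha =>
    obtain ⟨a, ha, rfl⟩ := ha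
    intro c
    have : coeffFunctional φ (c • coeffEmb L a) = φ c • coeffEmb K a := by
      ext k
      rw [coeffFunctional, HahnSeries.map_coeff, HahnSeries.coeff_smul, HahnSeries.coeff_smul,
        coeffEmb_coeff, coeffEmb_coeff, smul_eq_mul, smul_eq_mul]
      rw [show algebraMap ℚ L (a.coeff k) = algebraMap K L (algebraMap ℚ K (a.coeff k)) from
          RingHom.congr_fun (Subsingleton.elim (algebraMap ℚ L)
            ((algebraMap K L).comp (algebraMap ℚ K))) (a.coeff k),
        mul_comm c, ← Algebra.smul_def, φ.map_smul, smul_eq_mul, mul_comm]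
    rw [this, ← HahnSeries.C_mul_eq_smul, HahnSeries.C_apply,
      ← algebraMap_laurentSeries_eq_single]
    exact mul_mem ((laurentBaseChange K F₀).algebraMap_mem _)
      (coeffEmb_mem_laurentBaseChange K ha)
  | zero =>
    intro c
    have : coeffFunctional φ (c • (0 : LaurentSeries L)) = 0 := by
      ext k; simp [coeffFunctional]
    rw [this]; exact zero_mem _
  | add a b _ _ ha hb =>
    intro c
    have : coeffFunctional φ (c • (a + b)) =
        coeffFunctional φ (c • a) + coeffFunctional φ (c • b) := by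
      ext k; simp [coeffFunctional]
    rw [this]; exact add_mem (ha c) (hb c)
  | smul d a _ ha =>
    intro c
    rw [smul_smul]
    exact ha _

omit [Algebra ℚ K] [Algebra ℚ L] in
theorem coeffFunctional_mul (φ : L →ₗ[K] K) (y : LaurentSeries K) (x : LaurentSeries L) :
    coeffFunctional φ (coeffMap (algebraMap K L) y * x) = y * coeffFunctional φ x := by
  ext k
  simp only [coeffFunctional, HahnSeries.map_coeff]
  rw [HahnSeries.coeff_mul_left' (hs := y.isPWO_support), HahnSeries.coeff_mul_right'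
    (hs := x.isPWO_support)]
  · rw [map_sum]
    refine Finset.sum_congr rfl fun ij _ => ?_
    rw [coeffMap_coeff, ← Algebra.smul_def, φ.map_smul, smul_eq_mul, HahnSeries.map_coeff]
  · intro m hm
    simp only [HahnSeries.mem_support, HahnSeries.map_coeff] at hm ⊢
    intro h0; rw [h0, map_zero] at hm; exact hm rfl
  · intro m hm
    simp only [HahnSeries.mem_support, coeffMap_coeff] at hm ⊢
    intro h0; rw [h0, map_zero] at hm; exact hm rfl

/-- Descent of the base field. -/
theorem exists_coeffMap_eq_of_mem {x : LaurentSeries L} (hx : x ∈ laurentBaseChange L F₀)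
    (hcoeff : ∀ k, x.coeff k ∈ Set.range (algebraMap K L)) :
    ∃ y ∈ laurentBaseChange K F₀, coeffMap (algebraMap K L) y = x := by
  obtain ⟨a, ha, b, hb, hb0, hab⟩ := exists_frac_rationalSpan F₀ hx
  choose c hc using hcoeff
  let y : LaurentSeries K :=
    { coeff := c
      isPWO_support' := x.isPWO_support.mono fun k hk h0 => hk ((algebraMap K L).injective
        (by rw [hc, h0, map_zero])) }
  have hy : coeffMap (algebraMap K L) y = x := by ext k; exact hc k
  obtain ⟨k₀, hk₀⟩ : ∃ k, b.coeff k ≠ 0 := by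
    by_contra! h; exact hb0 (HahnSeries.ext (funext h))
  obtain ⟨φ, hφ⟩ : ∃ φ : L →ₗ[K] K, φ (b.coeff k₀) ≠ 0 := by
    by_contra! h
    exact hk₀ ((Module.forall_dual_apply_eq_zero_iff K _).1 h)
  have hne : coeffFunctional φ b ≠ 0 := fun h => hφ (by
    simpa [coeffFunctional] using congrArg (fun s => s.coeff k₀) h)
  have key : y * coeffFunctional φ b = coeffFunctional φ a := by
    rw [← coeffFunctional_mul, hy, hab]
  refine ⟨y, ?_, hy⟩
  rw [← eq_div_iff hne] at key
  rw [key]
  exact div_mem (coeffFunctional_mem F₀ φ ha) (coeffFunctional_mem F₀ φ hb)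

end FLTAgent.JTors
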