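import Fermat.Agent.JTors.RootH
import Mathlib.NumberTheory.ModularForms.CongruenceSubgroups
import Mathlib.Analysis.Complex.UpperHalfPlane.FunctionsBoundedAtInfty

/-!
The character of an `n`-th root of an invariant function, and its vanishing on stabilisers.
-/

noncomputable section

open UpperHalfPlane Filter Topology CongruenceSubgroup
open scoped MatrixGroups Manifold

namespace FLTAgent.JTors

theorem mdifferentiable_comp_smul {h : ℍ → ℂ} (hh : MDiff h) (g : SL(2, ℤ)) :
    MDiff fun z : ℍ => h (g • z) := by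
  have hd : (0 : ℝ) < ((g : GL (Fin 2) ℝ)).det.val := by simp
  exact hh.comp (UpperHalfPlane.mdifferentiable_smul hd)

variable {N : ℕ}

theorem eq_of_smul_eq {h : ℍ → ℂ} (h0 : h ≠ 0) {a b : ℂ} (hab : ∀ z, a * h z = b * h z) :
    a = b := by
  obtain ⟨z, hz⟩ := Function.ne_iff.1 h0
  exact mul_right_cancel₀ hz (hab z)

/-- The `n`-th root of an invariant function transforms by a character with values in `μ_n`. -/
theorem exists_rootChar {h : ℍ → ℂ} (hh : MDiff h) (h0 : h ≠ 0) {n : ℕ} (hn : n ≠ 0)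
    (hinv : ∀ (γ : Gamma0 N) (z : ℍ), h ((γ : SL(2, ℤ)) • z) ^ n = h z ^ n) :
    ∃ χ : Gamma0 N →* ℂˣ, (∀ γ, χ γ ^ n = 1) ∧
      ∀ (γ : Gamma0 N) (z : ℍ), h ((γ : SL(2, ℤ)) • z) = (χ γ : ℂ) * h z := by
  choose c hc hcz using fun γ : Gamma0 N =>
    exists_const_mul_of_pow_eq (mdifferentiable_comp_smul hh (γ : SL(2, ℤ))) hh hn h0 (hinv γ)
  have hne : ∀ γ, c γ ≠ 0 := fun γ h => by
    have := hc γ
    rw [h, zero_pow hn] at this
    exact zero_ne_one this
  refine ⟨{ toFun := fun γ => Units.mk0 (c γ) (hne γ), map_one' := ?_, map_mul' := ?_ },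
    fun γ => Units.ext (by rw [Units.val_pow_eq_pow_val, Units.val_one]; exact hc γ), fun γ z => hcz γ z⟩
  · refine Units.ext (eq_of_smul_eq h0 fun z => ?_)
    show c 1 * h z = 1 * h z
    rw [← hcz 1 z, one_mul]
    simp
  · intro γ δ
    refine Units.ext (eq_of_smul_eq h0 fun z => ?_)
    show c (γ * δ) * h z = c γ * c δ * h z
    rw [← hcz (γ * δ) z, mul_assoc, ← hcz δ z, ← hcz γ]
    rw [Subgroup.coe_mul, mul_smul]

/-- The character of a nonzero function is unique. -/
theorem char_unique {h : ℍ → ℂ} (h0 : h ≠ 0) {χ ψ : Gamma0 N →* ℂˣ}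
    (hχ : ∀ (γ : Gamma0 N) (z : ℍ), h ((γ : SL(2, ℤ)) • z) = (χ γ : ℂ) * h z)
    (hψ : ∀ (γ : Gamma0 N) (z : ℍ), h ((γ : SL(2, ℤ)) • z) = (ψ γ : ℂ) * h z) : χ = ψ :=
  MonoidHom.ext fun γ => Units.ext (eq_of_smul_eq h0 fun z => (hχ γ z).symm.trans (hψ γ z))

/-- If `h` and the invariant function `a` have equal order at a fixed point of `g`, the
multiplier of `h` at `g` is `1`. -/
theorem eq_one_of_fixed {h a : ℍ → ℂ} (hh : MDiff h) (ha : MDiff a) (hne : h ≠ 0) (ha0 : a ≠ 0)
    {g : SL(2, ℤ)} {c : ℂ} (hg : ∀ z, h (g • z) = c * h z) (hag : ∀ z, a (g • z) = a z)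
    {z₀ : ℍ} (hfix : g • z₀ = z₀)
    (hord : analyticOrderNatAt (h ∘ ofComplex) (z₀ : ℂ) =
      analyticOrderNatAt (a ∘ ofComplex) (z₀ : ℂ)) : c = 1 := by
  have htop : ∀ {f : ℍ → ℂ}, MDiff f → f ≠ 0 →
      analyticOrderAt (f ∘ ofComplex) (z₀ : ℂ) ≠ ⊤ := by
    intro f hf hf0
    obtain ⟨w, hw⟩ := Function.ne_iff.1 hf0
    have han := analyticOnNhd_comp_ofComplex hf
    refine han.analyticOrderAt_ne_top_of_isPreconnected convex_halfPlane.isPreconnected w.im_pos
      z₀.im_pos ?_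
    rw [(han _ w.im_pos).analyticOrderAt_eq_zero.2 (by simpa [ofComplex_apply] using hw)]
    simp
  obtain ⟨u, hu, hu0, hhu⟩ :=
    (analyticOnNhd_comp_ofComplex hh _ z₀.im_pos).analyticOrderAt_ne_top.1 (htop hh hne)
  obtain ⟨w, hw, hw0, haw⟩ :=
    (analyticOnNhd_comp_ofComplex ha _ z₀.im_pos).analyticOrderAt_ne_top.1 (htop ha ha0)
  rw [hord] at hhu
  set k := analyticOrderNatAt (a ∘ ofComplex) (z₀ : ℂ)
  have htend : Tendsto (fun z : ℂ => ((g • ofComplex z : ℍ) : ℂ)) (𝓝 (z₀ : ℂ)) (𝓝 (z₀ : ℂ)) := by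
    have h1 : ContinuousAt (fun z : ℍ => ((g • z : ℍ) : ℂ)) z₀ :=
      (UpperHalfPlane.continuous_coe.comp (UpperHalfPlane.mdifferentiable_smul
        (g := (g : GL (Fin 2) ℝ)) (by simp)).continuous).continuousAt
    have h2 : Tendsto (ofComplex : ℂ → ℍ) (𝓝 (z₀ : ℂ)) (𝓝 z₀) := by
      have := (mdifferentiableAt_ofComplex z₀.im_pos).continuousAt
      rw [ContinuousAt, ofComplex_apply] at this
      exact this
    have := h1.tendsto.comp h2
    rw [hfix] at this
    exact this
  have key : ∀ᶠ z in 𝓝[≠] (z₀ : ℂ),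
      u ((g • ofComplex z : ℍ) : ℂ) * w z = c * (u z * w ((g • ofComplex z : ℍ) : ℂ)) := by
    filter_upwards [hhu.filter_mono nhdsWithin_le_nhds, haw.filter_mono nhdsWithin_le_nhds,
      (htend.eventually hhu).filter_mono nhdsWithin_le_nhds,
      (htend.eventually haw).filter_mono nhdsWithin_le_nhds, self_mem_nhdsWithin,
      nhdsWithin_le_nhds (isOpen_halfPlane.mem_nhds z₀.im_pos)] with z e1 e2 e3 e4 hz hzH
    simp only [Function.comp_apply, ofComplex_apply, smul_eq_mul] at e1 e2 e3 e4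
    rw [hg] at e3
    rw [hag] at e4
    rw [e1] at e3
    rw [e2] at e4
    have hz' : z - z₀ ≠ 0 := sub_ne_zero.2 hz
    have hne' : ((g • ofComplex z : ℍ) : ℂ) - z₀ ≠ 0 := by
      intro h0
      apply hz
      have : g • ofComplex z = g • z₀ := by rw [hfix]; exact UpperHalfPlane.ext (sub_eq_zero.1 h0)
      have := congrArg UpperHalfPlane.coe (smul_left_cancel g this)
      simpa [ofComplex_apply_of_im_pos hzH] using this
    set p := ((g • ofComplex z : ℍ) : ℂ)
    refine mul_left_cancel₀ (mul_ne_zero (pow_ne_zero k hz') (pow_ne_zero k hne')) ?_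
    linear_combination (-(z - z₀) ^ k * w z) * e3 + (c * (z - z₀) ^ k * u z) * e4
  have hl : Tendsto (fun z => u ((g • ofComplex z : ℍ) : ℂ) * w z) (𝓝[≠] (z₀ : ℂ))
      (𝓝 (u z₀ * w z₀)) :=
    ((hu.continuousAt.tendsto.comp htend).mul hw.continuousAt.tendsto).mono_left
      nhdsWithin_le_nhds
  have hr : Tendsto (fun z => c * (u z * w ((g • ofComplex z : ℍ) : ℂ))) (𝓝[≠] (z₀ : ℂ))
      (𝓝 (c * (u z₀ * w z₀))) :=
    ((hu.continuousAt.tendsto.mul (hw.continuousAt.tendsto.comp htend)).const_mul c).mono_left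
      nhdsWithin_le_nhds
  have := tendsto_nhds_unique (hl.congr' key) hr
  exact mul_right_cancel₀ (mul_ne_zero hu0 hw0) (by rw [one_mul]; exact this.symm)

/-- If `q ^ n` tends to a nonzero limit at `i∞` then a multiplier of `q` under a translation
is `1`. -/
theorem eq_one_of_translate {q : ℍ → ℂ} {A : ℝ} (hA : 0 ≤ A)
    (hq : ContinuousOn (q ∘ ofComplex) {z : ℂ | A < z.im}) {n : ℕ} (hn : n ≠ 0)
    {L : ℂ} (hL : L ≠ 0) (hlim : Tendsto (fun z => q z ^ n) atImInfty (𝓝 L))
    {t : ℝ} {c : ℂ} (ht : ∀ z : ℍ, A < z.im → q (t +ᵥ z) = c * q z) : c = 1 := by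
  have hev : ∀ᶠ z in atImInfty, ‖q z ^ n / L - 1‖ < 1 := by
    have h1 : Tendsto (fun z => q z ^ n / L - 1) atImInfty (𝓝 0) := by
      simpa [hL] using (hlim.div_const L).sub_const 1
    filter_upwards [h1.eventually (Metric.ball_mem_nhds 0 one_pos)] with z hz
    simpa using hz
  obtain ⟨B, hB⟩ := (atImInfty_mem _).mp hev
  set C := max A B + 1
  have hCA : A < C := by simp only [C]; linarith [le_max_left A B]
  have hC0 : 0 < C := hA.trans_lt hCA
  set S : Set ℂ := {z | C < z.im}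
  set Q : ℂ → ℂ := fun z => q (ofComplex z)
  have hQ : ContinuousOn Q S := hq.mono fun z (hz : C < z.im) => hCA.trans hz
  have hball : ∀ z ∈ S, ‖Q z ^ n / L - 1‖ < 1 := fun z (hz : C < z.im) => by
    refine hB (ofComplex z) ?_
    rw [ofComplex_apply_of_im_pos (hC0.trans hz)]
    show B ≤ z.im
    simp only [C] at hz
    linarith [le_max_right A B]
  have hslit : ∀ z ∈ S, Q z ^ n / L ∈ Complex.slitPlane := fun z hz => by
    refine Or.inl ?_
    have := (Complex.abs_re_le_norm _).trans_lt (hball z hz)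
    rw [Complex.sub_re, Complex.one_re] at this
    linarith [(abs_lt.1 this).1]
  set r : ℂ → ℂ := fun z => Complex.exp (Complex.log (Q z ^ n / L) / n)
  have hr : ContinuousOn r S := (((hQ.pow n).div_const L).clog hslit |>.div_const _).cexp
  have hrn : ∀ z ∈ S, r z ^ n = Q z ^ n / L := fun z hz => by
    rw [← Complex.exp_nat_mul, mul_div_cancel₀ _ (by exact_mod_cast hn),
      Complex.exp_log (Complex.slitPlane_ne_zero (hslit z hz))]
  have hfin : {x : ℂ | x ^ n = L}.Finite := by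
    refine ((Polynomial.nthRoots n L).toFinset.finite_toSet).subset ?_
    intro x hx
    simpa [Polynomial.mem_nthRoots (Nat.pos_of_ne_zero hn)] using hx
  have := hfin.to_subtype
  have hmaps : Set.MapsTo (fun z => Q z / r z) S {x : ℂ | x ^ n = L} := fun z hz => by
    have hne : Q z ^ n / L ≠ 0 := Complex.slitPlane_ne_zero (hslit z hz)
    have hQn : Q z ^ n ≠ 0 := fun h => hne (by simp [h])
    simp only [Set.mem_ofPred_eq, div_pow, hrn z hz]
    field_simp
  have hconst : ∀ {x y : ℂ}, x ∈ S → y ∈ S → Q x / r x = Q y / r y := fun hx hy =>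
    (convex_halfSpace_im_gt C).isPreconnected.constant_of_mapsTo
      (hfin.isDiscrete) (hQ.div hr fun z _ => Complex.exp_ne_zero _) hmaps hx hy
  have hall : ∀ z ∈ S, r (z + t) = c * r z := by
    intro z hz
    have hz' : z + t ∈ S := by show C < (z + t).im; simpa using (show C < z.im from hz)
    have hv : Q (z + t) = c * Q z := by
      have him : 0 < z.im := hC0.trans hz
      have him' : 0 < (z + t).im := hC0.trans hz'
      simp only [Q, ofComplex_apply_of_im_pos him, ofComplex_apply_of_im_pos him']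
      rw [← ht ⟨z, him⟩ (hCA.trans hz)]
      congr 1
      ext
      simp [UpperHalfPlane.coe_vadd, add_comm]
    have he' := hconst hz' hz
    simp only [hv] at he'
    rw [div_eq_div_iff (Complex.exp_ne_zero _) (Complex.exp_ne_zero _)] at he'
    have hQz : Q z ≠ 0 := fun h =>
      Complex.slitPlane_ne_zero (hslit z hz) (by simp [h, zero_pow hn])
    refine mul_left_cancel₀ hQz ?_
    linear_combination -he'
  have hr1 : Tendsto (fun z : ℍ => r z) atImInfty (𝓝 1) := by
    have h1 : Tendsto (fun z : ℍ => Q z ^ n / L) atImInfty (𝓝 1) := by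
      simpa [Q, ofComplex_apply, hL] using hlim.div_const L
    have h2 : ContinuousAt (fun x : ℂ => Complex.exp (Complex.log x / n)) 1 :=
      (((continuousAt_clog Complex.one_mem_slitPlane).div_const _).cexp)
    have h3 := h2.tendsto.comp h1
    simp only [Complex.log_one, zero_div, Complex.exp_zero] at h3
    exact h3
  have hvadd : Tendsto (fun z : ℍ => t +ᵥ z) atImInfty atImInfty := by
    rw [atImInfty, tendsto_comap_iff]
    simpa [Function.comp_def, UpperHalfPlane.vadd_im] using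
      (tendsto_comap : Tendsto UpperHalfPlane.im atImInfty atTop)
  have hevS : ∀ᶠ z : ℍ in atImInfty, r ((t +ᵥ z : ℍ) : ℂ) = c * r z := by
    filter_upwards [(atImInfty_mem {z : ℍ | C < z.im}).2 ⟨C + 1, fun z hz => by
      show C < z.im; linarith⟩] with z hz
    rw [UpperHalfPlane.coe_vadd, add_comm]
    exact hall z hz
  have := tendsto_nhds_unique ((hr1.comp hvadd).congr' hevS) (hr1.const_mul c)
  simpa using this.symm

end FLTAgent.JTors
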