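import Fermat.Agent.Periods.Transfer
import Fermat.Agent.ModPoly.Scale
import Fermat.Agent.ModPoly.FunRing
import Fermat.Agent.JTors.RootChar

/-!
Functions composed with the representatives of `T l`, their expansions and their product.
-/

set_option autoImplicit false

noncomputable section

open UpperHalfPlane CongruenceSubgroup Filter Topology
open scoped MatrixGroups Manifold

namespace FLTAgent.JTors

open ModPoly Periods

variable {N l : ℕ}

theorem coe_tRep_none_smul (hl : l ≠ 0) (z : ℍ) :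
    ((tRep l none • z : ℍ) : ℂ) = (l : ℂ) * z :=
  ModularForm.coe_heckeDiagMatrix_smul hl z

theorem coe_tRep_some_smul (hl : l ≠ 0) (j : ZMod l) (z : ℍ) :
    ((tRep l (some j) • z : ℍ) : ℂ) = ((z : ℂ) + (j.val : ℂ)) / l :=
  ModularForm.coe_heckeMatrix_smul hl _ z

/-- An integral matrix with positive determinant is `SL(2, ℤ)` times an upper triangular one. -/
theorem exists_upper_triangular {A B C D : ℤ} (hdet : 0 < A * D - B * C) :
    ∃ (δ : SL(2, ℤ)) (a b d : ℤ), 0 < a ∧ 0 < d ∧ a * d = A * D - B * C ∧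
      ∀ w : ℍ, (A : ℂ) * w + B ≠ 0 → (C : ℂ) * w + D ≠ 0 → ∀ v : ℍ,
        (v : ℂ) = ((A : ℂ) * w + B) / ((C : ℂ) * w + D) →
          ((δ⁻¹ • v : ℍ) : ℂ) = ((a : ℂ) * w + b) / d := by
  have hAC : (Int.gcd A C) ≠ 0 := fun h => by
    obtain ⟨rfl, rfl⟩ := Int.gcd_eq_zero_iff.1 h
    simp at hdet
  obtain ⟨x, y, hxy, hA, hC⟩ := Int.exists_gcd_one (Nat.pos_of_ne_zero hAC)
  obtain ⟨δ, h0, h1⟩ := (Int.isCoprime_iff_gcd_eq_one.2 hxy).exists_SL2_col 0
  set g : ℤ := (Int.gcd A C : ℤ)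
  set u := (δ : Matrix (Fin 2) (Fin 2) ℤ) 0 1
  set v₁ := (δ : Matrix (Fin 2) (Fin 2) ℤ) 1 1
  have hδ : x * v₁ - u * y = 1 := by
    have : (δ : Matrix (Fin 2) (Fin 2) ℤ).det = 1 := δ.2
    rw [Matrix.det_fin_two, h0, h1] at this
    exact this
  have hg : 0 < g := by
    show (0 : ℤ) < (Int.gcd A C : ℤ)
    exact_mod_cast Nat.pos_of_ne_zero hAC
  have hd : g * (x * D - y * B) = A * D - B * C := by rw [hA, hC]; ring
  have hd0 : 0 < x * D - y * B := pos_of_mul_pos_right (hd ▸ hdet) hg.le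
  refine ⟨δ, g, v₁ * B - u * D, x * D - y * B, hg, hd0, hd, fun w _ hw v hv => ?_⟩
  have hδ' : (x : ℂ) * v₁ - u * y = 1 := by exact_mod_cast hδ
  have hA' : (A : ℂ) = x * g := by exact_mod_cast hA
  have hC' : (C : ℂ) = y * g := by exact_mod_cast hC
  have hd0' : ((x : ℂ) * D - y * B) ≠ 0 := by exact_mod_cast hd0.ne'
  have hinv : ((δ⁻¹ : SL(2, ℤ)) : Matrix (Fin 2) (Fin 2) ℤ) = !![v₁, -u; -y, x] := by
    rw [Matrix.SpecialLinearGroup.coe_inv, Matrix.adjugate_fin_two, h0, h1]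
  rw [UpperHalfPlane.coe_specialLinearGroup_apply, hinv, hv]
  simp only [algebraMap_int_eq, eq_intCast, Complex.ofReal_intCast, Matrix.cons_val',
    Matrix.cons_val_zero, Matrix.cons_val_one, Matrix.cons_val_fin_one, Matrix.of_apply]
  set E : ℂ := (C : ℂ) * w + D with hE
  set Nm : ℂ := (A : ℂ) * w + B with hNm
  have h1' : -(y : ℂ) * (Nm / E) + x = ((x : ℂ) * D - y * B) / E := by
    field_simp
    rw [hNm, hE, hA', hC']
    ring
  have h2' : (v₁ : ℂ) * (Nm / E) + -(u : ℂ) = ((g : ℂ) * w + (v₁ * B - u * D)) / E := by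
    field_simp
    rw [hNm, hE, hA', hC']
    linear_combination (g : ℂ) * w * hδ'
  push_cast
  rw [h1', h2', div_div_div_cancel_right₀ hw]

/-- `tRep l x` composed with an element of `SL(2, ℤ)`. -/
theorem exists_tRep_smul_eq [NeZero l] (x : Option (ZMod l)) (δ : SL(2, ℤ)) :
    ∃ (δ' : SL(2, ℤ)) (a b d : ℤ), 0 < a ∧ 0 < d ∧ a * d = l ∧
      ∀ z : ℍ, ((δ'⁻¹ • tRep l x • δ • z : ℍ) : ℂ) = ((a : ℂ) * z + b) / d := by
  have hl := NeZero.ne l
  have hl' : (l : ℂ) ≠ 0 := Nat.cast_ne_zero.2 hl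
  set M := (δ : Matrix (Fin 2) (Fin 2) ℤ) with hM
  have hdet : M 0 0 * M 1 1 - M 0 1 * M 1 0 = 1 := by
    rw [← Matrix.det_fin_two]; exact δ.2
  have hnum : ∀ z : ℍ, ((δ • z : ℍ) : ℂ) =
      ((M 0 0 : ℂ) * z + M 0 1) / ((M 1 0 : ℂ) * z + M 1 1) := fun z => by
    rw [UpperHalfPlane.coe_specialLinearGroup_apply]
    simp [hM]
  have hden : ∀ z : ℍ, (M 1 0 : ℂ) * z + M 1 1 ≠ 0 := fun z => by
    simpa [ModularGroup.denom_apply, hM] using UpperHalfPlane.denom_ne_zero δ z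
  obtain ⟨A, B, C, D, hABCD, hval⟩ : ∃ A B C D : ℤ, A * D - B * C = l ∧ ∀ z : ℍ,
      ((tRep l x • δ • z : ℍ) : ℂ) = ((A : ℂ) * z + B) / ((C : ℂ) * z + D) ∧
        (C : ℂ) * z + D ≠ 0 := by
    rcases x with _ | j
    · refine ⟨(l : ℤ) * M 0 0, (l : ℤ) * M 0 1, M 1 0, M 1 1, by linear_combination (l : ℤ) * hdet,
        fun z => ⟨?_, hden z⟩⟩
      rw [coe_tRep_none_smul hl, hnum]
      push_cast
      rw [mul_div_assoc']
      ring
    · refine ⟨M 0 0 + (j.val : ℤ) * M 1 0, M 0 1 + (j.val : ℤ) * M 1 1, (l : ℤ) * M 1 0,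
        (l : ℤ) * M 1 1, by linear_combination (l : ℤ) * hdet, fun z => ⟨?_, ?_⟩⟩
      · rw [coe_tRep_some_smul hl, hnum]
        push_cast
        have := hden z
        rw [div_add' _ _ _ this, div_div]
        congr 1 <;> ring
      · push_cast
        rw [mul_assoc, ← mul_add]
        exact mul_ne_zero hl' (hden z)
  obtain ⟨δ', a, b, d, ha, hd, had, h⟩ := exists_upper_triangular (A := A) (B := B) (C := C) (D := D)
    (by rw [hABCD]; exact_mod_cast Nat.pos_of_ne_zero hl)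
  refine ⟨δ', a, b, d, ha, hd, had.trans hABCD, fun z => h z ?_ (hval z).2 _ (hval z).1⟩
  intro h0
  have := (tRep l x • δ • z : ℍ).ne_zero
  rw [(hval z).1, h0, zero_div] at this
  exact this rfl

/-- Expansions of `g ∘ tRep l x ∘ δ`. -/
theorem comp_tRep_mem_expRing [NeZero N] [NeZero l] {g : ℍ → ℂ} (hg : g ∈ modFunRing N)
    (x : Option (ZMod l)) (δ : SL(2, ℤ)) :
    (fun z : ℍ => g (tRep l x • δ • z)) ∈ expRing (N * l) := by
  obtain ⟨δ', a, b, d, ha, hd, had, h⟩ := exists_tRep_smul_eq x δ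
  obtain ⟨a, rfl⟩ := Int.eq_ofNat_of_zero_le ha.le
  obtain ⟨d, rfl⟩ := Int.eq_ofNat_of_zero_le hd.le
  have had' : a * d = l := by exact_mod_cast had
  have : NeZero a := ⟨fun h => by simp [h] at ha⟩
  have : NeZero d := ⟨fun h => by simp [h] at hd⟩
  obtain ⟨x₀, hx₀⟩ := comp_smul_mem_expRing hg δ'
  set φ : ℍ → ℍ := fun z => δ'⁻¹ • tRep l x • δ • z
  have hφ : Tendsto φ atImInfty atImInfty := by
    rw [atImInfty, tendsto_comap_iff]
    have hd' : (0 : ℝ) < d := by exact_mod_cast NeZero.pos d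
    have ha' : (0 : ℝ) < a := by exact_mod_cast NeZero.pos a
    refine ((tendsto_comap (f := UpperHalfPlane.im) (x := atTop)).const_mul_atTop
      (div_pos ha' hd')).congr fun z => ?_
    show (a : ℝ) / d * z.im = (φ z : ℂ).im
    rw [h]
    push_cast
    simp
    ring
  have hq : ∀ z : ℍ, Function.Periodic.qParam (N : ℝ) (φ z : ℂ) =
      (Units.mk0 (Complex.exp (2 * Real.pi * Complex.I * b / (N * d : ℕ))) (Complex.exp_ne_zero _) :
        ℂˣ) * Function.Periodic.qParam ((N * d : ℕ) : ℝ) z ^ a := fun z => by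
    rw [Units.val_mk0, h, Function.Periodic.qParam, Function.Periodic.qParam,
      ← Complex.exp_nat_mul, ← Complex.exp_add]
    congr 1
    have : (N : ℂ) ≠ 0 := Nat.cast_ne_zero.2 (NeZero.ne N)
    have : (d : ℂ) ≠ 0 := Nat.cast_ne_zero.2 (NeZero.ne d)
    push_cast
    field_simp
    ring
  have : NeZero (N * d) := ⟨Nat.mul_ne_zero (NeZero.ne N) (NeZero.ne d)⟩
  have hexp := (hx₀.comp_scale _ hφ hq).width_mul (k := a)
  rw [mul_assoc N d a, mul_comm d a, had'] at hexp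
  refine Expands.mem_expRing (hexp.congr_fun' (Eventually.of_forall fun z => ?_))
  simp [φ]

/-- The product over the representatives of `T l`. -/
def tProd (l : ℕ) [NeZero l] (F : ℍ → ℂ) : ℍ → ℂ := fun z => ∏ x, F (tRep l x • z)

theorem mdifferentiable_tProd [NeZero l] {F : ℍ → ℂ} (hF : MDiff F) : MDiff (tProd l F) := by
  have : tProd l F = ∏ x : Option (ZMod l), fun z : ℍ => F (tRep l x • z) := by
    funext z; simp [tProd]
  rw [this]
  exact MDifferentiable.prod fun x _ =>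
    hF.comp (UpperHalfPlane.mdifferentiable_smul (tRep_det_pos l x))

/-- Transformation of the product. -/
theorem tProd_smul [NeZero l] {F : ℍ → ℂ} {c : Gamma0 N → ℂ}
    (hF : ∀ (γ : Gamma0 N) (z : ℍ), F ((γ : SL(2, ℤ)) • z) = c γ * F z) {γ : Gamma0 N}
    {σ : Equiv.Perm (Option (ZMod l))} {δ : Option (ZMod l) → Gamma0 N}
    (h : IsTransfer (tRep l) γ σ δ) (z : ℍ) :
    tProd l F ((γ : SL(2, ℤ)) • z) = (∏ x, c (δ x)) * tProd l F z := by
  have : ∀ x, tRep l x • (γ : SL(2, ℤ)) • z = (δ x : SL(2, ℤ)) • tRep l (σ x) • z := fun x => by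
    rw [ModularGroup.sl_moeb, ModularGroup.sl_moeb, ← mul_smul, ← mul_smul, h x]
  simp only [tProd, this, hF, Finset.prod_mul_distrib]
  congr 1
  exact Equiv.prod_comp σ (fun x => F (tRep l x • z))

theorem tProd_mem_modFunRing [NeZero N] (hl : l.Prime) (hlN : ¬ l ∣ N) [NeZero l] {g : ℍ → ℂ}
    (hg : g ∈ modFunRing N) : tProd l g ∈ modFunRing N := by
  have : Fact l.Prime := ⟨hl⟩
  refine mem_modFunRing_of_isBounded (mdifferentiable_tProd hg.1) (fun γ hγ z => ?_) fun δ => ?_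
  · obtain ⟨σ, δ, h⟩ := exists_isTransfer_tRep hlN ⟨γ, hγ⟩
    have := tProd_smul (c := fun _ => 1)
      (fun γ z => by simpa using smul_eq_of_mem hg γ.2 z) h z
    simpa using this
  · have hmem : (∏ x : Option (ZMod l), fun z : ℍ => g (tRep l x • δ • z)) ∈ expRing (N * l) :=
      prod_mem fun x _ => comp_tRep_mem_expRing hg x δ
    obtain ⟨m, hm⟩ := exists_isBounded_of_mem_expRing hmem
    refine ⟨m, Asymptotics.IsBigO.trans (Asymptotics.isBigO_of_le _ fun z => ?_) hm⟩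
    rw [norm_mul, norm_mul, norm_pow, norm_pow, Function.Periodic.norm_qParam,
      Function.Periodic.norm_qParam, show tProd l g (δ • z) =
        (∏ x : Option (ZMod l), fun z : ℍ => g (tRep l x • δ • z)) z by simp [tProd]]
    gcongr ?_ ^ _ * _
    rw [Real.exp_le_exp, neg_mul, neg_mul, neg_div, neg_div, neg_le_neg_iff]
    refine div_le_div_of_nonneg_left (by positivity [z.im_pos]) (by exact_mod_cast NeZero.pos N) ?_
    exact_mod_cast Nat.le_mul_of_pos_right N (NeZero.pos l)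

/-- Elements of `Γ₀(N)` moving `z ↦ l z` onto the representatives of `T l`. -/
theorem exists_gamma0_tRep [NeZero N] (hl : l.Prime) (hlN : ¬ l ∣ N) :
    ∃ δ γ : Option (ZMod l) → Gamma0 N,
      (∀ (x : Option (ZMod l)) (z : ℍ),
        tRep l none • (δ x : SL(2, ℤ)) • z = (γ x : SL(2, ℤ)) • tRep l x • z) ∧
      ∀ x y, (δ x : SL(2, ℤ)) * (δ y : SL(2, ℤ))⁻¹ ∈ Gamma0 (N * l) → x = y := by
  have : Fact l.Prime := ⟨hl⟩
  have : NeZero l := ⟨hl.ne_zero⟩
  have hcop : Nat.Coprime N l := (hl.coprime_iff_not_dvd.2 hlN).symm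
  have hex : ∀ j : ZMod l, ∃ δ γ : Gamma0 N,
      (∀ z : ℍ, tRep l none • (δ : SL(2, ℤ)) • z = (γ : SL(2, ℤ)) • tRep l (some j) • z) ∧
      ((δ : SL(2, ℤ)) : Matrix (Fin 2) (Fin 2) ℤ) 1 0 = N ∧
      ((((δ : SL(2, ℤ)) : Matrix (Fin 2) (Fin 2) ℤ) 1 1 : ℤ) : ZMod l) = j * N := by
    intro j
    obtain ⟨d, hd1, hd2⟩ := Nat.chineseRemainder hcop 1 (j.val * N)
    have hdN : IsCoprime (N : ℤ) (d : ℤ) := by
      rw [Int.isCoprime_iff_gcd_eq_one, Int.gcd_natCast_natCast]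
      have := hd1.gcd_eq
      rwa [Nat.gcd_one_left, Nat.gcd_comm] at this
    obtain ⟨δ, hδ⟩ := hdN.exists_SL2_row 1
    set M := (δ : Matrix (Fin 2) (Fin 2) ℤ) with hM
    have hδmem : δ ∈ Gamma0 N := by
      rw [Gamma0_mem]
      show ((M 1 0 : ℤ) : ZMod N) = 0
      rw [hδ.1]
      simp
    have hdet : M 0 0 * M 1 1 - M 0 1 * M 1 0 = 1 := by
      rw [← Matrix.det_fin_two]; exact δ.2
    have hdvd : (l : ℤ) ∣ (M 1 1 - (j.val : ℤ) * N) := by
      rw [hδ.2]
      have := Nat.modEq_iff_dvd.1 hd2.symm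
      push_cast at this ⊢
      exact this
    obtain ⟨e, he⟩ := hdvd
    let G : SL(2, ℤ) := ⟨!![(l : ℤ) * M 0 0, M 0 1 - (j.val : ℤ) * M 0 0; (N : ℤ), e], by
      rw [Matrix.det_fin_two_of]
      rw [hδ.1] at hdet
      linear_combination hdet - M 0 0 * he⟩
    have hGmem : G ∈ Gamma0 N := by
      rw [Gamma0_mem]
      simp [G]
    refine ⟨⟨δ, hδmem⟩, ⟨G, hGmem⟩, fun z => UpperHalfPlane.ext ?_, hδ.1, ?_⟩
    · have hl' : (l : ℂ) ≠ 0 := Nat.cast_ne_zero.2 hl.ne_zero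
      have hden : (M 1 0 : ℂ) * z + M 1 1 ≠ 0 := by
        simpa [ModularGroup.denom_apply, hM] using UpperHalfPlane.denom_ne_zero δ z
      have he' : (e : ℂ) * l = (M 1 1 : ℂ) - j.val * N := by
        have := congrArg (fun t : ℤ => (t : ℂ)) he
        push_cast at this
        linear_combination -this
      rw [hδ.1] at hden
      push_cast at hden
      rw [coe_tRep_none_smul hl.ne_zero, UpperHalfPlane.coe_specialLinearGroup_apply,
        UpperHalfPlane.coe_specialLinearGroup_apply, coe_tRep_some_smul hl.ne_zero]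
      simp [G, hM ▸ hδ.1, -ZMod.natCast_val]
      rw [show (N : ℂ) * (((z : ℂ) + (j.val : ℂ)) / l) + e = ((N : ℂ) * z + M 1 1) / l by
        field_simp; linear_combination he']
      rw [← hM]
      field_simp
      ring
    · show ((M 1 1 : ℤ) : ZMod l) = _
      rw [hδ.2]
      have := (ZMod.natCast_eq_natCast_iff _ _ l).2 hd2
      push_cast at this ⊢
      rwa [ZMod.natCast_zmod_val] at this
  choose δ γ h hc hd using hex
  refine ⟨fun x => x.elim 1 δ, fun x => x.elim 1 γ, ?_, ?_⟩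
  · rintro (_ | j) z
    · simp
    · exact h j z
  · intro x y hxy
    have hl0 : ¬ ((N * l : ℕ) : ℤ) ∣ (N : ℤ) := fun hh => by
      have := Nat.le_of_dvd (NeZero.pos N) (Int.natCast_dvd_natCast.1 hh)
      have := Nat.mul_le_mul_left N hl.two_le
      have := NeZero.pos N
      omega
    rcases x with _ | i <;> rcases y with _ | j
    · rfl
    · exfalso
      simp only [Option.elim, OneMemClass.coe_one, one_mul] at hxy
      rw [Gamma0_mem, ZMod.intCast_zmod_eq_zero_iff_dvd] at hxy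
      simp [Matrix.adjugate_fin_two, hc] at hxy
      exact hl0 hxy
    · exfalso
      simp only [Option.elim, OneMemClass.coe_one, inv_one, mul_one] at hxy
      rw [Gamma0_mem, ZMod.intCast_zmod_eq_zero_iff_dvd, hc] at hxy
      exact hl0 hxy
    · simp only [Option.elim] at hxy
      rw [Gamma0_mem, ZMod.intCast_zmod_eq_zero_iff_dvd] at hxy
      simp [Matrix.mul_apply, Fin.sum_univ_two, Matrix.adjugate_fin_two, hc] at hxy
      congr 1
      set di := ((δ i : SL(2, ℤ)) : Matrix (Fin 2) (Fin 2) ℤ) 1 1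
      set dj := ((δ j : SL(2, ℤ)) : Matrix (Fin 2) (Fin 2) ℤ) 1 1
      have h1 : (l : ℤ) ∣ dj - di := by
        refine Int.dvd_of_mul_dvd_mul_left (a := (N : ℤ)) (by exact_mod_cast NeZero.ne N) ?_
        convert hxy using 1
        ring
      have h2 : ((di : ℤ) : ZMod l) = (dj : ZMod l) :=
        ((ZMod.intCast_eq_intCast_iff_dvd_sub _ _ l).2 h1)
      rw [hd i, hd j] at h2
      refine mul_right_cancel₀ ?_ h2
      rw [Ne, ZMod.natCast_eq_zero_iff]
      exact hlN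

end FLTAgent.JTors
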