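import Fermat.Agent.Genus.Cosets
import Fermat.Agent.Hecke.DegMaps
import Fermat.Agent.ModPoly.Phi

/-!
The expansions of the holomorphic modular functions lie in the field generated by `j` and `jN`.
-/

set_option autoImplicit false

noncomputable section

open ModularCurve UpperHalfPlane Polynomial CongruenceSubgroup
open scoped MatrixGroups Manifold

namespace FLTAgent.JTors

open ModPoly Genus

variable {N : ℕ} [NeZero N]

local instance fintypeCosetsN : Fintype (Cosets N) := Fintype.ofFinite _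

local instance decEqCosetsN : DecidableEq (Cosets N) := Classical.decEq _

omit [NeZero N] in
theorem cosetFun_mem_holExp (q : Cosets N) (g : modFunRing N) :
    cosetFun q (g : ℍ → ℂ) ∈ holExp N :=
  ⟨mdiff_cosetFun g.2 q, comp_smul_mem_expRing g.2 _⟩

/-- Interpolation over the cosets. -/
def interpPoly (g : modFunRing N) : (ℍ → ℂ)[X] :=
  ∑ q : Cosets N, C (cosetFun q (g : ℍ → ℂ)) *
    ∏ r ∈ Finset.univ.erase q, (X - C (cosetFun r (jMul N)))

theorem map_interpPoly (g : modFunRing N) (γ : SL(2, ℤ)) :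
    (interpPoly g).map (compHom γ) = interpPoly g := by
  have hJ : jMul N ∈ modFunRing N := jMul_mem dvd_rfl
  have hc : ∀ {f : ℍ → ℂ}, f ∈ modFunRing N → ∀ q : Cosets N,
      compHom γ (cosetFun q f) = cosetFun (γ⁻¹ • q) f := fun hf q => by
    rw [cosetFun_inv_smul hf]
    rfl
  rw [interpPoly, Polynomial.map_sum]
  refine Fintype.sum_equiv (MulAction.toPerm γ⁻¹) _ _ fun q => ?_
  rw [Polynomial.map_mul, Polynomial.map_C, hc g.2, Polynomial.map_prod, MulAction.toPerm_apply]
  congr 1
  refine Finset.prod_equiv (MulAction.toPerm γ⁻¹) (fun r => ?_) fun r _ => ?_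
  · simp [(MulAction.injective γ⁻¹).eq_iff]
  · rw [Polynomial.map_sub, Polynomial.map_X, Polynomial.map_C, hc hJ, MulAction.toPerm_apply]

theorem coeff_interpPoly (g : modFunRing N) (i : ℕ) :
    ∃ P : ℂ[X], (interpPoly g).coeff i = evalJFun P := by
  set P₀ : (holExp N)[X] := ∑ q : Cosets N, C ⟨_, cosetFun_mem_holExp q g⟩ *
    ∏ r ∈ Finset.univ.erase q,
      (X - C ⟨_, cosetFun_mem_holExp r ⟨jMul N, jMul_mem dvd_rfl⟩⟩)
  have hmap : P₀.map (holExp N).val.toRingHom = interpPoly g := by
    simp only [P₀, interpPoly, Polynomial.map_sum, Polynomial.map_mul, Polynomial.map_prod,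
      Polynomial.map_sub, Polynomial.map_X, Polynomial.map_C]
    rfl
  have hinv : ∀ (γ : SL(2, ℤ)) (τ : ℍ),
      (interpPoly g).coeff i (γ • τ) = (interpPoly g).coeff i τ := fun γ τ => by
    conv_rhs => rw [← map_interpPoly g γ, Polynomial.coeff_map]
    rfl
  have hmem : (interpPoly g).coeff i ∈ holExp N := by
    rw [← hmap, Polynomial.coeff_map]
    exact (P₀.coeff i).2
  have hN : (interpPoly g).coeff i ∈ modFunRing N := ⟨hmem.1, fun γ _ τ => hinv γ τ, fun γ => by
    rw [funext (hinv γ)]; exact hmem.2⟩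
  refine exists_polynomial_of_mem_modFunRing_one
    ⟨hmem.1, fun γ _ τ => hinv γ τ, fun γ => ?_⟩
  rw [funext (hinv γ)]
  exact mem_expRing_one hN

/-- The derivative of the modular equation at `jN`. -/
def interpDen : ℍ → ℂ :=
  ∏ r ∈ (Finset.univ : Finset (Cosets N)).erase (QuotientGroup.mk 1),
    (jMul N - cosetFun r (jMul N))

theorem eval_interpPoly (g : modFunRing N) :
    (interpPoly g).eval (jMul N) = (g : ℍ → ℂ) * interpDen (N := N) := by
  have h1 : ∀ {f : ℍ → ℂ}, f ∈ modFunRing N →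
      cosetFun (QuotientGroup.mk 1 : Cosets N) f = f := fun hf => by
    rw [cosetFun_mk hf]
    simp
  rw [interpPoly, eval_finsetSum, Finset.sum_eq_single (QuotientGroup.mk 1 : Cosets N)]
  · simp [eval_prod, interpDen, h1 g.2]
  · intro q _ hq
    rw [eval_mul, eval_prod, Finset.prod_eq_zero (i := (QuotientGroup.mk 1 : Cosets N))
      (Finset.mem_erase.2 ⟨hq.symm, Finset.mem_univ _⟩), mul_zero]
    simp [h1 (jMul_mem (dvd_refl N))]
  · simp

theorem interpDen_ne_zero : interpDen (N := N) ≠ 0 := by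
  have hJ : jMul N ∈ modFunRing N := jMul_mem dvd_rfl
  intro h
  obtain ⟨r, hr, h0⟩ := (UpperHalfPlane.prod_eq_zero_iff
    (f := fun r : Cosets N => jMul N - cosetFun r (jMul N))
    (fun r _ => hJ.1.sub (mdiff_cosetFun hJ r))).1 h
  refine (Finset.mem_erase.1 hr).1 (cosetFun_jMul_injective (N := N) ?_)
  show cosetFun r (jMul N) = cosetFun (QuotientGroup.mk 1 : Cosets N) (jMul N)
  rw [cosetFun_mk hJ, ← sub_eq_zero.1 h0]
  simp

omit [NeZero N] in
theorem jqModC_mem_laurentBaseChange :
    jqModC ℂ ∈ laurentBaseChange ℂ (modularFunctionFieldFull N) := by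
  rw [← Hecke.coeffEmb_jq]
  refine coeffEmb_mem_laurentBaseChange ℂ (IntermediateField.subset_adjoin _ _ ?_)
  exact ⟨1, inferInstance, one_dvd N, by simp [qExpand_one_apply]⟩

theorem jqNModC_mem_laurentBaseChange :
    qExpand ℂ N (jqModC ℂ) ∈ laurentBaseChange ℂ (modularFunctionFieldFull N) := by
  rw [← Hecke.coeffEmb_jq, ← Hecke.coeffEmb_qExpand]
  exact coeffEmb_mem_laurentBaseChange ℂ (IntermediateField.subset_adjoin _ _
    (mem_divisorExpansions N dvd_rfl))

/-- Expansions of holomorphic modular functions are modular functions. -/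
theorem qL_mem_laurentBaseChange (g : modFunRing N) :
    qL N g ∈ laurentBaseChange ℂ (modularFunctionFieldFull N) := by
  have key : ∀ g : modFunRing N, ∃ w : modFunRing N,
      qL N w ∈ laurentBaseChange ℂ (modularFunctionFieldFull N) ∧
        (w : ℍ → ℂ) = (g : ℍ → ℂ) * interpDen (N := N) := by
    intro g
    choose P hP using coeff_interpPoly g
    set jm : modFunRing N := ⟨jFun, jFun_mem⟩
    set Jm : modFunRing N := ⟨jMul N, jMul_mem dvd_rfl⟩
    refine ⟨∑ i ∈ Finset.range ((interpPoly g).natDegree + 1), aeval jm (P i) * Jm ^ i, ?_, ?_⟩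
    · have hjm : qL N jm = jqModC ℂ := qL_eq_of_expands expands_jFun
      rw [map_sum]
      refine sum_mem fun i _ => ?_
      rw [map_mul, map_pow, ← aeval_algHom_apply, hjm, qL_jMul dvd_rfl]
      refine mul_mem ?_ (pow_mem jqNModC_mem_laurentBaseChange i)
      rw [aeval_eq_sum_range]
      exact sum_mem fun k _ => SMulMemClass.smul_mem _ (pow_mem jqModC_mem_laurentBaseChange k)
    · rw [← eval_interpPoly g, eval_eq_sum_range, ← Subalgebra.val_apply, map_sum]
      refine Finset.sum_congr rfl fun i _ => ?_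
      rw [map_mul, map_pow, ← aeval_algHom_apply, hP i, evalJFun_eq_aeval]
      rfl
  obtain ⟨w, hw, hwe⟩ := key g
  obtain ⟨w₁, hw₁, hwe₁⟩ := key 1
  have hw₁0 : qL N w₁ ≠ 0 := (map_ne_zero_iff _ qL_injective).2 fun h => by
    rw [h] at hwe₁
    exact interpDen_ne_zero (by simpa using hwe₁.symm)
  have hmul : g * w₁ = w := Subtype.ext (by simp [hwe, hwe₁])
  have : qL N g = qL N w / qL N w₁ := by
    rw [← hmul, map_mul, mul_div_cancel_right₀ _ hw₁0]
  rw [this]
  exact div_mem hw hw₁

end FLTAgent.JTors
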