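import Mathlib.RingTheory.LaurentSeries
import Mathlib.Algebra.Field.Subfield.Basic

/-!
If a power of a Laurent series has coefficients in a subfield (characteristic zero), so does the
series, provided its leading coefficient does.
-/

open HahnSeries

namespace FLTAgent.JTors

theorem coeff_mem_of_pow_coeff_mem {L : Type*} [Field L] [CharZero L] (K : Subfield L)
    {X : LaurentSeries L} {n : ℕ} (hn : n ≠ 0) (hlead : X.coeff X.order ∈ K)
    (hpow : ∀ k, (X ^ n).coeff k ∈ K) : ∀ k, X.coeff k ∈ K := by
  classical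
  rcases eq_or_ne X 0 with rfl | hX
  · simp
  by_contra hcon
  push Not at hcon
  have hex : ∃ d : ℕ, X.coeff (X.order + d) ∉ K := by
    obtain ⟨k, hk⟩ := hcon
    refine ⟨(k - X.order).toNat, ?_⟩
    have hle : X.order ≤ k := HahnSeries.order_le_of_coeff_ne_zero fun h => hk (h ▸ zero_mem K)
    rwa [Int.toNat_of_nonneg (by omega), add_sub_cancel]
  set d := Nat.find hex
  have hd : X.coeff (X.order + d) ∉ K := Nat.find_spec hex
  have hd0 : d ≠ 0 := fun h => hd (by simp [h]; exact hlead)
  set i : ℤ := X.order + d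
  let A : LaurentSeries L :=
    { coeff := fun k => if k < i then X.coeff k else 0
      isPWO_support' := X.isPWO_support.mono fun k hk => by
        simp only [Function.mem_support, HahnSeries.mem_support] at hk ⊢
        exact fun h => hk (by simp [h]) }
  have hAK : ∀ k, A.coeff k ∈ K := fun k => by
    show (if k < i then X.coeff k else 0) ∈ K
    split_ifs with hk
    · by_contra hnot
      have hle : X.order ≤ k := HahnSeries.order_le_of_coeff_ne_zero fun h => hnot (h ▸ zero_mem K)
      refine Nat.find_min hex (m := (k - X.order).toNat) (by omega) ?_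
      rwa [Int.toNat_of_nonneg (by omega), add_sub_cancel]
    · exact zero_mem K
  have hmulK : ∀ {P Q : LaurentSeries L}, (∀ k, P.coeff k ∈ K) → (∀ k, Q.coeff k ∈ K) →
      ∀ k, (P * Q).coeff k ∈ K := by
    intro P Q hP hQ k
    rw [HahnSeries.coeff_mul]
    exact sum_mem fun ij _ => mul_mem (hP _) (hQ _)
  have hAn : ∀ m k, (A ^ m).coeff k ∈ K := by
    intro m
    induction m with
    | zero =>
      intro k; rw [pow_zero, HahnSeries.coeff_one]; split_ifs
      · exact one_mem K
      · exact zero_mem K
    | succ m ih => intro k; rw [pow_succ]; exact hmulK ih hAK k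
  set B := X - A
  have hBlow : ∀ k < i, B.coeff k = 0 := fun k hk => by simp [B, A, hk]
  have hBi : B.coeff i = X.coeff i := by simp [B, A]
  have hb : B.coeff i ≠ 0 := by rw [hBi]; exact fun h => hd (h ▸ zero_mem K)
  -- `X ^ n - A ^ n = B * ∑ X ^ j * A ^ (n - 1 - j)`
  set S := ∑ j ∈ Finset.range n, X ^ j * A ^ (n - 1 - j)
  have hS : X ^ n - A ^ n = B * S := by
    rw [mul_comm]; exact (geom_sum₂_mul X A n).symm
  set m : ℤ := ((n - 1 : ℕ) : ℤ) * X.order
  set c := X.coeff X.order
  have hc : c ≠ 0 := HahnSeries.coeff_order_eq_zero.not.2 hX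
  have hAlow : ∀ k < X.order, A.coeff k = 0 := fun k hk => by
    simp [A, HahnSeries.coeff_eq_zero_of_lt_order hk]
  have hAc : A.coeff X.order = c := by
    simp only [A]
    rw [if_pos (by omega)]
  -- lowest coefficients of products
  have low : ∀ {P Q : LaurentSeries L} {p q : ℤ}, (∀ k < p, P.coeff k = 0) →
      (∀ k < q, Q.coeff k = 0) →
      (∀ k < p + q, (P * Q).coeff k = 0) ∧ (P * Q).coeff (p + q) = P.coeff p * Q.coeff q := by
    intro P Q p q hP hQ
    refine ⟨fun k hk => ?_, ?_⟩
    · rw [HahnSeries.coeff_mul]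
      refine Finset.sum_eq_zero fun ij hij => ?_
      rw [Finset.mem_antidiagonal] at hij
      by_cases h1 : ij.1 < p
      · rw [hP _ h1, zero_mul]
      · rw [hQ ij.2 (by omega), mul_zero]
    · rw [HahnSeries.coeff_mul, Finset.sum_eq_single (p, q)]
      · intro ij hij hne
        rw [Finset.mem_antidiagonal] at hij
        by_cases h1 : ij.1 < p
        · rw [hP _ h1, zero_mul]
        · by_cases h2 : ij.2 < q
          · rw [hQ _ h2, mul_zero]
          · exact absurd (Prod.ext (by omega) (by omega)) hne
      · intro hnot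
        simp only [Finset.mem_antidiagonal, HahnSeries.mem_support, ne_eq, not_and,
          and_true] at hnot
        by_cases hp : P.coeff p = 0
        · rw [hp, zero_mul]
        · by_cases hq : Q.coeff q = 0
          · rw [hq, mul_zero]
          · exact (hnot hp hq).elim
  have pows : ∀ {P : LaurentSeries L}, (∀ k < X.order, P.coeff k = 0) → P.coeff X.order = c →
      ∀ j : ℕ, (∀ k < (j : ℤ) * X.order, (P ^ j).coeff k = 0) ∧
        (P ^ j).coeff ((j : ℤ) * X.order) = c ^ j := by
    intro P hP hPc j
    induction j with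
    | zero =>
      refine ⟨fun k hk => ?_, by simp⟩
      rw [pow_zero, HahnSeries.coeff_one, if_neg]
      simp at hk; omega
    | succ j ih =>
      have := low ih.1 hP
      rw [pow_succ, show ((j + 1 : ℕ) : ℤ) * X.order = (j : ℤ) * X.order + X.order by push_cast; ring]
      exact ⟨this.1, by rw [this.2, ih.2, hPc, pow_succ]⟩
  have hSlow : (∀ k < m, S.coeff k = 0) ∧ S.coeff m = (n : L) * c ^ (n - 1) := by
    have hterm : ∀ j ∈ Finset.range n, (∀ k < m, (X ^ j * A ^ (n - 1 - j)).coeff k = 0) ∧
        (X ^ j * A ^ (n - 1 - j)).coeff m = c ^ (n - 1) := by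
      intro j hj
      rw [Finset.mem_range] at hj
      obtain ⟨h1, h1'⟩ := pows (P := X) (fun k hk => HahnSeries.coeff_eq_zero_of_lt_order hk) rfl j
      obtain ⟨h2, h2'⟩ := pows hAlow hAc (n - 1 - j)
      have := low h1 h2
      have hm : (j : ℤ) * X.order + ((n - 1 - j : ℕ) : ℤ) * X.order = m := by
        rw [← add_mul, ← Nat.cast_add, Nat.add_sub_cancel' (by omega)]
      rw [hm] at this
      refine ⟨this.1, ?_⟩
      rw [this.2, h1', h2', ← pow_add, Nat.add_sub_cancel' (by omega)]
    refine ⟨fun k hk => ?_, ?_⟩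
    · rw [HahnSeries.coeff_sum]
      exact Finset.sum_eq_zero fun j hj => (hterm j hj).1 k hk
    · rw [HahnSeries.coeff_sum, Finset.sum_congr rfl fun j hj => (hterm j hj).2]
      simp
  have key := (low hBlow hSlow.1).2
  rw [← hS, hSlow.2, hBi] at key
  have hmem : X.coeff i * ((n : L) * c ^ (n - 1)) ∈ K := by
    rw [← key, HahnSeries.coeff_sub]
    exact sub_mem (hpow _) (hAn n _)
  have hne : (n : L) * c ^ (n - 1) ≠ 0 := mul_ne_zero (Nat.cast_ne_zero.2 hn) (pow_ne_zero _ hc)
  apply hd
  have := div_mem hmem (mul_mem (natCast_mem K n) (pow_mem hlead (n - 1)))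
  rwa [mul_div_cancel_right₀ _ hne] at this

end FLTAgent.JTors
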