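import Fermat.Agent.JTors.RootData
import Fermat.Agent.JTors.Generate
import Fermat.Agent.JTors.SeriesRoot
import Fermat.Agent.Periods.ParQuot

/-!
Root characters are trivial on parabolic and elliptic elements, and determine `f` up to `n`-th
powers.
-/

set_option autoImplicit false

noncomputable section

open ModularCurve AlgebraicCurve UpperHalfPlane Filter Topology CongruenceSubgroup
open scoped MatrixGroups Manifold

namespace FLTAgent.JTors

open ModPoly

variable {N : ℕ} [NeZero N] {n : ℕ} {f : modularFunctionFieldBar N} {χ : Gamma0 N →* ℂˣ}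

omit [NeZero N] in
theorem smul_upper_eq_vadd {P : SL(2, ℤ)} (h10 : (P : Matrix (Fin 2) (Fin 2) ℤ) 1 0 = 0) :
    ∃ t : ℤ, ∀ z : ℍ, P • z = (t : ℝ) +ᵥ z := by
  set M := (P : Matrix (Fin 2) (Fin 2) ℤ) with hM
  have hdet : M 0 0 * M 1 1 = 1 := by
    have := P.2
    rw [Matrix.det_fin_two, ← hM, h10, mul_zero, sub_zero] at this
    exact this
  refine ⟨M 0 1 * M 1 1, fun z => UpperHalfPlane.ext ?_⟩
  rw [UpperHalfPlane.coe_specialLinearGroup_apply, UpperHalfPlane.coe_vadd]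
  simp only [algebraMap_int_eq, eq_intCast, Complex.ofReal_intCast]
  rw [← hM, h10]
  rcases Int.eq_one_or_neg_one_of_mul_eq_one hdet with e | e
  · rw [e, one_mul] at hdet
    rw [e, hdet]
    simp [add_comm]
  · rw [e, neg_one_mul, neg_eq_iff_eq_neg] at hdet
    rw [e, hdet]
    simp
    ring

omit [NeZero N] in
theorem leadingCoeff_pow_eq (X : LaurentSeries ℂ) :
    ∀ k : ℕ, (X ^ k).leadingCoeff = X.leadingCoeff ^ k
  | 0 => by simp
  | k + 1 => by rw [pow_succ, pow_succ, HahnSeries.leadingCoeff_mul, leadingCoeff_pow_eq X k]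

/-- Root characters are trivial on elliptic elements. -/
theorem IsRootChar.eq_one_of_fixed_pt (hn : n ≠ 0)
    (hdiv : ∀ v : Place (AlgebraicClosure ℚ) (modularFunctionFieldBar N), (n : ℤ) ∣ v.ord f)
    (hf : f ≠ 0) (H : IsRootChar n f χ) {γ : Gamma0 N} {z₀ : ℍ}
    (hfix : (γ : SL(2, ℤ)) • z₀ = z₀) : χ γ = 1 := by
  obtain ⟨h, b, hd, hχ⟩ := H
  obtain ⟨g, hg, hgp⟩ := hd.eq
  have hψ := diskExp_injective (N := N) z₀
  set φ := expEmb N (diskExp N z₀) hψ
  obtain ⟨p, hp0, hp⟩ := exists_order_eq_mul N hdiv (diskExp N z₀) hψ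
  obtain ⟨a', c', hc', hac⟩ := exists_frac N p
  have ha' : a' ≠ 0 := by
    rintro rfl
    rw [map_zero] at hac
    rcases mul_eq_zero.1 hac with h1 | h1
    · exact hp0 ((map_eq_zero_iff _ (toC_injective (N := N))).1 h1)
    · exact hc' ((map_eq_zero_iff _ (qL_injective (N := N))).1 h1)
  have hφp : φ p ≠ 0 := (map_ne_zero φ).2 hp0
  have hφf : φ f ≠ 0 := (map_ne_zero φ).2 hf
  have hc'0 : diskExp N z₀ c' ≠ 0 := (map_ne_zero_iff _ hψ).2 hc'
  have hb0 : diskExp N z₀ b ≠ 0 := (map_ne_zero_iff _ hψ).2 hd.b_ne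
  have e1 := congrArg HahnSeries.order (expEmb_mul N (diskExp N z₀) hψ hac)
  rw [HahnSeries.order_mul hφp hc'0] at e1
  have e2 := congrArg HahnSeries.order (expEmb_mul N (diskExp N z₀) hψ (f := f) (a := g)
    (b := b ^ n) (by rw [map_pow]; exact hg))
  rw [map_pow, HahnSeries.order_mul hφf (pow_ne_zero n hb0), HahnSeries.order_pow,
    nsmul_eq_mul, hp] at e2
  have hge : (g : ℍ → ℂ) = h ^ n := funext fun z => (hgp z).symm
  have e3 : (diskExp N z₀ g).order = n * (Genus.diskSeries z₀ h).order := by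
    rw [diskExp_apply (g := g), hge, diskSeries_pow hd.mdiff, HahnSeries.order_pow, nsmul_eq_mul]
  rw [e3, ← mul_add] at e2
  have e4 := mul_left_cancel₀ (Nat.cast_ne_zero.2 hn : (n : ℤ) ≠ 0) e2
  have hhne : Genus.diskSeries z₀ h ≠ 0 := fun h0 =>
    hd.ne (Genus.eq_zero_of_diskSeries_eq_zero z₀ hd.mdiff h0)
  have hne1 : h * (c' : ℍ → ℂ) ≠ 0 :=
    mul_ne_zero_of_mdiff hd.mdiff (mdiff_coe c') hd.ne (coe_ne_zero hc')
  have hne2 : (a' : ℍ → ℂ) * b ≠ 0 := coe_ne_zero (g := a' * b) (mul_ne_zero ha' hd.b_ne)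
  refine Units.ext (eq_one_of_fixed (hd.mdiff.mul (mdiff_coe c'))
    ((mdiff_coe a').mul (mdiff_coe b)) hne1 hne2
    (fun z => by rw [Pi.mul_apply, Pi.mul_apply, hχ, smul_eq_coe]; ring)
    (fun z => by rw [Pi.mul_apply, Pi.mul_apply, smul_eq_coe, smul_eq_coe]) hfix ?_)
  apply Nat.cast_injective (R := ℤ)
  rw [← order_diskSeries_eq z₀ (hd.mdiff.mul (mdiff_coe c')) hne1,
    ← order_diskSeries_eq z₀ ((mdiff_coe a').mul (mdiff_coe b)) hne2,
    Genus.diskSeries_mul z₀ hd.mdiff (mdiff_coe c'),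
    Genus.diskSeries_mul z₀ (mdiff_coe a') (mdiff_coe b),
    HahnSeries.order_mul hhne (by rwa [← diskExp_apply]),
    HahnSeries.order_mul (by rw [← diskExp_apply]; exact (map_ne_zero_iff _ hψ).2 ha')
      (by rwa [← diskExp_apply]),
    ← diskExp_apply (g := a'), ← diskExp_apply (g := c'), ← diskExp_apply (g := b)]
  linarith

/-- Root characters are trivial on parabolic elements. -/
theorem IsRootChar.eq_one_of_conj_upper (hn : n ≠ 0)
    (hdiv : ∀ v : Place (AlgebraicClosure ℚ) (modularFunctionFieldBar N), (n : ℤ) ∣ v.ord f)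
    (hf : f ≠ 0) (H : IsRootChar n f χ) {γ : Gamma0 N} {δ : SL(2, ℤ)}
    (h10 : ((δ⁻¹ * (γ : SL(2, ℤ)) * δ : SL(2, ℤ)) : Matrix (Fin 2) (Fin 2) ℤ) 1 0 = 0) :
    χ γ = 1 := by
  obtain ⟨h, b, hd, hχ⟩ := H
  obtain ⟨g, hg, hgp⟩ := hd.eq
  have hψ := qLAt_injective (N := N) δ
  set φ := expEmb N (qLAt N δ) hψ
  obtain ⟨p, hp0, hp⟩ := exists_order_eq_mul N hdiv (qLAt N δ) hψ
  obtain ⟨a', c', hc', hac⟩ := exists_frac N p
  have ha' : a' ≠ 0 := by
    rintro rfl
    rw [map_zero] at hac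
    rcases mul_eq_zero.1 hac with h1 | h1
    · exact hp0 ((map_eq_zero_iff _ (toC_injective (N := N))).1 h1)
    · exact hc' ((map_eq_zero_iff _ (qL_injective (N := N))).1 h1)
  have hg0 : g ≠ 0 := by
    rintro rfl
    exact hd.ne (funext fun z => eq_zero_of_pow_eq_zero (hgp z))
  set G : modFunRing N := g * c' ^ n
  set D : modFunRing N := (a' * b) ^ n
  have hD0 : qLAt N δ D ≠ 0 :=
    (map_ne_zero_iff _ hψ).2 (pow_ne_zero _ (mul_ne_zero ha' hd.b_ne))
  have hG0 : qLAt N δ G ≠ 0 :=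
    (map_ne_zero_iff _ hψ).2 (mul_ne_zero hg0 (pow_ne_zero _ hc'))
  have e1 := congrArg HahnSeries.order (expEmb_mul N (qLAt N δ) hψ hac)
  rw [HahnSeries.order_mul ((map_ne_zero φ).2 hp0) ((map_ne_zero_iff _ hψ).2 hc')] at e1
  have e2 := congrArg HahnSeries.order (expEmb_mul N (qLAt N δ) hψ (f := f) (a := g)
    (b := b ^ n) (by rw [map_pow]; exact hg))
  rw [map_pow, HahnSeries.order_mul ((map_ne_zero φ).2 hf)
    (pow_ne_zero n ((map_ne_zero_iff _ hψ).2 hd.b_ne)), HahnSeries.order_pow, nsmul_eq_mul,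
    hp] at e2
  have hord : (qLAt N δ G / qLAt N δ D).order = 0 := by
    have hGo : (qLAt N δ G).order = (qLAt N δ D).order := by
      simp only [G, D]
      rw [map_mul, map_pow, map_pow, map_mul,
        HahnSeries.order_mul ((map_ne_zero_iff _ hψ).2 hg0)
          (pow_ne_zero n ((map_ne_zero_iff _ hψ).2 hc')),
        HahnSeries.order_pow, HahnSeries.order_pow,
        HahnSeries.order_mul ((map_ne_zero_iff _ hψ).2 ha') ((map_ne_zero_iff _ hψ).2 hd.b_ne),
        nsmul_eq_mul, nsmul_eq_mul]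
      linear_combination (n : ℤ) * e1 - e2
    rw [div_eq_mul_inv, HahnSeries.order_mul hG0 (inv_ne_zero hD0), Genus.order_inv', hGo]
    ring
  set q : ℍ → ℂ := fun z => (h * (c' : ℍ → ℂ)) (δ • z) / ((a' : ℍ → ℂ) * b) (δ • z) with hq
  have hexp : Expands N (fun z => q z ^ n) (qLAt N δ G / qLAt N δ D) := by
    rw [div_eq_mul_inv]
    refine ((expands_qLAt δ G).mul ((expands_qLAt δ D).inv hD0)).congr_fun'
      (Eventually.of_forall fun z => ?_)
    show _ = q z ^ n
    simp only [q, G, D, Pi.mul_apply, Pi.inv_apply, div_pow, _root_.mul_pow, hgp]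
    simp [div_eq_mul_inv]
  obtain ⟨hlim, hL⟩ := tendsto_of_expands_order_zero hexp (div_ne_zero hG0 hD0) hord
  have hden : ∀ᶠ z in atImInfty, ((a' : ℍ → ℂ) * b) (δ • z) ≠ 0 := by
    filter_upwards [hlim.eventually_ne hL] with z hz h0
    exact hz (by rw [show q z = 0 by simp only [q, h0, div_zero], zero_pow hn])
  obtain ⟨A, hA⟩ := (atImInfty_mem _).mp hden
  obtain ⟨t, ht⟩ := smul_upper_eq_vadd h10
  refine Units.ext (eq_one_of_translate (q := q) (A := max A 0) (le_max_right _ _) ?_ hn hL hlim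
    (t := (t : ℝ)) fun z hz => ?_)
  · have hcont : ∀ {u : ℍ → ℂ}, MDiff u → ContinuousOn ((fun z => u (δ • z)) ∘ ofComplex)
        {z : ℂ | max A 0 < z.im} := fun hu =>
      ((analyticOnNhd_comp_ofComplex (mdifferentiable_comp_smul hu δ)).continuousOn).mono
        fun z hz => lt_of_le_of_lt (le_max_right A 0) hz
    refine (hcont (hd.mdiff.mul (mdiff_coe c'))).div
      (hcont ((mdiff_coe a').mul (mdiff_coe b))) fun z hz => ?_
    have him : 0 < z.im := lt_of_le_of_lt (le_max_right A 0) hz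
    simp only [ofComplex_apply_of_im_pos him, Function.comp]
    exact hA ⟨z, him⟩ (show A ≤ z.im from ((le_max_left A 0).trans_lt hz).le)
  · have hconj : δ • ((t : ℝ) +ᵥ z) = (γ : SL(2, ℤ)) • (δ • z) := by
      rw [← ht, ← mul_smul, ← mul_smul]
      congr 1
      group
    simp only [q, hconj, Pi.mul_apply, hχ, smul_eq_coe]
    ring

/-- Root characters vanish on elliptic and parabolic elements. -/
theorem IsRootChar.eq_one_of_isEllPar (hn : n ≠ 0)
    (hdiv : ∀ v : Place (AlgebraicClosure ℚ) (modularFunctionFieldBar N), (n : ℤ) ∣ v.ord f)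
    (hf : f ≠ 0) (H : IsRootChar n f χ) {γ : Gamma0 N} (hγ : Periods.IsEllPar γ) : χ γ = 1 := by
  rcases (show _ ≤ (4 : ℤ) from hγ).lt_or_eq with h | h
  · obtain ⟨z, hz⟩ := exists_fixed_point h
    exact H.eq_one_of_fixed_pt hn hdiv hf hz
  · obtain ⟨δ, hδ⟩ := exists_conj_upper h
    exact H.eq_one_of_conj_upper hn hdiv hf hδ

/-- A function with trivial root character is an `n`-th power. -/
theorem IsRootChar.exists_pow_eq (hn : n ≠ 0) (H : IsRootChar n f 1) :
    ∃ u : modularFunctionFieldBar N, u ^ n = f := by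
  obtain ⟨h, b, hd, hχ⟩ := H
  obtain ⟨g, hg, hgp⟩ := hd.eq
  have hinv : ∀ γ ∈ Gamma0 N, ∀ τ : ℍ, h (γ • τ) = h τ := fun γ hγ τ => by
    simpa using hχ ⟨γ, hγ⟩ τ
  have hmem : h ∈ modFunRing N := by
    refine mem_modFunRing_of_isBounded hd.mdiff hinv fun δ => ?_
    obtain ⟨m, hm⟩ := exists_isBounded_of_mem_expRing (comp_smul_mem_expRing g.2 δ)
    refine ⟨m, ?_⟩
    obtain ⟨c, A, hA⟩ := UpperHalfPlane.isBoundedAtImInfty_iff.1 hm
    refine UpperHalfPlane.isBoundedAtImInfty_iff.2 ⟨max c 1, max A 0, fun z hz => ?_⟩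
    have h1 := hA z ((le_max_left _ _).trans hz)
    have hq : ‖Function.Periodic.qParam (N : ℝ) (z : ℂ)‖ ≤ 1 := by
      rw [Function.Periodic.norm_qParam]
      refine Real.exp_le_one_iff.2 (div_nonpos_of_nonpos_of_nonneg ?_ (Nat.cast_nonneg N))
      have := z.im_pos
      have := Real.pi_pos
      have : z.im = (z : ℂ).im := rfl
      nlinarith
    by_contra! hlt
    have h2 : ‖Function.Periodic.qParam (N : ℝ) (z : ℂ) ^ m * h (δ • z)‖ ^ n ≤ max c 1 := by
      refine le_trans ?_ (h1.trans (le_max_left _ _))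
      rw [norm_mul, norm_mul, _root_.mul_pow, ← hgp, norm_pow, norm_pow, ← _root_.pow_mul]
      refine mul_le_mul_of_nonneg_right ?_ (pow_nonneg (norm_nonneg _) _)
      exact pow_le_pow_of_le_one (norm_nonneg _) hq
        (Nat.le_mul_of_pos_right m (Nat.pos_of_ne_zero hn))
    have h3 : max c 1 < ‖Function.Periodic.qParam (N : ℝ) (z : ℂ) ^ m * h (δ • z)‖ ^ n :=
      lt_of_lt_of_le hlt (le_self_pow₀ ((le_max_right c 1).trans hlt.le) hn)
    exact absurd h2 (not_le.2 h3)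
  set hm : modFunRing N := ⟨h, hmem⟩
  have hhg : hm ^ n = g := Subtype.ext (funext fun z => hgp z)
  have hb0 : qL N b ≠ 0 := (map_ne_zero_iff _ qL_injective).2 hd.b_ne
  set X : LaurentSeries ℂ := qL N hm / qL N b
  have hXn : X ^ n = toC N f := by
    rw [div_pow, ← map_pow, hhg, ← hg, mul_div_assoc, div_self (pow_ne_zero _ hb0), mul_one]
  have hXmem : X ∈ laurentBaseChange ℂ (modularFunctionFieldFull N) :=
    div_mem (qL_mem_laurentBaseChange hm) (qL_mem_laurentBaseChange b)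
  let _ : Algebra (AlgebraicClosure ℚ) ℂ := embC.toAlgebra
  have hpow : ∀ k, (X ^ n).coeff k ∈ embC.fieldRange := fun k => by
    rw [hXn, toC_apply, coeffMap_coeff]
    exact ⟨_, rfl⟩
  have hlead : X.coeff X.order ∈ embC.fieldRange := by
    rcases eq_or_ne X 0 with h0 | h0
    · simp [h0]
    have hlc : (X ^ n).coeff ((X ^ n).order) = X.coeff X.order ^ n := by
      rw [← HahnSeries.leadingCoeff_eq, ← HahnSeries.leadingCoeff_eq]
      exact leadingCoeff_pow_eq X n
    obtain ⟨a, ha⟩ := hpow (X ^ n).order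
    obtain ⟨r, hr⟩ := IsAlgClosed.exists_pow_nat_eq a (Nat.pos_of_ne_zero hn)
    rw [hlc] at ha
    have hr' : embC r ^ n = X.coeff X.order ^ n := by rw [← map_pow, hr, ha]
    have h1 : (X.coeff X.order / embC r) ^ n = 1 := by
      rw [div_pow, hr', div_self]
      exact pow_ne_zero n (HahnSeries.coeff_order_eq_zero.not.2 h0)
    have := NeZero.mk hn
    obtain ⟨ζ, hζ⟩ : ∃ ζ : AlgebraicClosure ℚ, embC ζ = X.coeff X.order / embC r := by
      obtain ⟨μ, hμ⟩ := HasEnoughRootsOfUnity.exists_primitiveRoot (AlgebraicClosure ℚ) n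
      obtain ⟨i, -, hi⟩ := (hμ.map_of_injective embC.injective).eq_pow_of_pow_eq_one h1
      exact ⟨μ ^ i, by rw [map_pow, hi]⟩
    have hr0 : embC r ≠ 0 := fun h2 => by
      rw [h2, zero_pow hn] at hr'
      exact pow_ne_zero n (HahnSeries.coeff_order_eq_zero.not.2 h0) hr'.symm
    exact ⟨ζ * r, by rw [map_mul, hζ, div_mul_cancel₀ _ hr0]⟩
  have hcoeff := coeff_mem_of_pow_coeff_mem embC.fieldRange hn hlead hpow
  obtain ⟨y, hy, hyX⟩ := exists_coeffMap_eq_of_mem (K := AlgebraicClosure ℚ)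
    (modularFunctionFieldFull N) hXmem (fun k => hcoeff k)
  refine ⟨⟨y, hy⟩, toC_injective (N := N) ?_⟩
  rw [map_pow, toC_apply]
  change (coeffMap embC y) ^ n = _
  rw [show coeffMap embC y = X from hyX, hXn]

end FLTAgent.JTors
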