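import Mathlib.NumberTheory.ModularForms.EisensteinSeries.UniformConvergence
import Mathlib.NumberTheory.ModularForms.EisensteinSeries.MDifferentiable
import Mathlib.NumberTheory.ModularForms.EisensteinSeries.IsBoundedAtImInfty
import Mathlib.Analysis.Complex.UpperHalfPlane.FunctionsBoundedAtInfty
import Mathlib.Analysis.Normed.Group.Tannery

/-!
The weight 4 Eisenstein series of level `Γ₀(N)` twisted by a character `χ` which is trivial on
the stabiliser of `∞`:  `∑ χ(γ)⁻¹ (cz+d)⁻⁴` over coprime bottom rows `(c, d)`, `N ∣ c`.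
-/

open UpperHalfPlane Matrix CongruenceSubgroup Filter Topology EisensteinSeries
open scoped MatrixGroups Manifold

namespace FLTAgent.JTors

variable {N : ℕ}

/-- The character is trivial on the stabiliser of `∞`. -/
def TrivialAtInfty (χ : Gamma0 N →* ℂˣ) : Prop :=
  ∀ γ : Gamma0 N, ((γ : SL(2, ℤ)) : Matrix (Fin 2) (Fin 2) ℤ) 1 0 = 0 → χ γ = 1

/-- The bottom rows of elements of `Γ₀(N)`. -/
def rowSet (N : ℕ) : Set (Fin 2 → ℤ) := {v | IsCoprime (v 0) (v 1) ∧ (N : ℤ) ∣ v 0}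

/-- Right multiplication of integer rows by an element of `SL(2, ℤ)`. -/
def rowEquiv (g : SL(2, ℤ)) : (Fin 2 → ℤ) ≃ (Fin 2 → ℤ) where
  toFun v := v ᵥ* (g : Matrix (Fin 2) (Fin 2) ℤ)
  invFun v := v ᵥ* ((g⁻¹ : SL(2, ℤ)) : Matrix (Fin 2) (Fin 2) ℤ)
  left_inv v := by
    show (v ᵥ* g.1) ᵥ* (g⁻¹).1 = v
    rw [Matrix.vecMul_vecMul, show g.1 * (g⁻¹).1 = 1 from congrArg Subtype.val (mul_inv_cancel g),
      Matrix.vecMul_one]
  right_inv v := by
    show (v ᵥ* (g⁻¹).1) ᵥ* g.1 = v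
    rw [Matrix.vecMul_vecMul, show (g⁻¹).1 * g.1 = 1 from congrArg Subtype.val (inv_mul_cancel g),
      Matrix.vecMul_one]

theorem exists_gamma0_row {v : Fin 2 → ℤ} (hv : v ∈ rowSet N) :
    ∃ γ : Gamma0 N, ((γ : SL(2, ℤ)) : Matrix (Fin 2) (Fin 2) ℤ) 1 = v := by
  obtain ⟨g, hg⟩ := hv.1.exists_SL2_row 1
  have hmem : g ∈ Gamma0 N := by
    rw [Gamma0_mem, ZMod.intCast_zmod_eq_zero_iff_dvd, hg.1]
    exact hv.2
  refine ⟨⟨g, hmem⟩, funext fun i => ?_⟩
  fin_cases i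
  · exact hg.1
  · exact hg.2

theorem row_mem_rowSet (γ : Gamma0 N) :
    ((γ : SL(2, ℤ)) : Matrix (Fin 2) (Fin 2) ℤ) 1 ∈ rowSet N := by
  refine ⟨?_, (ZMod.intCast_zmod_eq_zero_iff_dvd _ _).1 (Gamma0_mem.1 γ.2)⟩
  set M := ((γ : SL(2, ℤ)) : Matrix (Fin 2) (Fin 2) ℤ) with hM
  have h : M.det = 1 := (γ : SL(2, ℤ)).2
  rw [Matrix.det_fin_two] at h
  exact ⟨-M 0 1, M 0 0, by linear_combination h⟩

theorem vecMul_mem_rowSet {v : Fin 2 → ℤ} (hv : v ∈ rowSet N) (γ : Gamma0 N) :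
    v ᵥ* ((γ : SL(2, ℤ)) : Matrix (Fin 2) (Fin 2) ℤ) ∈ rowSet N := by
  obtain ⟨δ, hδ⟩ := exists_gamma0_row hv
  have h : ((δ * γ : Gamma0 N) : SL(2, ℤ)).1 1 =
      v ᵥ* ((γ : SL(2, ℤ)) : Matrix (Fin 2) (Fin 2) ℤ) := by
    rw [← hδ]; rfl
  exact h ▸ row_mem_rowSet (δ * γ)

theorem chi_eq_of_row_eq {χ : Gamma0 N →* ℂˣ} (hχ : TrivialAtInfty χ) {γ δ : Gamma0 N}
    (h : ((γ : SL(2, ℤ)) : Matrix (Fin 2) (Fin 2) ℤ) 1 =
      ((δ : SL(2, ℤ)) : Matrix (Fin 2) (Fin 2) ℤ) 1) : χ γ = χ δ := by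
  have h0 : (((γ * δ⁻¹ : Gamma0 N) : SL(2, ℤ)) : Matrix (Fin 2) (Fin 2) ℤ) 1 0 = 0 := by
    have e0 := congr_fun h 0
    have e1 := congr_fun h 1
    simp [Matrix.mul_apply, Fin.sum_univ_two, Matrix.adjugate_fin_two, e0, e1]
    ring
  simpa [mul_inv_eq_one] using hχ _ h0

open Classical in
/-- The weight of a bottom row. -/
noncomputable def rowWeight (χ : Gamma0 N →* ℂˣ) (v : Fin 2 → ℤ) : ℂ :=
  if h : v ∈ rowSet N then (((χ (exists_gamma0_row h).choose)⁻¹ : ℂˣ) : ℂ) else 0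

theorem rowWeight_row {χ : Gamma0 N →* ℂˣ} (hχ : TrivialAtInfty χ) (γ : Gamma0 N) :
    rowWeight χ (((γ : SL(2, ℤ)) : Matrix (Fin 2) (Fin 2) ℤ) 1) = ((χ γ)⁻¹ : ℂˣ) := by
  rw [rowWeight, dif_pos (row_mem_rowSet γ)]
  congr 2
  exact chi_eq_of_row_eq hχ (exists_gamma0_row (row_mem_rowSet γ)).choose_spec

theorem rowWeight_vecMul {χ : Gamma0 N →* ℂˣ} (hχ : TrivialAtInfty χ) (γ : Gamma0 N)
    (v : Fin 2 → ℤ) :
    rowWeight χ v = (χ γ : ℂ) * rowWeight χ (v ᵥ* ((γ : SL(2, ℤ)) : Matrix (Fin 2) (Fin 2) ℤ)) := by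
  by_cases h : v ∈ rowSet N
  · obtain ⟨δ, hδ⟩ := exists_gamma0_row h
    have h' : ((δ * γ : Gamma0 N) : SL(2, ℤ)).1 1 =
        v ᵥ* ((γ : SL(2, ℤ)) : Matrix (Fin 2) (Fin 2) ℤ) := by rw [← hδ]; rfl
    rw [← h', rowWeight_row hχ, ← hδ, rowWeight_row hχ, map_mul, _root_.mul_inv_rev]
    simp
  · have h' : v ᵥ* ((γ : SL(2, ℤ)) : Matrix (Fin 2) (Fin 2) ℤ) ∉ rowSet N := by
      intro hc
      apply h
      have := vecMul_mem_rowSet hc γ⁻¹
      rwa [show (v ᵥ* ((γ : SL(2, ℤ)) : Matrix (Fin 2) (Fin 2) ℤ)) ᵥ*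
        (((γ⁻¹ : Gamma0 N) : SL(2, ℤ)) : Matrix (Fin 2) (Fin 2) ℤ) = v from
          (rowEquiv (γ : SL(2, ℤ))).left_inv v] at this
    simp [rowWeight, h, h']

theorem norm_rowWeight_le {χ : Gamma0 N →* ℂˣ} (hfin : ∀ γ, ‖(χ γ : ℂ)‖ = 1) (v : Fin 2 → ℤ) :
    ‖rowWeight χ v‖ ≤ 1 := by
  rw [rowWeight]
  split_ifs with h <;> simp [hfin]

/-- The twisted weight 4 Eisenstein series. -/
noncomputable def twistEis (χ : Gamma0 N →* ℂˣ) (z : ℍ) : ℂ :=
  ∑' v : Fin 2 → ℤ, rowWeight χ v * eisSummand 4 v z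

theorem norm_summand_le {χ : Gamma0 N →* ℂˣ} (hfin : ∀ γ, ‖(χ γ : ℂ)‖ = 1) (v : Fin 2 → ℤ)
    (z : ℍ) : ‖rowWeight χ v * eisSummand 4 v z‖ ≤ ‖eisSummand 4 v z‖ := by
  rw [norm_mul]
  exact mul_le_of_le_one_left (norm_nonneg _) (norm_rowWeight_le hfin v)

theorem twistEis_smul {χ : Gamma0 N →* ℂˣ} (hχ : TrivialAtInfty χ) (γ : Gamma0 N) (z : ℍ) :
    twistEis χ ((γ : SL(2, ℤ)) • z) =
      (χ γ : ℂ) * denom (γ : SL(2, ℤ)) z ^ (4 : ℤ) * twistEis χ z := by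
  simp only [twistEis, ← tsum_mul_left]
  let e : (Fin 2 → ℤ) ≃ (Fin 2 → ℤ) := rowEquiv (γ : SL(2, ℤ))
  refine Eq.trans ?_ (e.tsum_eq _)
  refine tsum_congr fun v => ?_
  show _ = _ * _ * (rowWeight χ (v ᵥ* _) * eisSummand 4 (v ᵥ* _) z)
  rw [rowWeight_vecMul hχ γ v, eisSummand_SL2_apply]
  ring

theorem mdifferentiable_twistEis {χ : Gamma0 N →* ℂˣ} (hfin : ∀ γ, ‖(χ γ : ℂ)‖ = 1) :
    MDifferentiable 𝓘(ℂ) 𝓘(ℂ) (twistEis χ) := by
  rw [UpperHalfPlane.mdifferentiable_iff]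
  intro w hw
  replace hw : 0 < w.im := hw
  set A := |w.re| + 1
  set B := w.im / 2
  have hB : 0 < B := by positivity
  set U : Set ℂ := {z | |z.re| < A ∧ B < z.im}
  have hUo : IsOpen U :=
    (isOpen_lt (continuous_abs.comp Complex.continuous_re) continuous_const).inter
      (isOpen_lt continuous_const Complex.continuous_im)
  have hwU : w ∈ U := ⟨by simp [A], by simp only [B]; linarith⟩
  set u : (Fin 2 → ℤ) → ℝ := fun v => r ⟨⟨A, B⟩, hB⟩ ^ (-(4 : ℝ)) * ‖v‖ ^ (-(4 : ℝ))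
  have hu : Summable u := (summable_one_div_norm_rpow (by norm_num)).mul_left _
  have hd := Complex.differentiableOn_tsum_of_summable_norm (U := U) hu
    (F := fun v z => rowWeight χ v * (eisSummand 4 v ∘ ofComplex) z)
    (fun v => (((eisSummand_extension_differentiableOn 4 v).mono
      (fun z hz => hB.trans hz.2)).const_mul _)) hUo
    (fun v z hz => by
      have hz0 : 0 < z.im := hB.trans hz.2
      simp only [Function.comp_apply, ofComplex_apply_of_im_pos hz0]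
      refine (norm_summand_le hfin v _).trans ?_
      have := summand_bound_of_mem_verticalStrip (z := ⟨z, hz0⟩) (by norm_num : (0 : ℝ) ≤ 4) v hB
        (show (⟨z, hz0⟩ : ℍ) ∈ verticalStrip A B from ⟨hz.1.le, hz.2.le⟩)
      simpa [eisSummand, ← Real.rpow_intCast, u] using this)
  refine ((hd.differentiableAt (hUo.mem_nhds hwU)).congr_of_eventuallyEq ?_).differentiableWithinAt
  exact Eventually.of_forall fun z => rfl

theorem isBoundedAtImInfty_twistEis {χ : Gamma0 N →* ℂˣ} (hfin : ∀ γ, ‖(χ γ : ℂ)‖ = 1)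
    (δ : SL(2, ℤ)) :
    IsBoundedAtImInfty fun z : ℍ => (denom δ z ^ (4 : ℤ))⁻¹ * twistEis χ (δ • z) := by
  rw [UpperHalfPlane.isBoundedAtImInfty_iff]
  refine ⟨∑' v : Fin 2 → ℤ, r ⟨⟨1, 2⟩, two_pos⟩ ^ (-(4 : ℝ)) * ‖v‖ ^ (-(4 : ℝ)), 2, fun z hz => ?_⟩
  obtain ⟨n, hn⟩ := ModularGroup_T_zpow_mem_verticalStrip z (N := 1) one_pos
  set g : SL(2, ℤ) := δ * (ModularGroup.T ^ ((1 : ℕ) * n : ℤ))⁻¹
  set w : ℍ := ModularGroup.T ^ ((1 : ℕ) * n : ℤ) • z
  have hgw : g • w = δ • z := by simp only [g, w, ← mul_smul, inv_mul_cancel_right]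
  have hden : denom δ z = denom g w := by
    have hw : (w : ℂ) = (z : ℂ) + n := by
      have hw0 : w = ((n : ℤ) : ℝ) +ᵥ z := by
        simp only [w, Nat.cast_one, one_mul]
        exact modular_T_zpow_smul z n
      rw [hw0, UpperHalfPlane.coe_vadd]
      push_cast
      ring
    have hgM : (g : Matrix (Fin 2) (Fin 2) ℤ) =
        (δ : Matrix (Fin 2) (Fin 2) ℤ) * !![1, -n; 0, 1] := by
      simp only [g, Nat.cast_one, one_mul]
      rw [← zpow_neg]
      exact congrArg ((δ : Matrix (Fin 2) (Fin 2) ℤ) * ·) (ModularGroup.coe_T_zpow (-n))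
    have hg0 : (g : Matrix (Fin 2) (Fin 2) ℤ) 1 0 = (δ : Matrix (Fin 2) (Fin 2) ℤ) 1 0 := by
      rw [hgM]
      simp [Matrix.mul_apply, Fin.sum_univ_two]
    have hg1 : (g : Matrix (Fin 2) (Fin 2) ℤ) 1 1 = (δ : Matrix (Fin 2) (Fin 2) ℤ) 1 1 -
        (δ : Matrix (Fin 2) (Fin 2) ℤ) 1 0 * n := by
      rw [hgM]
      simp [Matrix.mul_apply, Fin.sum_univ_two]
      ring
    simp [denom, hw, hg0, hg1]
    ring
  rw [← hgw, hden, norm_mul, norm_inv, inv_mul_le_iff₀ (norm_pos_iff.2 (zpow_ne_zero _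
    (denom_ne_zero _ _)))]
  have hsum := summable_norm_eisSummand (k := 4) (by norm_num) (g • w)
  refine (norm_tsum_le_tsum_norm (hsum.of_nonneg_of_le (fun _ => norm_nonneg _)
    (fun v => norm_summand_le hfin v _))).trans ?_
  refine ((hsum.of_nonneg_of_le (fun _ => norm_nonneg _)
    (fun v => norm_summand_le hfin v _)).tsum_le_tsum (fun v => norm_summand_le hfin v _) hsum).trans ?_
  have hrhs : Summable fun v : Fin 2 → ℤ =>
      r ⟨⟨1, 2⟩, two_pos⟩ ^ (-(4 : ℝ)) * ‖v‖ ^ (-(4 : ℝ)) :=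
    (summable_one_div_norm_rpow (by norm_num)).mul_left _
  let e : (Fin 2 → ℤ) ≃ (Fin 2 → ℤ) := rowEquiv g
  simp only [eisSummand_SL2_apply, norm_mul, tsum_mul_left]
  refine mul_le_mul_of_nonneg_left ?_ (norm_nonneg _)
  show ∑' v : Fin 2 → ℤ, ‖eisSummand 4 (e v) w‖ ≤ _
  rw [e.tsum_eq (fun v => ‖eisSummand 4 v w‖)]
  rw [← tsum_mul_left]
  refine (summable_norm_eisSummand (k := 4) (by norm_num) w).tsum_le_tsum (fun v => ?_) hrhs
  have hmem : w ∈ verticalStrip 1 2 := by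
    have := verticalStrip_anti_right (1 : ℕ) hz hn
    simpa using this
  have := summand_bound_of_mem_verticalStrip (by norm_num : (0 : ℝ) ≤ 4) v two_pos hmem
  simpa [eisSummand, ← Real.rpow_intCast] using this

theorem twistEis_ne_zero {χ : Gamma0 N →* ℂˣ} (hχ : TrivialAtInfty χ)
    (hfin : ∀ γ, ‖(χ γ : ℂ)‖ = 1) : twistEis χ ≠ 0 := by
  classical
  intro h0
  set zt : ℕ → ℍ := fun t => ⟨((t + 1 : ℝ) : ℂ) * Complex.I, by simp; positivity⟩
  set L : (Fin 2 → ℤ) → ℂ := fun v =>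
    if v 0 = 0 then rowWeight χ v * ((v 1 : ℂ) ^ (-(4 : ℤ))) else 0
  have key : Tendsto (fun t => twistEis χ (zt t)) atTop (𝓝 (∑' v, L v)) := by
    refine tendsto_tsum_of_dominated_convergence
      (bound := fun v : Fin 2 → ℤ => r ⟨⟨1, 1⟩, one_pos⟩ ^ (-(4 : ℝ)) * ‖v‖ ^ (-(4 : ℝ)))
      ((summable_one_div_norm_rpow (by norm_num)).mul_left _) (fun v => ?_)
      (Eventually.of_forall fun t v => ?_)
    · by_cases h : v 0 = 0
      · simp [L, h, eisSummand]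
      · simp only [L, if_neg h, eisSummand]
        rw [show (0 : ℂ) = rowWeight χ v * 0 by simp]
        refine Tendsto.const_mul _ ?_
        rw [tendsto_zero_iff_norm_tendsto_zero]
        have hc : (0 : ℝ) < |(v 0 : ℝ)| := abs_pos.2 (by exact_mod_cast h)
        have hlim : Tendsto (fun t : ℕ => (|(v 0 : ℝ)| * (t + 1)) ^ (-(4 : ℤ))) atTop (𝓝 0) :=
          (tendsto_zpow_atTop_zero (by norm_num)).comp
            (Tendsto.const_mul_atTop hc (tendsto_natCast_atTop_atTop.atTop_add tendsto_const_nhds))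
        refine squeeze_zero (fun _ => norm_nonneg _) (fun t => ?_) hlim
        rw [norm_zpow, zpow_neg, zpow_neg]
        have hle : |(v 0 : ℝ)| * (t + 1) ≤ ‖(v 0 : ℂ) * (zt t : ℂ) + v 1‖ := by
          refine le_trans ?_ (Complex.abs_im_le_norm _)
          simp [zt, abs_mul, abs_of_pos (show (0 : ℝ) < t + 1 by positivity)]
        gcongr
        exact zpow_le_zpow_left₀ (by norm_num) (by positivity) hle
    · refine (norm_summand_le hfin v _).trans ?_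
      have := summand_bound_of_mem_verticalStrip (z := zt t) (by norm_num : (0 : ℝ) ≤ 4) v one_pos
        (show zt t ∈ verticalStrip 1 1 by
          simp [mem_verticalStrip_iff, zt, UpperHalfPlane.re, UpperHalfPlane.im])
      simpa [eisSummand, ← Real.rpow_intCast] using this
  have hsum : ∑' v, L v = 2 := by
    rw [tsum_eq_sum (s := {![0, 1], ![0, -1]}) (fun v hv => ?_)]
    · rw [Finset.sum_pair (by decide)]
      have h1 : rowWeight χ ![0, 1] = 1 := by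
        have := rowWeight_row hχ (1 : Gamma0 N)
        rw [map_one, inv_one, Units.val_one] at this
        convert this using 2
        ext i; fin_cases i <;> simp
      have h2 : rowWeight χ ![0, -1] = 1 := by
        have hm : (-1 : SL(2, ℤ)) ∈ Gamma0 N := by simp [Gamma0_mem]
        have hrow := rowWeight_row hχ (⟨-1, hm⟩ : Gamma0 N)
        rw [hχ ⟨-1, hm⟩ (by simp), inv_one, Units.val_one] at hrow
        convert hrow using 2
        ext i; fin_cases i <;> simp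
      simp [L, h1, h2]
      norm_num
    · simp only [Finset.mem_insert, Finset.mem_singleton, not_or] at hv
      simp only [L]
      split_ifs with h
      · by_cases hm : v ∈ rowSet N
        · exfalso
          have h1 : IsUnit (v 1) := isCoprime_zero_left.1 (h ▸ hm.1)
          rcases Int.isUnit_iff.1 h1 with e | e
          · exact hv.1 (by ext i; fin_cases i <;> simp [h, e])
          · exact hv.2 (by ext i; fin_cases i <;> simp [h, e])
        · simp [rowWeight, hm]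
      · rfl
  rw [hsum, h0] at key
  exact two_ne_zero (tendsto_nhds_unique tendsto_const_nhds key).symm

end FLTAgent.JTors
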