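import Mathlib.NumberTheory.ModularForms.LevelOne.GradedRing
import Mathlib.NumberTheory.ModularForms.Discriminant

/-!
Transformation laws of `E₄` and `Δ` in the form used for torsion of `J₀(N)`.
-/

open UpperHalfPlane ModularForm
open scoped MatrixGroups Manifold ModularForm

namespace FLTAgent.JTors

theorem E4_smul (γ : SL(2, ℤ)) (z : ℍ) :
    ModularForm.E₄ (γ • z) = denom γ z ^ (4 : ℤ) * ModularForm.E₄ z := by
  have h := congr_fun (SlashInvariantFormClass.slash_action_eq ModularForm.E₄
    (γ : GL (Fin 2) ℝ) ⟨γ, rfl⟩) z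
  rw [← ModularForm.SL_slash, ModularForm.SL_slash_apply] at h
  rw [← h, mul_comm, mul_assoc, ← zpow_add₀ (denom_ne_zero γ z)]
  simp

theorem discriminant_smul (γ : SL(2, ℤ)) (z : ℍ) :
    ModularForm.discriminant (γ • z) = denom γ z ^ (12 : ℤ) * ModularForm.discriminant z := by
  have h := congr_fun (SlashInvariantFormClass.slash_action_eq CuspForm.discriminant
    (γ : GL (Fin 2) ℝ) ⟨γ, rfl⟩) z
  rw [← ModularForm.SL_slash, ModularForm.SL_slash_apply] at h
  rw [CuspForm.coe_discriminant] at h
  rw [← h, mul_comm, mul_assoc, ← zpow_add₀ (denom_ne_zero γ z)]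
  simp

theorem mdifferentiable_discriminant : MDiff ModularForm.discriminant := by
  have h : MDiff (CuspForm.discriminant : ℍ → ℂ) := CuspForm.discriminant.holo'
  exact h

theorem mdifferentiable_E4 : MDiff (ModularForm.E₄ : ℍ → ℂ) := ModularFormClass.holo _

theorem isBoundedAtImInfty_E4 : IsBoundedAtImInfty (ModularForm.E₄ : ℍ → ℂ) := by
  have : Fact (IsCusp OnePoint.infty (𝒮ℒ : Subgroup (GL (Fin 2) ℝ))) :=
    ⟨Subgroup.isCusp_of_mem_strictPeriods one_pos one_mem_strictPeriods_SL⟩
  exact ModularFormClass.bdd_at_infty _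

theorem isBoundedAtImInfty_discriminant : IsBoundedAtImInfty ModularForm.discriminant :=
  discriminant_isZeroAtImInfty.boundedAtFilter

theorem E4_ne_zero_fun : (ModularForm.E₄ : ℍ → ℂ) ≠ 0 := by
  intro h
  have := qExpansion_coeff_zero (f := (ModularForm.E₄ : ℍ → ℂ)) (h := 1) one_pos
    (ModularFormClass.analyticAt_cuspFunction_zero _ one_pos one_mem_strictPeriods_SL)
    (SlashInvariantFormClass.periodic_comp_ofComplex _ one_mem_strictPeriods_SL)
  rw [EisensteinSeries.E_qExpansion_coeff _ ⟨2, rfl⟩] at this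
  rw [h] at this
  simp only [if_true, valueAtInfty] at this
  rw [show (0 : ℍ → ℂ) = fun _ => 0 from rfl,
    Filter.Tendsto.limUnder_eq (tendsto_const_nhds (x := (0 : ℂ)))] at this
  exact one_ne_zero this

end FLTAgent.JTors
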