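import Fermat.Agent.JTors.TwistEis
import Fermat.Agent.JTors.LevelOne
import Fermat.Agent.ModPoly.J
import Fermat.Prelude.Thm_ModularForm_sturm_bound_Gamma0
import Fermat.Prelude.Thm_CongruenceSubgroup_one_mem_strictPeriods_Gamma0

/-!
Functions on the upper half plane transforming by a character of `Γ₀(N)`, with bounded poles at
the cusps, and their expansions at `∞`.
-/

noncomputable section

open UpperHalfPlane CongruenceSubgroup Filter Function
open scoped MatrixGroups Manifold ModularForm Real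

namespace FLTAgent.JTors

open ModPoly

variable {N : ℕ}

/-- Holomorphic functions with character `χ` whose product with `Δ^m` is bounded at all cusps. -/
def CharFun (χ : Gamma0 N →* ℂˣ) (m : ℕ) : Submodule ℂ (ℍ → ℂ) where
  carrier := {h | MDiff h ∧
    (∀ (γ : Gamma0 N) (z : ℍ), h ((γ : SL(2, ℤ)) • z) = (χ γ : ℂ) * h z) ∧
    ∀ δ : SL(2, ℤ), IsBoundedAtImInfty fun z => h (δ • z) * ModularForm.discriminant z ^ m}
  zero_mem' := ⟨mdifferentiable_const, fun _ _ => by simp, fun δ => by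
    simp only [Pi.zero_apply, zero_mul]
    exact (Filter.zero_zeroAtFilter atImInfty).boundedAtFilter⟩
  add_mem' := by
    rintro f g ⟨hf, hfc, hfb⟩ ⟨hg, hgc, hgb⟩
    refine ⟨hf.add hg, fun γ z => ?_, fun δ => ?_⟩
    · simp only [Pi.add_apply, hfc γ z, hgc γ z]; ring
    · simpa [IsBoundedAtImInfty, add_mul, Pi.add_def] using (hfb δ).add (hgb δ)
  smul_mem' := by
    rintro c f ⟨hf, hfc, hfb⟩
    refine ⟨hf.const_smul c, fun γ z => ?_, fun δ => ?_⟩
    · simp only [Pi.smul_apply, hfc γ z, smul_eq_mul]; ring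
    · simpa [IsBoundedAtImInfty, mul_assoc, Pi.smul_def] using (hfb δ).smul c

theorem mem_charFun {χ : Gamma0 N →* ℂˣ} {m : ℕ} {h : ℍ → ℂ} :
    h ∈ CharFun χ m ↔ MDiff h ∧
      (∀ (γ : Gamma0 N) (z : ℍ), h ((γ : SL(2, ℤ)) • z) = (χ γ : ℂ) * h z) ∧
      ∀ δ : SL(2, ℤ), IsBoundedAtImInfty fun z => h (δ • z) * ModularForm.discriminant z ^ m :=
  Iff.rfl

theorem norm_eq_one_of_pow {χ : Gamma0 N →* ℂˣ} {n : ℕ} (hn : n ≠ 0) (h : ∀ γ, χ γ ^ n = 1)
    (γ : Gamma0 N) : ‖(χ γ : ℂ)‖ = 1 := by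
  have := congrArg (fun u : ℂˣ => ‖(u : ℂ)‖) (h γ)
  simp only [Units.val_pow_eq_pow_val, norm_pow, Units.val_one, norm_one] at this
  exact (pow_eq_one_iff_of_nonneg (norm_nonneg _) hn).1 this

/-- Every unitary character trivial at `∞` occurs. -/
theorem exists_charFun_ne_zero {χ : Gamma0 N →* ℂˣ} (hχ : TrivialAtInfty χ)
    (hfin : ∀ γ, ‖(χ γ : ℂ)‖ = 1) : ∃ h ∈ CharFun χ 1, h ≠ 0 := by
  set h : ℍ → ℂ := fun z =>
    twistEis χ z * (ModularForm.E₄ : ℍ → ℂ) z ^ 2 / ModularForm.discriminant z with hh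
  refine ⟨h, ⟨?_, fun γ z => ?_, fun δ => ?_⟩, ?_⟩
  · exact ((mdifferentiable_twistEis hfin).mul (mdifferentiable_E4.pow 2)).div
      mdifferentiable_discriminant ModularForm.discriminant_ne_zero
  · have hd : denom (γ : SL(2, ℤ)) z ≠ 0 := denom_ne_zero _ z
    simp only [hh, twistEis_smul hχ γ z, E4_smul, discriminant_smul]
    field_simp [ModularForm.discriminant_ne_zero z, zpow_ne_zero]
  · have heq : (fun z => h (δ • z) * ModularForm.discriminant z ^ 1) =
        fun z : ℍ => (denom δ z ^ (4 : ℤ))⁻¹ * twistEis χ (δ • z) * ModularForm.E₄ z ^ 2 := by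
      funext z
      have hd : denom δ z ≠ 0 := denom_ne_zero _ z
      simp only [hh, E4_smul, discriminant_smul, pow_one]
      field_simp [ModularForm.discriminant_ne_zero z]
    rw [heq]
    exact (isBoundedAtImInfty_twistEis hfin δ).mul
      (by simpa [pow_two, IsBoundedAtImInfty, Pi.mul_def] using
        isBoundedAtImInfty_E4.mul isBoundedAtImInfty_E4)
  · intro h0
    have hprod : twistEis χ * (ModularForm.E₄ : ℍ → ℂ) ^ 2 = 0 := by
      funext z
      simpa [hh, ModularForm.discriminant_ne_zero] using congr_fun h0 z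
    rcases (UpperHalfPlane.mul_eq_zero_iff (mdifferentiable_twistEis hfin)
      (mdifferentiable_E4.pow 2)).1 hprod with h1 | h1
    · exact twistEis_ne_zero hχ hfin h1
    · exact E4_ne_zero_fun (eq_zero_of_pow_eq_zero h1)

theorem trivialAtInfty_T {χ : Gamma0 N →* ℂˣ} (hχ : TrivialAtInfty χ) {h : ℍ → ℂ} {m : ℕ}
    (hh : h ∈ CharFun χ m) : Periodic (h ∘ ofComplex) (1 : ℝ) := by
  have hT : ModularGroup.T ∈ Gamma0 N := by simp [Gamma0_mem, ModularGroup.coe_T]
  have h1 : χ ⟨_, hT⟩ = 1 := hχ _ (by simp [ModularGroup.coe_T])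
  intro w
  by_cases hw : 0 < w.im
  · have hw' : 0 < (w + (1 : ℝ)).im := by simpa using hw
    simp only [Function.comp_apply, ofComplex_apply_of_im_pos hw, ofComplex_apply_of_im_pos hw']
    have := hh.2.1 ⟨_, hT⟩ ⟨w, hw⟩
    rw [h1, Units.val_one, one_mul, UpperHalfPlane.modular_T_smul] at this
    rw [← this]
    congr 1
    ext
    simp [UpperHalfPlane.coe_vadd, add_comm]
  · have hw' : (w + (1 : ℝ)).im ≤ 0 := by simpa using not_lt.1 hw
    simp only [Function.comp_apply]
    rw [ofComplex_apply_of_im_nonpos hw', ofComplex_apply_of_im_nonpos (not_lt.1 hw)]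

variable {χ : Gamma0 N →* ℂˣ} {m : ℕ}

/-- The bounded function `h Δ^m`. -/
def cleared (m : ℕ) (h : ℍ → ℂ) : ℍ → ℂ := fun z => h z * ModularForm.discriminant z ^ m

theorem periodic_cleared (hχ : TrivialAtInfty χ) {h : ℍ → ℂ} (hh : h ∈ CharFun χ m) :
    Periodic (cleared m h ∘ ofComplex) (1 : ℝ) := by
  have hΔ : Periodic (ModularForm.discriminant ∘ ofComplex) (1 : ℝ) := by
    simpa [CuspForm.coe_discriminant] using
      SlashInvariantFormClass.periodic_comp_ofComplex CuspForm.discriminant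
        one_mem_strictPeriods_SL
  intro w
  have e1 := trivialAtInfty_T hχ hh w
  have e2 := hΔ w
  simp only [Function.comp_apply, cleared] at *
  rw [e1, e2]

theorem mdifferentiable_cleared {h : ℍ → ℂ} (hh : h ∈ CharFun χ m) : MDiff (cleared m h) :=
  hh.1.mul (mdifferentiable_discriminant.pow m)

theorem isBoundedAtImInfty_cleared {h : ℍ → ℂ} (hh : h ∈ CharFun χ m) :
    IsBoundedAtImInfty (cleared m h) := by
  have := hh.2.2 1
  simp only [one_smul] at this
  exact this

theorem expands_cleared (hχ : TrivialAtInfty χ) {h : ℍ → ℂ} (hh : h ∈ CharFun χ m) :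
    Expands 1 (cleared m h) (HahnSeries.ofPowerSeries ℤ ℂ (qExpansion 1 (cleared m h))) := by
  have := expands_qExpansion (h := 1) (f := cleared m h)
    (by rw [Nat.cast_one]; exact periodic_cleared hχ hh)
    (mdifferentiable_cleared hh) (isBoundedAtImInfty_cleared hh)
  rwa [Nat.cast_one] at this

/-- The expansion of `Δ` as a Laurent series. -/
def discSeries : LaurentSeries ℂ :=
  HahnSeries.single 1 1 * HahnSeries.ofPowerSeries ℤ ℂ
    (ModularCurve.dedekindEtaUnit.map (Int.castRingHom ℂ))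

theorem discSeries_ne_zero : discSeries ≠ 0 := by
  intro h
  have hDD : (ModularCurve.dedekindEtaUnit.map (Int.castRingHom ℂ)) *
      ModularCurve.dedekindEtaUnitInv.map (Int.castRingHom ℂ) = 1 := by
    rw [← map_mul, ModularCurve.dedekindEtaUnit_mul_inv, map_one]
  rcases mul_eq_zero.1 h with h | h
  · exact HahnSeries.single_ne_zero one_ne_zero h
  · rw [← map_zero (HahnSeries.ofPowerSeries ℤ ℂ)] at h
    rw [HahnSeries.ofPowerSeries_injective h, zero_mul] at hDD
    exact zero_ne_one hDD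

theorem mem_expRing_of_charFun (hχ : TrivialAtInfty χ) {h : ℍ → ℂ} (hh : h ∈ CharFun χ m) :
    Expands 1 h (HahnSeries.ofPowerSeries ℤ ℂ (qExpansion 1 (cleared m h)) *
      (discSeries ^ m)⁻¹) := by
  refine ((expands_cleared hχ hh).mul ((expands_discriminant.pow m).inv
    (pow_ne_zero m discSeries_ne_zero))).congr_fun' (Eventually.of_forall fun z => ?_)
  simp [cleared, ModularForm.discriminant_ne_zero]

/-- The expansion at `∞`. -/
def charExp (hχ : TrivialAtInfty χ) : CharFun χ m →ₗ[ℂ] LaurentSeries ℂ where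
  toFun h := qLaurentHom 1 ⟨h, (mem_expRing_of_charFun hχ h.2).mem_expRing⟩
  map_add' f g := by
    rw [← map_add]; rfl
  map_smul' c f := by
    rw [RingHom.id_apply, qLaurentHom_apply, qLaurentHom_apply]
    exact Expands.expSeries_eq
      ((expands_expSeries (h := 1) ⟨f, (mem_expRing_of_charFun hχ f.2).mem_expRing⟩).smul c)

theorem expands_charExp (hχ : TrivialAtInfty χ) (h : CharFun χ m) :
    Expands 1 (h : ℍ → ℂ) (charExp hχ h) :=
  expands_expSeries (h := 1) ⟨h, (mem_expRing_of_charFun hχ h.2).mem_expRing⟩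

theorem charExp_injective (hχ : TrivialAtInfty χ) : Injective (charExp (m := m) hχ) := by
  intro f g hfg
  exact Subtype.ext (eq_of_expands f.2.1 g.2.1 (expands_charExp hχ f)
    (hfg ▸ expands_charExp hχ g))

theorem charExp_mul_pow (hχ : TrivialAtInfty χ) (h : CharFun χ m) :
    charExp hχ h * discSeries ^ m =
      HahnSeries.ofPowerSeries ℤ ℂ (qExpansion 1 (cleared m (h : ℍ → ℂ))) := by
  rw [(expands_charExp hχ h).unique (mem_expRing_of_charFun hχ h.2), mul_assoc,
    inv_mul_cancel₀ (pow_ne_zero m discSeries_ne_zero), mul_one]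

theorem isBoundedAtImInfty_pow {f : ℍ → ℂ} (hf : IsBoundedAtImInfty f) :
    ∀ k : ℕ, IsBoundedAtImInfty (fun z => f z ^ k)
  | 0 => by
    simp only [pow_zero]
    exact const_boundedAtFilter atImInfty (1 : ℂ)
  | k + 1 => by
    simp only [pow_succ]
    exact (isBoundedAtImInfty_pow hf k).mul hf

/-- `(h Δ^m)^n` as a modular form. -/
def powForm [NeZero N] {n : ℕ} (hn : ∀ γ, χ γ ^ n = 1) (h : CharFun χ m) :
    ModularForm (Gamma0 N) (((12 * m * n : ℕ) : ℤ)) where
  toFun z := cleared m (h : ℍ → ℂ) z ^ n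
  slash_action_eq' := by
    rintro _ ⟨γ, hγ, rfl⟩
    funext z
    rw [show (Matrix.SpecialLinearGroup.mapGL ℝ γ : GL (Fin 2) ℝ) = (γ : GL (Fin 2) ℝ) from rfl,
      ← ModularForm.SL_slash, ModularForm.SL_slash_apply]
    have h1 := h.2.2.1 ⟨γ, hγ⟩ z
    have hd : denom γ z ≠ 0 := denom_ne_zero _ z
    have hc : (χ ⟨γ, hγ⟩ : ℂ) ^ n = 1 := by
      rw [← Units.val_pow_eq_pow_val, hn, Units.val_one]
    have h12 : (denom γ z ^ (12 : ℤ)) ^ (m * n) = denom γ z ^ ((12 * m * n : ℕ) : ℤ) := by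
      rw [← zpow_natCast, ← zpow_mul]; push_cast; ring_nf
    simp only [cleared, discriminant_smul, mul_pow, h1, hc, one_mul, ← pow_mul]
    rw [h12, zpow_neg]
    field_simp [zpow_ne_zero]
  holo' := (mdifferentiable_cleared h.2).pow n
  bdd_at_cusps' := by
    intro c hc
    have : IsCusp c 𝒮ℒ := by
      rwa [Subgroup.IsArithmetic.isCusp_iff_isCusp_SL2Z] at hc
    rw [OnePoint.isBoundedAt_iff_forall_SL2Z this]
    intro δ _
    have hb : IsBoundedAtImInfty fun z =>
        ((h : ℍ → ℂ) (δ • z) * ModularForm.discriminant z ^ m) ^ n :=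
      isBoundedAtImInfty_pow (h.2.2.2 δ) n
    refine hb.congr' (Eventually.of_forall fun z => ?_) EventuallyEq.rfl
    rw [ModularForm.SL_slash_apply]
    have hd : denom δ z ≠ 0 := denom_ne_zero _ z
    have h12 : (denom δ z ^ (12 : ℤ)) ^ (m * n) = denom δ z ^ ((12 * m * n : ℕ) : ℤ) := by
      rw [← zpow_natCast, ← zpow_mul]; push_cast; ring_nf
    simp only [cleared, discriminant_smul, mul_pow, ← pow_mul]
    rw [h12, zpow_neg]
    field_simp

theorem exists_order_le [NeZero N] (hχ : TrivialAtInfty χ) {n : ℕ} (hn0 : n ≠ 0)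
    (hn : ∀ γ, χ γ ^ n = 1) :
    ∃ B : ℤ, ∀ h : CharFun χ m, h ≠ 0 → (charExp hχ h).order ≤ B := by
  set B₀ := (((12 * m * n : ℕ) : ℤ) * (Gamma0 N).index).toNat / 12
  refine ⟨(B₀ : ℤ) - (discSeries ^ m).order, fun h h0 => ?_⟩
  have hne : charExp hχ h ≠ 0 := (map_ne_zero_iff _ (charExp_injective hχ)).2 h0
  set Q := qExpansion 1 (cleared m (h : ℍ → ℂ)) with hQ
  have key : (charExp hχ h).order + (discSeries ^ m).order =
      (HahnSeries.ofPowerSeries ℤ ℂ Q).order := by
    rw [← charExp_mul_pow hχ h, HahnSeries.order_mul hne (pow_ne_zero m discSeries_ne_zero)]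
  obtain ⟨i, hi, hci⟩ : ∃ i ≤ B₀, Q.coeff i ≠ 0 := by
    by_contra! hall
    apply h0
    have hexp : Expands 1 (powForm hn h) ((HahnSeries.ofPowerSeries ℤ ℂ Q) ^ n) :=
      ((expands_cleared hχ h.2).pow n).congr_fun' (Eventually.of_forall fun z => rfl)
    have hexp' : Expands 1 (powForm hn h)
        (HahnSeries.ofPowerSeries ℤ ℂ (qExpansion 1 (powForm hn h))) := by
      have := expands_qExpansion (h := 1) (f := (powForm hn h : ℍ → ℂ))
        (by
          rw [Nat.cast_one]
          exact SlashInvariantFormClass.periodic_comp_ofComplex (powForm hn h)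
            (CongruenceSubgroup.one_mem_strictPeriods_Gamma0 N))
        (ModularFormClass.holo _) (by
          have := isBoundedAtImInfty_cleared h.2
          exact isBoundedAtImInfty_pow this n)
      rwa [Nat.cast_one] at this
    have hq : qExpansion 1 (powForm hn h) = Q ^ n :=
      HahnSeries.ofPowerSeries_injective (by rw [hexp'.unique hexp, map_pow])
    have hzero := ModularForm.sturm_bound_Gamma0 N (powForm hn h) (fun j hj => by
      rw [hq]
      obtain ⟨r, hr⟩ : (PowerSeries.X : PowerSeries ℂ) ^ (B₀ + 1) ∣ Q :=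
        PowerSeries.X_pow_dvd_iff.2 fun i hi => hall i (Nat.lt_succ_iff.1 hi)
      have hle : B₀ + 1 ≤ n * (B₀ + 1) := Nat.le_mul_of_pos_left _ (Nat.pos_of_ne_zero hn0)
      rw [hr, mul_pow, ← pow_mul, PowerSeries.coeff_X_pow_mul', if_neg]
      rw [mul_comm]
      have : j ≤ B₀ := hj
      omega)
    ext z
    have h1 : (powForm hn h : ℍ → ℂ) z = 0 := by rw [hzero]; rfl
    have h2 : cleared m (h : ℍ → ℂ) z ^ n = 0 := h1
    simpa [cleared, hn0, ModularForm.discriminant_ne_zero] using h2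
  have hle : (HahnSeries.ofPowerSeries ℤ ℂ Q).order ≤ i :=
    HahnSeries.order_le_of_coeff_ne_zero (by rwa [HahnSeries.ofPowerSeries_apply_coeff])
  omega

end FLTAgent.JTors
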