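import Fermat.Agent.JTors.RootBall
import Mathlib.Analysis.Complex.UpperHalfPlane.Manifold
import Mathlib.Analysis.Complex.UpperHalfPlane.Topology
import Mathlib.Analysis.Analytic.Uniqueness
import Mathlib.RingTheory.RootsOfUnity.Basic

/-!
Holomorphic `n`-th roots on the upper half plane.
-/

open Metric Set Filter Topology UpperHalfPlane
open scoped Manifold

namespace FLTAgent.JTors

theorem isOpen_halfPlane : IsOpen {z : ℂ | 0 < z.im} :=
  isOpen_lt continuous_const Complex.continuous_im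

theorem convex_halfPlane : Convex ℝ {z : ℂ | 0 < z.im} := convex_halfSpace_im_gt 0

theorem analyticOnNhd_comp_ofComplex {f : ℍ → ℂ} (hf : MDifferentiable 𝓘(ℂ) 𝓘(ℂ) f) :
    AnalyticOnNhd ℂ (f ∘ ofComplex) {z : ℂ | 0 < z.im} :=
  (UpperHalfPlane.mdifferentiable_iff.1 hf).analyticOnNhd isOpen_halfPlane

/-- Two holomorphic functions on a connected open set with equal `n`-th powers differ by a
constant `n`-th root of unity. -/
theorem eqOn_const_mul_of_pow_eq {U : Set ℂ} (hUo : IsOpen U) (hUc : IsPreconnected U)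
    {h h' : ℂ → ℂ} (hh : DifferentiableOn ℂ h U) (hh' : DifferentiableOn ℂ h' U)
    {n : ℕ} (hn : n ≠ 0) {z₀ : ℂ} (hz₀ : z₀ ∈ U) (h0 : h' z₀ ≠ 0)
    (heq : ∀ z ∈ U, h z ^ n = h' z ^ n) :
    (h z₀ / h' z₀) ^ n = 1 ∧ ∀ z ∈ U, h z = (h z₀ / h' z₀) * h' z := by
  set ζ := h z₀ / h' z₀
  have hζ : ζ ^ n = 1 := by
    rw [div_pow, heq z₀ hz₀, div_self (pow_ne_zero _ h0)]
  refine ⟨hζ, ?_⟩
  have hh'an := hh'.analyticOnNhd hUo
  have han : AnalyticOnNhd ℂ (fun z => ζ * h' z) U := fun z hz =>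
    analyticAt_const.mul (hh'an z hz)
  refine (hh.analyticOnNhd hUo).eqOn_of_preconnected_of_eventuallyEq han hUc hz₀ ?_
  have hfin : {x : ℂ | x ^ n = 1 ∧ x ≠ ζ}.Finite := by
    refine ((Polynomial.nthRoots n (1 : ℂ)).toFinset.finite_toSet).subset ?_
    intro x hx
    simp [Polynomial.mem_nthRoots (Nat.pos_of_ne_zero hn), hx.1]
  have hcont : ContinuousAt (fun z => h z / h' z) z₀ :=
    ((hh.differentiableAt (hUo.mem_nhds hz₀)).continuousAt).div
      (hh'.differentiableAt (hUo.mem_nhds hz₀)).continuousAt h0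
  have h1 : ∀ᶠ z in 𝓝 z₀, h z / h' z ∈ {x : ℂ | x ^ n = 1 ∧ x ≠ ζ}ᶜ :=
    hcont.eventually (hfin.isClosed.isOpen_compl.mem_nhds (by simp [ζ]))
  have h2 : ∀ᶠ z in 𝓝 z₀, h' z ≠ 0 :=
    (hh'.differentiableAt (hUo.mem_nhds hz₀)).continuousAt.eventually_ne h0
  filter_upwards [h1, h2, hUo.mem_nhds hz₀] with z hz hz' hzU
  have : h z / h' z = ζ := by
    by_contra hne
    exact hz ⟨by rw [div_pow, heq z hzU, div_self (pow_ne_zero _ hz')], hne⟩
  rw [← this, div_mul_cancel₀ _ hz']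

/-- Two holomorphic functions on the upper half plane with equal `n`-th powers differ by a
constant `n`-th root of unity. -/
theorem exists_const_mul_of_pow_eq {h h' : ℍ → ℂ} (hh : MDifferentiable 𝓘(ℂ) 𝓘(ℂ) h)
    (hh' : MDifferentiable 𝓘(ℂ) 𝓘(ℂ) h') {n : ℕ} (hn : n ≠ 0) (h0 : h' ≠ 0)
    (heq : ∀ z, h z ^ n = h' z ^ n) :
    ∃ ζ : ℂ, ζ ^ n = 1 ∧ ∀ z, h z = ζ * h' z := by
  obtain ⟨z₀, hz₀⟩ := Function.ne_iff.1 h0
  obtain ⟨hζ, hall⟩ := eqOn_const_mul_of_pow_eq isOpen_halfPlane convex_halfPlane.isPreconnected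
    (UpperHalfPlane.mdifferentiable_iff.1 hh) (UpperHalfPlane.mdifferentiable_iff.1 hh') hn
    z₀.im_pos (by simpa [ofComplex_apply] using hz₀) (fun z _ => heq _)
  exact ⟨_, hζ, fun z => by simpa [ofComplex_apply] using hall z z.im_pos⟩

/-- The exhausting family of discs `|z - it| < t - 1/t`. -/
def exhaustDisc (k : ℕ) : Set ℂ :=
  ball ((k + 2 : ℝ) * Complex.I) ((k + 2 : ℝ) - 1 / (k + 2 : ℝ))

theorem exhaustDisc_radius_pos (k : ℕ) : 0 < (k + 2 : ℝ) - 1 / (k + 2 : ℝ) := by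
  have h : (1 : ℝ) / (k + 2) ≤ 1 := by
    rw [div_le_one (by positivity)]; linarith [(Nat.cast_nonneg k : (0 : ℝ) ≤ k)]
  linarith [(Nat.cast_nonneg k : (0 : ℝ) ≤ k)]

theorem closedBall_subset_halfPlane (k : ℕ) :
    closedBall ((k + 2 : ℝ) * Complex.I) ((k + 2 : ℝ) - 1 / (k + 2 : ℝ)) ⊆
      {z : ℂ | 0 < z.im} := by
  intro z hz
  rw [mem_closedBall, Complex.dist_eq] at hz
  have h1 := (abs_le.1 ((Complex.abs_im_le_norm _).trans hz)).1
  have h2 : (0 : ℝ) < 1 / ((k : ℝ) + 2) := by positivity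
  simp at h1
  rw [one_div] at h2
  show 0 < z.im
  linarith

theorem exhaustDisc_subset (k : ℕ) : exhaustDisc k ⊆ {z : ℂ | 0 < z.im} :=
  ball_subset_closedBall.trans (closedBall_subset_halfPlane k)

theorem exhaustDisc_mono {j k : ℕ} (h : j ≤ k) : exhaustDisc j ⊆ exhaustDisc k := by
  refine ball_subset_ball' ?_
  have hle : (j : ℝ) ≤ k := by exact_mod_cast h
  have hd : dist ((j + 2 : ℝ) * Complex.I) ((k + 2 : ℝ) * Complex.I) = (k : ℝ) - j := by
    rw [Complex.dist_eq, ← sub_mul, norm_mul, Complex.norm_I, mul_one,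
      ← Complex.ofReal_sub, Complex.norm_real, Real.norm_eq_abs, abs_of_nonpos (by linarith)]
    ring
  rw [hd]
  have : (1 : ℝ) / (k + 2) ≤ 1 / (j + 2) := by
    apply one_div_le_one_div_of_le <;> [positivity; linarith]
  linarith

theorem exists_mem_exhaustDisc {z : ℂ} (hz : 0 < z.im) : ∃ k, z ∈ exhaustDisc k := by
  obtain ⟨k, hk⟩ := exists_nat_gt ((Complex.normSq z + 2) / (2 * z.im))
  refine ⟨k, ?_⟩
  rw [exhaustDisc, mem_ball, Complex.dist_eq]
  have hr := exhaustDisc_radius_pos k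
  rw [Complex.norm_def, Real.sqrt_lt (Complex.normSq_nonneg _) hr.le]
  rw [div_lt_iff₀ (by positivity)] at hk
  have ht : (0 : ℝ) < (k : ℝ) + 2 := by positivity
  have key : ((k : ℝ) + 2 - 1 / ((k : ℝ) + 2)) ^ 2 =
      ((k : ℝ) + 2) ^ 2 - 2 + (1 / ((k : ℝ) + 2)) ^ 2 := by
    field_simp; ring
  rw [key]
  simp [Complex.normSq_apply] at hk ⊢
  have h5 : (0 : ℝ) ≤ (((k : ℝ) + 2) ^ 2)⁻¹ := by positivity
  nlinarith

/-- A nonzero holomorphic function on the upper half plane all of whose orders are multiples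
of `n` has a holomorphic `n`-th root. -/
theorem exists_root {f : ℍ → ℂ} (hf : MDifferentiable 𝓘(ℂ) 𝓘(ℂ) f) (hne : f ≠ 0)
    {n : ℕ} (hn : n ≠ 0) (hdiv : ∀ z : ℍ, n ∣ analyticOrderNatAt (f ∘ ofComplex) (z : ℂ)) :
    ∃ h : ℍ → ℂ, MDifferentiable 𝓘(ℂ) 𝓘(ℂ) h ∧ ∀ z, h z ^ n = f z := by
  classical
  set g : ℂ → ℂ := f ∘ ofComplex with hg
  have han := analyticOnNhd_comp_ofComplex hf
  obtain ⟨w, hw⟩ := Function.ne_iff.1 hne
  obtain ⟨z₀, hz₀, hgz₀⟩ : ∃ z₀ ∈ exhaustDisc 0, g z₀ ≠ 0 := by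
    by_contra! hcon
    have hc : ((0 : ℕ) + 2 : ℝ) * Complex.I ∈ exhaustDisc 0 :=
      mem_ball_self (exhaustDisc_radius_pos 0)
    have := han.eqOn_zero_of_preconnected_of_eventuallyEq_zero convex_halfPlane.isPreconnected
      (exhaustDisc_subset 0 hc) (Filter.eventually_of_mem (isOpen_ball.mem_nhds hc) hcon) w.im_pos
    exact hw (by simpa [g, ofComplex_apply] using this)
  have hroot : ∀ k, ∃ h : ℂ → ℂ, DifferentiableOn ℂ h (exhaustDisc k) ∧
      (∀ z ∈ exhaustDisc k, h z ^ n = g z) ∧ h z₀ = g z₀ ^ ((n : ℂ)⁻¹) := by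
    intro k
    have hzk : z₀ ∈ exhaustDisc k := exhaustDisc_mono (Nat.zero_le k) hz₀
    obtain ⟨h, hh, hhg⟩ := exists_root_ball (exhaustDisc_radius_pos k) hn
      (han.mono (closedBall_subset_halfPlane k)) ⟨z₀, hzk, hgz₀⟩
      (fun z hz => hdiv ⟨z, exhaustDisc_subset k hz⟩)
    have h0 : h z₀ ≠ 0 := fun h0 => hgz₀ ((hhg z₀ hzk).symm.trans (by rw [h0, zero_pow hn]))
    set ζ := g z₀ ^ ((n : ℂ)⁻¹) / h z₀ with hζd
    have hζ : ζ ^ n = 1 := by
      rw [div_pow, Complex.cpow_nat_inv_pow _ hn, hhg z₀ hzk, div_self hgz₀]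
    exact ⟨fun z => ζ * h z, hh.const_mul ζ,
      fun z hz => by rw [mul_pow, hζ, one_mul, hhg z hz], div_mul_cancel₀ _ h0⟩
  choose r hr hrg hr0 using hroot
  have hcompat : ∀ j k, j ≤ k → EqOn (r k) (r j) (exhaustDisc j) := by
    intro j k hjk z hz
    have hzj : z₀ ∈ exhaustDisc j := exhaustDisc_mono (Nat.zero_le j) hz₀
    have hrj0 : r j z₀ ≠ 0 := by
      intro h; exact hgz₀ (by rw [← hrg j z₀ hzj, h, zero_pow hn])
    have := (eqOn_const_mul_of_pow_eq isOpen_ball (convex_ball _ _).isPreconnected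
      ((hr k).mono (exhaustDisc_mono hjk)) (hr j) hn hzj hrj0
      (fun x hx => by rw [hrg k x (exhaustDisc_mono hjk hx), hrg j x hx])).2 z hz
    rw [this, hr0 k, hr0 j, div_self (by rw [← hr0 j]; exact hrj0), one_mul]
  set H : ℂ → ℂ := fun z => if hz : 0 < z.im then r (Nat.find (exists_mem_exhaustDisc hz)) z else 0
  have hH : ∀ k, EqOn H (r k) (exhaustDisc k) := by
    intro k z hz
    have him : 0 < z.im := exhaustDisc_subset k hz
    simp only [H, dif_pos him]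
    exact (hcompat _ _ (Nat.find_min' _ hz) (Nat.find_spec (exists_mem_exhaustDisc him))).symm
  have hHd : DifferentiableOn ℂ H {z : ℂ | 0 < z.im} := by
    intro z hz
    obtain ⟨k, hk⟩ := exists_mem_exhaustDisc hz
    exact (((hr k).differentiableAt (isOpen_ball.mem_nhds hk)).congr_of_eventuallyEq
      (Filter.eventually_of_mem (isOpen_ball.mem_nhds hk) (hH k))).differentiableWithinAt
  refine ⟨fun z : ℍ => H z, UpperHalfPlane.mdifferentiable_iff.2 (hHd.congr fun z hz => ?_), ?_⟩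
  · simp [ofComplex_apply_of_im_pos hz]
  · intro z
    obtain ⟨k, hk⟩ := exists_mem_exhaustDisc z.im_pos
    show H z ^ n = f z
    rw [hH k hk, hrg k _ hk]
    simp [g, ofComplex_apply]

end FLTAgent.JTors
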