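import Fermat.Agent.Genus.DiskOrder
import Fermat.Agent.ModPoly.FunRing
import Fermat.Agent.JTors.RootH

/-!
Orders of expansions at points and cusps, against analytic orders and limits.
-/

noncomputable section

open UpperHalfPlane Filter Topology
open scoped Manifold

namespace FLTAgent.JTors

open ModPoly Genus

theorem coeff_zero_taylorPS (F : ℂ → ℂ) : (taylorPS F).coeff 0 = F 0 := by
  simp [coeff_taylorPS]

/-- The order of the disc expansion is the order of vanishing. -/
theorem order_diskSeries_eq (z₀ : ℍ) {g : ℍ → ℂ} (hg : MDiff g) (h0 : g ≠ 0) :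
    (diskSeries z₀ g).order = (analyticOrderNatAt (g ∘ ofComplex) (z₀ : ℂ) : ℤ) := by
  have hne : diskSeries z₀ g ≠ 0 := fun h => h0 (eq_zero_of_diskSeries_eq_zero z₀ hg h)
  have hga : AnalyticAt ℂ (g ∘ ofComplex) (diskPoint z₀ 0) := by
    rw [diskPoint_zero]
    exact analyticOnNhd_comp_ofComplex hg _ z₀.im_pos
  have hda : AnalyticAt ℂ (diskPoint z₀) 0 :=
    ((differentiableOn_diskPoint z₀).analyticOnNhd Metric.isOpen_ball) 0
      (Metric.mem_ball_self one_pos)
  have hderiv : deriv (diskPoint z₀) 0 ≠ 0 := by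
    rw [(hasDerivAt_diskPoint_zero z₀).deriv]
    intro h
    have := congrArg Complex.im h
    simp at this
    linarith [z₀.im_pos]
  have hord : analyticOrderAt (diskPull z₀ g) 0 =
      analyticOrderAt (g ∘ ofComplex) (z₀ : ℂ) := by
    have := analyticOrderAt_comp_of_deriv_ne_zero (f := g ∘ ofComplex) hda hderiv
    rw [diskPoint_zero] at this
    exact this
  have hpa := analyticAt_diskPull z₀ hg
  have htop : analyticOrderAt (diskPull z₀ g) 0 ≠ ⊤ := by
    intro h
    apply hne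
    rw [diskSeries, taylorPS_congr (analyticOrderAt_eq_top.1 h)]
    rw [taylorPS_const, map_zero, map_zero]
  obtain ⟨u, hu, hu0, hev⟩ := hpa.analyticOrderAt_ne_top.1 htop
  set k := analyticOrderNatAt (diskPull z₀ g) 0
  have hk : analyticOrderNatAt (g ∘ ofComplex) (z₀ : ℂ) = k := by
    simp only [k, analyticOrderNatAt, hord]
  rw [hk, diskSeries, taylorPS_congr (G := (fun q => q ^ k) * u)
      (hev.mono fun z hz => by simpa [smul_eq_mul] using hz),
    taylorPS_mul (by fun_prop) hu, taylorPS_pow_id, map_mul, HahnSeries.ofPowerSeries_X_pow]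
  have hc : (HahnSeries.ofPowerSeries ℤ ℂ (taylorPS u)).coeff ((0 : ℕ) : ℤ) ≠ 0 := by
    rwa [HahnSeries.ofPowerSeries_apply_coeff, coeff_zero_taylorPS]
  have hU : HahnSeries.ofPowerSeries ℤ ℂ (taylorPS u) ≠ 0 := fun h => hc (by rw [h]; simp)
  rw [HahnSeries.order_mul (HahnSeries.single_ne_zero one_ne_zero) hU,
    HahnSeries.order_single one_ne_zero]
  have h1 : (HahnSeries.ofPowerSeries ℤ ℂ (taylorPS u)).order ≤ 0 :=
    HahnSeries.order_le_of_coeff_ne_zero hc
  have h2 := order_ofPowerSeries_nonneg (taylorPS u)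
  omega

/-- An expansion of order zero gives a nonzero limit at `i∞`. -/
theorem tendsto_of_expands_order_zero {h : ℕ} [NeZero h] {f : ℍ → ℂ} {x : LaurentSeries ℂ}
    (hf : Expands h f x) (hx : x ≠ 0) (h0 : x.order = 0) :
    Tendsto f atImInfty (𝓝 (x.coeff 0)) ∧ x.coeff 0 ≠ 0 := by
  obtain ⟨P, hP⟩ : ∃ P : PowerSeries ℂ, HahnSeries.ofPowerSeries ℤ ℂ P = x := by
    refine ⟨PowerSeries.mk fun k => x.coeff (k : ℤ), ?_⟩
    ext i
    rcases lt_or_ge i 0 with hi | hi
    · rw [HahnSeries.coeff_eq_zero_of_lt_order (x := x) (lt_of_lt_of_le hi h0.ge),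
        HahnSeries.ofPowerSeries_apply, HahnSeries.embDomain_notin_range]
      rintro ⟨k, hk⟩
      simp at hk
      omega
    · obtain ⟨k, rfl⟩ := Int.eq_ofNat_of_zero_le hi
      simp
  have hc : x.coeff 0 ≠ 0 := h0 ▸ HahnSeries.coeff_order_eq_zero.not.2 hx
  refine ⟨?_, hc⟩
  obtain ⟨m₀, hm⟩ := hf.shift
  obtain ⟨F, hF, hxF, hev⟩ := hm (min m₀ 0) (min_le_left _ _)
  obtain ⟨k, hk⟩ : ∃ k : ℕ, min m₀ 0 = -(k : ℤ) := ⟨(-min m₀ 0).toNat, by omega⟩
  rw [hk] at hxF hev
  have hPF : taylorPS F = PowerSeries.X ^ k * P := by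
    apply HahnSeries.ofPowerSeries_injective (Γ := ℤ)
    rw [map_mul, HahnSeries.ofPowerSeries_X_pow, hP, hxF, ← mul_assoc,
      HahnSeries.single_mul_single]
    simp
  have hzero : ∀ i < k, (taylorPS F).coeff i = 0 := fun i hi => by
    rw [hPF, PowerSeries.coeff_X_pow_mul', if_neg (by omega)]
  have hord : (k : ℕ∞) ≤ analyticOrderAt F 0 := by
    rw [natCast_le_analyticOrderAt_iff_iteratedDeriv_eq_zero hF]
    intro i hi
    have := hzero i hi
    rw [coeff_taylorPS] at this
    simpa [Nat.factorial_ne_zero] using this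
  obtain ⟨G, hG, hFG⟩ := (natCast_le_analyticOrderAt hF).1 hord
  have hFG' : F =ᶠ[𝓝 0] (fun q => q ^ k) * G :=
    hFG.mono fun q hq => by simpa [smul_eq_mul] using hq
  have hG0 : G 0 = x.coeff 0 := by
    have h1 : PowerSeries.X ^ k * taylorPS G = PowerSeries.X ^ k * P := by
      rw [← hPF, taylorPS_congr hFG', taylorPS_mul (by fun_prop) hG, taylorPS_pow_id]
    rw [← coeff_zero_taylorPS G, mul_left_cancel₀ (pow_ne_zero k PowerSeries.X_ne_zero) h1, ← hP]
    exact (HahnSeries.ofPowerSeries_apply_coeff P 0).symm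
  rw [← hG0]
  have hq := qParam_tendsto_atImInfty (h := (h : ℝ))
    (by exact_mod_cast Nat.pos_of_ne_zero (NeZero.ne h))
  refine (hG.continuousAt.tendsto.comp hq).congr' ?_
  filter_upwards [hev, eventually_atImInfty_of_nhds (NeZero.ne h) hFG'] with τ hτ hτ'
  rw [hτ, hτ', Function.comp_apply, Pi.mul_apply, zpow_neg, zpow_natCast, ← mul_assoc,
    inv_mul_cancel₀ (pow_ne_zero _ (Function.Periodic.qParam_ne_zero _)), one_mul]

end FLTAgent.JTors
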