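import Mathlib.NumberTheory.ModularForms.CongruenceSubgroups
import Mathlib.Analysis.Complex.UpperHalfPlane.MoebiusAction
import Mathlib.LinearAlgebra.Matrix.SpecialLinearGroup
import Mathlib.RingTheory.Int.Basic

/-!
Elements of `SL(2, ℤ)` with small trace fix a point of the upper half plane or a cusp.
-/

noncomputable section

open UpperHalfPlane
open scoped MatrixGroups

namespace FLTAgent.JTors

theorem exists_fixed_point {g : SL(2, ℤ)}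
    (hg : (g : Matrix (Fin 2) (Fin 2) ℤ).trace ^ 2 < 4) : ∃ z : ℍ, g • z = z := by
  set M := (g : Matrix (Fin 2) (Fin 2) ℤ) with hM
  rw [Matrix.trace_fin_two] at hg
  have hdet : M 0 0 * M 1 1 - M 0 1 * M 1 0 = 1 := by
    rw [← Matrix.det_fin_two]; exact g.2
  have hc : M 1 0 ≠ 0 := by
    intro h
    rw [h, mul_zero, sub_zero] at hdet
    rcases Int.eq_one_or_neg_one_of_mul_eq_one hdet with e | e <;>
      rw [e] at hdet hg <;> nlinarith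
  set D : ℝ := Real.sqrt (4 - ((M 0 0 + M 1 1 : ℤ) : ℝ) ^ 2)
  have hpos : (0 : ℝ) < 4 - ((M 0 0 + M 1 1 : ℤ) : ℝ) ^ 2 := by
    have : (((M 0 0 + M 1 1) ^ 2 : ℤ) : ℝ) < ((4 : ℤ) : ℝ) := by exact_mod_cast hg
    push_cast at this ⊢
    linarith
  have hD2 : D ^ 2 = 4 - ((M 0 0 + M 1 1 : ℤ) : ℝ) ^ 2 := Real.sq_sqrt hpos.le
  have hD : 0 < D := Real.sqrt_pos.2 hpos
  have hc' : (M 1 0 : ℝ) ≠ 0 := by exact_mod_cast hc
  obtain ⟨e, he2, he⟩ : ∃ e : ℝ, e ^ 2 = D ^ 2 ∧ 0 < e / (2 * (M 1 0 : ℝ)) := by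
    rcases lt_or_gt_of_ne hc' with h | h
    · exact ⟨-D, by ring, div_pos_of_neg_of_neg (by linarith) (by linarith)⟩
    · exact ⟨D, rfl, div_pos hD (by linarith)⟩
  set w : ℂ := (((M 0 0 : ℂ) - M 1 1) + (e : ℂ) * Complex.I) / (2 * (M 1 0 : ℂ)) with hwdef
  have hw : 0 < w.im := by
    have : w.im = e / (2 * (M 1 0 : ℝ)) := by
      simp [hwdef, Complex.div_im, Complex.normSq]
      field_simp
    rw [this]; exact he
  refine ⟨⟨w, hw⟩, UpperHalfPlane.ext ?_⟩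
  have hden : (M 1 0 : ℂ) * w + (M 1 1 : ℂ) ≠ 0 := fun h => by
    have := congrArg Complex.im h
    simp [hc, hw.ne'] at this
  have key : (M 1 0 : ℂ) * w ^ 2 + ((M 1 1 : ℂ) - M 0 0) * w - (M 0 1 : ℂ) = 0 := by
    have hcC : (M 1 0 : ℂ) ≠ 0 := by exact_mod_cast hc
    have hdet' : (M 0 0 : ℂ) * M 1 1 - M 0 1 * M 1 0 = 1 := by exact_mod_cast hdet
    have heC : (e : ℂ) ^ 2 = 4 - ((M 0 0 : ℂ) + M 1 1) ^ 2 := by
      have := he2.trans hD2
      push_cast at this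
      exact_mod_cast this
    rw [hwdef]
    field_simp
    linear_combination (e : ℂ) ^ 2 * Complex.I_sq - heC + 4 * hdet'
  rw [UpperHalfPlane.coe_specialLinearGroup_apply]
  simp only [algebraMap_int_eq, eq_intCast, Complex.ofReal_intCast]
  show ((M 0 0 : ℂ) * w + M 0 1) / ((M 1 0 : ℂ) * w + M 1 1) = w
  rw [div_eq_iff hden]
  linear_combination -key

theorem exists_conj_upper {g : SL(2, ℤ)}
    (hg : (g : Matrix (Fin 2) (Fin 2) ℤ).trace ^ 2 = 4) :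
    ∃ δ : SL(2, ℤ), ((δ⁻¹ * g * δ : SL(2, ℤ)) : Matrix (Fin 2) (Fin 2) ℤ) 1 0 = 0 := by
  set M := (g : Matrix (Fin 2) (Fin 2) ℤ) with hM
  rw [Matrix.trace_fin_two] at hg
  have hdet : M 0 0 * M 1 1 - M 0 1 * M 1 0 = 1 := by
    rw [← Matrix.det_fin_two]; exact g.2
  rcases eq_or_ne (M 1 0) 0 with hc | hc
  · exact ⟨1, by simpa using hc⟩
  -- the fixed cusp `x / y = (a - d) / 2c`
  set p : ℤ := M 0 0 - M 1 1
  set q : ℤ := 2 * M 1 0
  have hq : q ≠ 0 := mul_ne_zero two_ne_zero hc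
  obtain ⟨x, y, hxy, hx, hy⟩ : ∃ x y : ℤ, IsCoprime x y ∧ p = x * (Int.gcd p q : ℤ) ∧
      q = y * (Int.gcd p q : ℤ) := by
    obtain ⟨x, y, h1, h2, h3⟩ := Int.exists_gcd_one (m := p) (n := q)
      (Nat.pos_of_ne_zero fun h => hq (Int.gcd_eq_zero_iff.1 h).2)
    exact ⟨x, y, Int.isCoprime_iff_gcd_eq_one.2 h1, h2, h3⟩
  obtain ⟨δ, h0, h1⟩ := hxy.exists_SL2_col 0
  refine ⟨δ, ?_⟩
  have hd0 : (Int.gcd p q : ℤ) ≠ 0 := fun h => hq (by rw [hy, h, mul_zero])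
  have key : M 1 0 * x ^ 2 + (M 1 1 - M 0 0) * x * y - M 0 1 * y ^ 2 = 0 := by
    have : (M 1 0 * x ^ 2 + (M 1 1 - M 0 0) * x * y - M 0 1 * y ^ 2) *
        (Int.gcd p q : ℤ) ^ 2 = 0 := by
      rw [show (M 1 0 * x ^ 2 + (M 1 1 - M 0 0) * x * y - M 0 1 * y ^ 2) * (Int.gcd p q : ℤ) ^ 2 =
          M 1 0 * (x * (Int.gcd p q : ℤ)) ^ 2 +
          (M 1 1 - M 0 0) * (x * (Int.gcd p q : ℤ)) * (y * (Int.gcd p q : ℤ)) -
          M 0 1 * (y * (Int.gcd p q : ℤ)) ^ 2 by ring, ← hx, ← hy]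
      simp only [p, q]
      linear_combination (-(M 1 0)) * hg + (4 * M 1 0) * hdet
    exact (mul_eq_zero.1 this).resolve_right (pow_ne_zero 2 hd0)
  simp [Matrix.mul_apply, Fin.sum_univ_two, Matrix.adjugate_fin_two, Matrix.vecMul, dotProduct,
    h0, h1, ← hM]
  linear_combination key

end FLTAgent.JTors
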