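import Fermat.Agent.JTors.Embedding
import Fermat.Agent.JTors.RootChar
import Fermat.Agent.JTors.Order
import Fermat.Agent.JTors.Stabilizer

/-!
The character of a function all of whose orders are divisible by `n`: the multipliers of an
`n`-th root on the upper half plane.
-/

set_option autoImplicit false

noncomputable section

open ModularCurve AlgebraicCurve UpperHalfPlane Filter Topology CongruenceSubgroup
open scoped MatrixGroups Manifold

namespace FLTAgent.JTors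

open ModPoly

theorem diskSeries_pow {z₀ : ℍ} {h : ℍ → ℂ} (hh : MDiff h) :
    ∀ k : ℕ, Genus.diskSeries z₀ (h ^ k) = Genus.diskSeries z₀ h ^ k
  | 0 => by
    rw [pow_zero, pow_zero, show (1 : ℍ → ℂ) = fun _ => 1 from rfl, Genus.diskSeries_const]
    rfl
  | k + 1 => by
    rw [pow_succ, pow_succ, Genus.diskSeries_mul z₀ (hh.pow k) hh, diskSeries_pow hh k]

theorem mul_ne_zero_of_mdiff {f g : ℍ → ℂ} (hf : MDiff f) (hg : MDiff g) (hf0 : f ≠ 0)
    (hg0 : g ≠ 0) : f * g ≠ 0 := fun h =>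
  (UpperHalfPlane.mul_eq_zero_iff hf hg).1 h |>.elim hf0 hg0

variable {N : ℕ} [NeZero N]

omit [NeZero N] in
theorem coe_ne_zero {g : modFunRing N} (hg : g ≠ 0) : (g : ℍ → ℂ) ≠ 0 :=
  fun h => hg (Subtype.ext h)

omit [NeZero N] in
theorem mdiff_coe (g : modFunRing N) : MDiff (g : ℍ → ℂ) := g.2.1

/-- `h` is an `n`-th root on the upper half plane of `f b ^ n`. -/
structure IsRootData (n : ℕ) (f : modularFunctionFieldBar N) (h : ℍ → ℂ) (b : modFunRing N) :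
    Prop where
  b_ne : b ≠ 0
  mdiff : MDiff h
  ne : h ≠ 0
  eq : ∃ g : modFunRing N, toC N f * qL N b ^ n = qL N g ∧ ∀ z, h z ^ n = (g : ℍ → ℂ) z

/-- `χ` is the character of the `n`-th roots of `f`. -/
def IsRootChar (n : ℕ) (f : modularFunctionFieldBar N) (χ : Gamma0 N →* ℂˣ) : Prop :=
  ∃ h b, IsRootData n f h b ∧
    ∀ (γ : Gamma0 N) (z : ℍ), h ((γ : SL(2, ℤ)) • z) = (χ γ : ℂ) * h z

variable {n : ℕ} {f f' : modularFunctionFieldBar N} {χ χ' : Gamma0 N →* ℂˣ}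

omit [NeZero N] in
theorem smul_eq_coe (g : modFunRing N) (γ : Gamma0 N) (z : ℍ) :
    (g : ℍ → ℂ) ((γ : SL(2, ℤ)) • z) = (g : ℍ → ℂ) z :=
  smul_eq_of_mem g.2 γ.2 z

theorem IsRootData.inv_pow {h : ℍ → ℂ} {b : modFunRing N} (hd : IsRootData n f h b)
    (γ : Gamma0 N) (z : ℍ) : h ((γ : SL(2, ℤ)) • z) ^ n = h z ^ n := by
  obtain ⟨g, -, hg⟩ := hd.eq
  rw [hg, hg, smul_eq_coe]

/-- Existence of roots. -/
theorem exists_rootData (hn : n ≠ 0) (hf : f ≠ 0)
    (hdiv : ∀ v : Place (AlgebraicClosure ℚ) (modularFunctionFieldBar N), (n : ℤ) ∣ v.ord f) :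
    ∃ h b, IsRootData n f h b := by
  obtain ⟨a, c, hc, hac⟩ := exists_frac N f
  obtain ⟨m, rfl⟩ : ∃ m, n = m + 1 := ⟨n - 1, by omega⟩
  set g : modFunRing N := a * c ^ m
  have hg : toC N f * qL N c ^ (m + 1) = qL N g := by
    rw [pow_succ', ← mul_assoc, hac, map_mul, map_pow]
  have hg0 : g ≠ 0 := by
    intro h
    rw [h, map_zero] at hg
    rcases mul_eq_zero.1 hg with h1 | h1
    · exact hf ((map_eq_zero_iff _ (toC_injective (N := N))).1 h1)
    · exact hc ((map_eq_zero_iff _ (qL_injective (N := N))).1 (eq_zero_of_pow_eq_zero h1))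
  have hord : ∀ z : ℍ, (m + 1) ∣ analyticOrderNatAt ((g : ℍ → ℂ) ∘ ofComplex) (z : ℂ) := by
    intro z
    have hψ := diskExp_injective (N := N) z
    have h1 := expEmb_mul N (diskExp N z) hψ (f := f) (a := g) (b := c ^ (m + 1))
      (by rw [map_pow]; exact hg)
    have hne1 : expEmb N (diskExp N z) hψ f ≠ 0 := (map_ne_zero _).2 hf
    have hne2 : diskExp N z c ≠ 0 := (map_ne_zero_iff _ hψ).2 hc
    have h2 := congrArg HahnSeries.order h1
    rw [map_pow, HahnSeries.order_mul hne1 (pow_ne_zero _ hne2), HahnSeries.order_pow] at h2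
    rw [diskExp_apply (g := g), order_diskSeries_eq z (mdiff_coe g) (coe_ne_zero hg0)] at h2
    rw [← Int.natCast_dvd_natCast, ← h2]
    refine dvd_add (dvd_order_expEmb N hdiv _ hψ) ?_
    rw [nsmul_eq_mul]
    exact dvd_mul_right _ _
  obtain ⟨h, hh, hpow⟩ := exists_root (mdiff_coe g) (coe_ne_zero hg0) (Nat.succ_ne_zero m) hord
  refine ⟨h, c, hc, hh, ?_, g, hg, hpow⟩
  rintro rfl
  exact coe_ne_zero hg0 (funext fun z => by simpa using (hpow z).symm)

theorem exists_isRootChar (hn : n ≠ 0) (hf : f ≠ 0)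
    (hdiv : ∀ v : Place (AlgebraicClosure ℚ) (modularFunctionFieldBar N), (n : ℤ) ∣ v.ord f) :
    ∃ χ, IsRootChar n f χ := by
  obtain ⟨h, b, hd⟩ := exists_rootData hn hf hdiv
  obtain ⟨χ, -, hχ⟩ := exists_rootChar hd.mdiff hd.ne hn hd.inv_pow
  exact ⟨χ, h, b, hd, hχ⟩

theorem IsRootChar.pow_eq_one (H : IsRootChar n f χ) (γ : Gamma0 N) : χ γ ^ n = 1 := by
  obtain ⟨h, b, hd, hχ⟩ := H
  obtain ⟨z, hz⟩ := Function.ne_iff.1 hd.ne
  refine Units.ext ?_
  rw [Units.val_pow_eq_pow_val, Units.val_one]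
  have := hd.inv_pow γ z
  rw [hχ, mul_pow] at this
  exact (mul_eq_right₀ (pow_ne_zero n hz)).1 this

theorem IsRootChar.unique (hn : n ≠ 0) (H : IsRootChar n f χ) (H' : IsRootChar n f χ') :
    χ = χ' := by
  obtain ⟨h, b, hd, hχ⟩ := H
  obtain ⟨h', b', hd', hχ'⟩ := H'
  obtain ⟨g, hg, hgp⟩ := hd.eq
  obtain ⟨g', hg', hgp'⟩ := hd'.eq
  have hkey : g * b' ^ n = g' * b ^ n := by
    apply qL_injective
    rw [map_mul, map_mul, map_pow, map_pow, ← hg, ← hg']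
    ring
  have hp : ∀ z, (h * b') z ^ n = (h' * b) z ^ n := fun z => by
    rw [Pi.mul_apply, Pi.mul_apply, mul_pow, mul_pow, hgp, hgp']
    exact congrFun (congrArg Subtype.val hkey) z
  have hne : h * (b' : ℍ → ℂ) ≠ 0 :=
    mul_ne_zero_of_mdiff hd.mdiff (mdiff_coe b') hd.ne (coe_ne_zero hd'.b_ne)
  have hne' : h' * (b : ℍ → ℂ) ≠ 0 :=
    mul_ne_zero_of_mdiff hd'.mdiff (mdiff_coe b) hd'.ne (coe_ne_zero hd.b_ne)
  obtain ⟨ζ, -, hζ⟩ := exists_const_mul_of_pow_eq (hd.mdiff.mul (mdiff_coe b'))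
    (hd'.mdiff.mul (mdiff_coe b)) hn hne' hp
  refine char_unique hne (fun γ z => ?_) (fun γ z => ?_)
  · rw [Pi.mul_apply, Pi.mul_apply, hχ, smul_eq_coe]; ring
  · rw [hζ, hζ, Pi.mul_apply, Pi.mul_apply, hχ', smul_eq_coe]; ring

theorem IsRootChar.mul (H : IsRootChar n f χ) (H' : IsRootChar n f' χ') :
    IsRootChar n (f * f') (χ * χ') := by
  obtain ⟨h, b, hd, hχ⟩ := H
  obtain ⟨h', b', hd', hχ'⟩ := H'
  obtain ⟨g, hg, hgp⟩ := hd.eq
  obtain ⟨g', hg', hgp'⟩ := hd'.eq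
  refine ⟨h * h', b * b', ⟨mul_ne_zero hd.b_ne hd'.b_ne, hd.mdiff.mul hd'.mdiff,
    mul_ne_zero_of_mdiff hd.mdiff hd'.mdiff hd.ne hd'.ne, g * g', ?_, fun z => ?_⟩,
    fun γ z => ?_⟩
  · rw [map_mul, map_mul, map_mul, ← hg, ← hg']
    ring
  · rw [Pi.mul_apply, mul_pow, hgp, hgp']
    rfl
  · rw [Pi.mul_apply, Pi.mul_apply, hχ, hχ', MonoidHom.mul_apply, Units.val_mul]
    ring

/-- `n`-th powers have trivial character. -/
theorem isRootChar_pow {u : modularFunctionFieldBar N} (hu : u ≠ 0) :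
    IsRootChar n (u ^ n) 1 := by
  obtain ⟨p, q, hq, hpq⟩ := exists_frac N u
  have hp : p ≠ 0 := by
    rintro rfl
    rw [map_zero] at hpq
    rcases mul_eq_zero.1 hpq with h1 | h1
    · exact hu ((map_eq_zero_iff _ (toC_injective (N := N))).1 h1)
    · exact hq ((map_eq_zero_iff _ (qL_injective (N := N))).1 h1)
  refine ⟨(p : ℍ → ℂ), q, ⟨hq, mdiff_coe p, coe_ne_zero hp, p ^ n, ?_, fun z => ?_⟩,
    fun γ z => ?_⟩
  · rw [map_pow, map_pow, ← mul_pow, hpq]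
  · rfl
  · rw [smul_eq_coe, MonoidHom.one_apply, Units.val_one, one_mul]

/-- The character does not change when `f` is multiplied by an `n`-th power. -/
theorem IsRootChar.mul_pow (H : IsRootChar n f χ) {u : modularFunctionFieldBar N} (hu : u ≠ 0) :
    IsRootChar n (f * u ^ n) χ := by
  have := H.mul (isRootChar_pow (n := n) hu)
  rwa [show χ * 1 = χ from MonoidHom.ext fun γ => _root_.mul_one _] at this

/-- A root of exponent `n` is one of exponent `n * m`. -/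
theorem IsRootChar.pow_mul (H : IsRootChar n f χ) (m : ℕ) :
    IsRootChar (n * m) (f ^ m) χ := by
  obtain ⟨h, b, hd, hχ⟩ := H
  obtain ⟨g, hg, hgp⟩ := hd.eq
  refine ⟨h, b, ⟨hd.b_ne, hd.mdiff, hd.ne, g ^ m, ?_, fun z => ?_⟩, hχ⟩
  · rw [map_pow, map_pow, ← hg, _root_.mul_pow, ← _root_.pow_mul]
  · rw [_root_.pow_mul, hgp]
    rfl

end FLTAgent.JTors
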