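import Fermat.Agent.JTors.AutC
import Fermat.Prelude.Def_ModularCurve_LaurentCoeff
import Mathlib.Algebra.Module.Submodule.Union

/-!
Finitely many subspaces of `ℂ((q))` permuted by `Aut(ℂ)` acting on coefficients contain nonzero
series with algebraic coefficients.
-/

open HahnSeries ModularCurve

namespace FLTAgent.JTors

theorem exists_le_of_subset_iUnion {K M ι : Type*} [Field K] [Infinite K] [AddCommGroup M]
    [Module K M] [Finite ι] (W : Submodule K M) (V : ι → Submodule K M)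
    (h : ∀ x ∈ W, ∃ i, x ∈ V i) : ∃ i, W ≤ V i := by
  by_contra! hcon
  obtain ⟨x, hx⟩ := Submodule.exists_forall_notMem_of_forall_ne_top
    (fun i => (V i).comap W.subtype) (fun i he => hcon i fun y hy => by
      have : (⟨y, hy⟩ : W) ∈ (V i).comap W.subtype := by rw [he]; trivial
      exact this)
  obtain ⟨i, hi⟩ := h x x.2
  exact hx i hi

/-- The image of a subspace under a coefficient automorphism. -/
def coeffImage (σ : ℂ ≃+* ℂ) (W : Submodule ℂ (LaurentSeries ℂ)) :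
    Submodule ℂ (LaurentSeries ℂ) where
  carrier := {y | coeffMap (σ.symm : ℂ →+* ℂ) y ∈ W}
  zero_mem' := by simp
  add_mem' := fun {a b} ha hb => by simpa using W.add_mem ha hb
  smul_mem' := fun c y hy => by
    show coeffMap (σ.symm : ℂ →+* ℂ) (c • y) ∈ W
    have : coeffMap (σ.symm : ℂ →+* ℂ) (c • y) = σ.symm c • coeffMap (σ.symm : ℂ →+* ℂ) y := by
      ext k; simp
    rw [this]
    exact W.smul_mem _ hy

theorem coeffMap_symm_apply_apply (σ : ℂ ≃+* ℂ) (y : LaurentSeries ℂ) :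
    coeffMap (σ.symm : ℂ →+* ℂ) (coeffMap (σ : ℂ →+* ℂ) y) = y := by
  ext k; simp

theorem coeffMap_apply_symm_apply (σ : ℂ ≃+* ℂ) (y : LaurentSeries ℂ) :
    coeffMap (σ : ℂ →+* ℂ) (coeffMap (σ.symm : ℂ →+* ℂ) y) = y := by
  ext k; simp

theorem exists_algebraic_mem {ι : Type*} [Finite ι] (V : ι → Submodule ℂ (LaurentSeries ℂ))
    (hne : ∀ i, V i ≠ ⊥) (hdisj : ∀ i j, i ≠ j → V i ⊓ V j = ⊥)
    (hbdd : ∀ i, ∃ B : ℤ, ∀ H ∈ V i, H ≠ 0 → H.order ≤ B)
    (hstab : ∀ (σ : ℂ ≃+* ℂ) (i : ι), ∀ H ∈ V i, ∃ j, coeffMap (σ : ℂ →+* ℂ) H ∈ V j) :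
    ∀ i, ∃ H ∈ V i, H ≠ 0 ∧ ∀ k, IsAlgebraic ℚ (H.coeff k) := by
  classical
  have hex : ∀ i, ∃ H, H ∈ V i ∧ H ≠ 0 ∧ H.coeff H.order = 1 ∧
      ∀ H' ∈ V i, H' ≠ 0 → H'.order ≤ H.order := by
    intro i
    obtain ⟨B, hB⟩ := hbdd i
    obtain ⟨H₀, hH₀, hH₀0⟩ := Submodule.exists_mem_ne_zero_of_ne_bot (hne i)
    obtain ⟨m, ⟨H, hH, hH0, rfl⟩, hmax⟩ := Int.exists_greatest_of_bdd
      (P := fun m => ∃ H ∈ V i, H ≠ 0 ∧ H.order = m)
      ⟨B, by rintro z ⟨H, hH, hH0, rfl⟩; exact hB H hH hH0⟩ ⟨_, H₀, hH₀, hH₀0, rfl⟩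
    have hc : H.coeff H.order ≠ 0 := HahnSeries.coeff_order_eq_zero.not.2 hH0
    have hne' : (H.coeff H.order)⁻¹ • H ≠ 0 := smul_ne_zero (inv_ne_zero hc) hH0
    have hord : ((H.coeff H.order)⁻¹ • H).order = H.order := by
      refine le_antisymm (hmax _ ⟨_, (V i).smul_mem _ hH, hne', rfl⟩) ?_
      exact HahnSeries.le_order_smul _ _ hne'
    refine ⟨_, (V i).smul_mem _ hH, hne', ?_, fun H' hH' hH'0 => ?_⟩
    · rw [hord]; simp [inv_mul_cancel₀ hc]
    · rw [hord]; exact hmax _ ⟨H', hH', hH'0, rfl⟩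
  choose H hHV hH0 hH1 hHmax using hex
  have huniq : ∀ i, ∀ H' ∈ V i, H' ≠ 0 → H'.coeff H'.order = 1 → H'.order = (H i).order →
      H' = H i := by
    intro i H' hH' hH'0 h1 ho
    by_contra hne'
    have hd : H' - H i ≠ 0 := sub_ne_zero.2 hne'
    have hle := hHmax i _ ((V i).sub_mem hH' (hHV i)) hd
    have hge : (H i).order ≤ (H' - H i).order := by
      by_contra hlt
      push Not at hlt
      apply HahnSeries.coeff_order_eq_zero.not.2 hd
      rw [HahnSeries.coeff_sub, HahnSeries.coeff_eq_zero_of_lt_order (by omega),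
        HahnSeries.coeff_eq_zero_of_lt_order hlt, sub_zero]
    apply HahnSeries.coeff_order_eq_zero.not.2 hd
    rw [le_antisymm hle hge, HahnSeries.coeff_sub, hH1 i, ← ho, h1, sub_self]
  have himg : ∀ (σ : ℂ ≃+* ℂ) i, ∃ j, coeffImage σ (V i) ≤ V j := fun σ i => by
    refine exists_le_of_subset_iUnion _ V fun y hy => ?_
    obtain ⟨j, hj⟩ := hstab σ i _ hy
    exact ⟨j, by rwa [coeffMap_apply_symm_apply] at hj⟩
  have hperm : ∀ (σ : ℂ ≃+* ℂ) i, ∃ j, coeffMap (σ : ℂ →+* ℂ) (H i) = H j := by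
    intro σ i
    obtain ⟨j, hj⟩ := himg σ i
    obtain ⟨i', hi'⟩ := himg σ.symm j
    have hback : ∀ y ∈ V i, y ∈ V i' := fun y hy => by
      have h1 : coeffMap (σ : ℂ →+* ℂ) y ∈ V j :=
        hj (show coeffMap (σ.symm : ℂ →+* ℂ) _ ∈ V i by rwa [coeffMap_symm_apply_apply])
      exact hi' (show coeffMap (σ.symm.symm : ℂ →+* ℂ) y ∈ V j by simpa using h1)
    obtain rfl : i = i' := by
      by_contra hne'
      have : H i ∈ V i ⊓ V i' := ⟨hHV i, hback _ (hHV i)⟩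
      rw [hdisj i i' hne'] at this
      exact hH0 i this
    have hord : ∀ y : LaurentSeries ℂ, ∀ τ : ℂ ≃+* ℂ,
        (coeffMap (τ : ℂ →+* ℂ) y).order = y.order := by
      intro y τ
      rcases eq_or_ne y 0 with rfl | hy
      · simp
      refine le_antisymm (HahnSeries.order_le_of_coeff_ne_zero ?_)
        (HahnSeries.order_le_of_coeff_ne_zero ?_)
      · simpa using HahnSeries.coeff_order_eq_zero.not.2 hy
      · have hy' : coeffMap (τ : ℂ →+* ℂ) y ≠ 0 :=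
          (map_ne_zero_iff _ (RingHom.injective _)).2 hy
        intro h0
        exact HahnSeries.coeff_order_eq_zero.not.2 hy' (by simp [h0])
    have hmem : coeffMap (σ : ℂ →+* ℂ) (H i) ∈ V j :=
      hj (show coeffMap (σ.symm : ℂ →+* ℂ) _ ∈ V i by
        rw [coeffMap_symm_apply_apply]; exact hHV i)
    have hne0 : coeffMap (σ : ℂ →+* ℂ) (H i) ≠ 0 :=
      (map_ne_zero_iff _ (RingHom.injective _)).2 (hH0 i)
    refine ⟨j, huniq j _ hmem hne0 (by rw [hord]; simp [hH1]) ?_⟩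
    refine le_antisymm (hHmax j _ hmem hne0) ?_
    have hb : coeffMap (σ.symm : ℂ →+* ℂ) (H j) ∈ V i :=
      hi' (show coeffMap (σ.symm.symm : ℂ →+* ℂ) _ ∈ V j by
        rw [coeffMap_symm_apply_apply σ.symm]; exact hHV j)
    have := hHmax i _ hb ((map_ne_zero_iff _ (RingHom.injective _)).2 (hH0 j))
    rw [hord] at this ⊢
    exact this
  intro i
  refine ⟨H i, hHV i, hH0 i, fun k => isAlgebraic_of_finite_orbit ?_⟩
  refine (Set.finite_range fun j => (H j).coeff k).subset ?_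
  rintro _ ⟨σ, rfl⟩
  obtain ⟨j, hj⟩ := hperm σ i
  exact ⟨j, by simp [← hj]⟩

end FLTAgent.JTors
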