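import Fermat.Agent.JTors.CharFun
import Fermat.Agent.ModPoly.LevelOne
import Mathlib.NumberTheory.ModularForms.Basic

/-!
Functions with character whose products with `Δ ^ 2` vanish at all cusps, their `n`-th powers as
cusp forms, and their expansions at all cusps.
-/

set_option autoImplicit false

noncomputable section

open UpperHalfPlane CongruenceSubgroup Filter Function Topology
open scoped MatrixGroups Manifold ModularForm

namespace FLTAgent.JTors

open ModPoly

variable {N : ℕ}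

/-- Functions with character `χ` whose products with `Δ ^ 2` vanish at all cusps. -/
def CuspChar (χ : Gamma0 N →* ℂˣ) : Submodule ℂ (ℍ → ℂ) where
  carrier := {h | h ∈ CharFun χ 2 ∧
    ∀ δ : SL(2, ℤ), IsZeroAtImInfty fun z => h (δ • z) * ModularForm.discriminant z ^ 2}
  zero_mem' := ⟨Submodule.zero_mem _, fun δ => by
    simp only [Pi.zero_apply, zero_mul]
    exact Filter.zero_zeroAtFilter atImInfty⟩
  add_mem' := by
    rintro f g ⟨hf, hfz⟩ ⟨hg, hgz⟩
    refine ⟨Submodule.add_mem _ hf hg, fun δ => ?_⟩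
    simpa [IsZeroAtImInfty, add_mul, Pi.add_def] using (hfz δ).add (hgz δ)
  smul_mem' := by
    rintro c f ⟨hf, hfz⟩
    refine ⟨Submodule.smul_mem _ c hf, fun δ => ?_⟩
    simpa [IsZeroAtImInfty, mul_assoc, Pi.smul_def] using (hfz δ).smul c

theorem mem_cuspChar {χ : Gamma0 N →* ℂˣ} {h : ℍ → ℂ} :
    h ∈ CuspChar χ ↔ h ∈ CharFun χ 2 ∧
      ∀ δ : SL(2, ℤ), IsZeroAtImInfty fun z => h (δ • z) * ModularForm.discriminant z ^ 2 :=
  Iff.rfl

theorem cuspChar_le (χ : Gamma0 N →* ℂˣ) : CuspChar χ ≤ CharFun χ 2 := fun _ h => h.1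

theorem exists_cuspChar_ne_zero {χ : Gamma0 N →* ℂˣ} (hχ : TrivialAtInfty χ)
    (hfin : ∀ γ, ‖(χ γ : ℂ)‖ = 1) : ∃ h ∈ CuspChar χ, h ≠ 0 := by
  obtain ⟨h, hh, h0⟩ := exists_charFun_ne_zero hχ hfin
  have hz : ∀ δ : SL(2, ℤ),
      IsZeroAtImInfty fun z => h (δ • z) * ModularForm.discriminant z ^ 2 := fun δ => by
    have hΔ : ZeroAtFilter atImInfty (ModularForm.discriminant : ℍ → ℂ) := by
      show IsZeroAtImInfty _
      simpa [CuspForm.coe_discriminant] using
        CuspFormClass.zero_at_infty (Γ := 𝒮ℒ) CuspForm.discriminant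
    have h1 := (hh.2.2 δ).mul_zeroAtFilter hΔ
    simpa [IsZeroAtImInfty, pow_succ, mul_assoc, Pi.mul_def] using h1
  exact ⟨h, ⟨⟨hh.1, hh.2.1, fun δ => (hz δ).boundedAtFilter⟩, hz⟩, h0⟩

theorem tendsto_zero_of_pow {ι : Type*} {l : Filter ι} {u : ι → ℂ} {n : ℕ}
    (h : Tendsto (fun i => u i ^ n) l (𝓝 0)) : Tendsto u l (𝓝 0) := by
  rw [NormedAddGroup.tendsto_nhds_zero] at h ⊢
  intro ε hε
  filter_upwards [h (ε ^ n) (pow_pos hε n)] with i hi
  rw [norm_pow] at hi
  exact lt_of_pow_lt_pow_left₀ n hε.le hi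

variable [NeZero N] {χ : Gamma0 N →* ℂˣ} {n : ℕ}

/-- `(h Δ²)ⁿ` as a cusp form. -/
def cuspPow (hn0 : n ≠ 0) (hn : ∀ γ, χ γ ^ n = 1) (h : CuspChar χ) :
    CuspForm (Gamma0 N) (((12 * 2 * n : ℕ) : ℤ)) where
  toFun z := cleared 2 (h : ℍ → ℂ) z ^ n
  slash_action_eq' := (powForm hn ⟨(h : ℍ → ℂ), h.2.1⟩).slash_action_eq'
  holo' := (powForm hn ⟨(h : ℍ → ℂ), h.2.1⟩).holo'
  zero_at_cusps' := by
    intro c hc
    have : IsCusp c 𝒮ℒ := by
      rwa [Subgroup.IsArithmetic.isCusp_iff_isCusp_SL2Z] at hc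
    rw [OnePoint.isZeroAt_iff_forall_SL2Z this]
    intro δ _
    have hb : Tendsto (fun z => ((h : ℍ → ℂ) (δ • z) * ModularForm.discriminant z ^ 2) ^ n)
        atImInfty (𝓝 0) := by
      simpa [zero_pow hn0] using (h.2.2 δ : Tendsto _ _ _).pow n
    refine hb.congr' (Eventually.of_forall fun z => ?_)
    rw [ModularForm.SL_slash_apply]
    have hd : denom δ z ≠ 0 := denom_ne_zero _ z
    have h12 : (denom δ z ^ (12 : ℤ)) ^ (2 * n) = denom δ z ^ ((12 * 2 * n : ℕ) : ℤ) := by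
      rw [← zpow_natCast, ← zpow_mul]; push_cast; ring_nf
    simp only [cleared, discriminant_smul, mul_pow, ← pow_mul]
    rw [h12, zpow_neg]
    field_simp

@[simp] theorem cuspPow_apply (hn0 : n ≠ 0) (hn : ∀ γ, χ γ ^ n = 1) (h : CuspChar χ) (z : ℍ) :
    cuspPow hn0 hn h z = ((h : ℍ → ℂ) z * ModularForm.discriminant z ^ 2) ^ n := rfl

theorem pow_mem_modFunRing (hn0 : n ≠ 0) (hn : ∀ γ, χ γ ^ n = 1) (h : CuspChar χ) :
    (fun z => (h : ℍ → ℂ) z ^ n) ∈ modFunRing N := by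
  have := div_discriminant_pow_mem (m := 2 * n) (k := ((12 * 2 * n : ℕ) : ℤ))
    (by push_cast; ring) (cuspPow hn0 hn h)
  convert this using 1
  funext z
  rw [cuspPow_apply, mul_pow, ← pow_mul, mul_div_assoc,
    div_self (pow_ne_zero _ (ModularForm.discriminant_ne_zero z)), mul_one]

/-- The expansion of a function with character trivial on parabolics at a cusp. -/
theorem mem_expRing_comp_smul {h : ℍ → ℂ} (hh : h ∈ CharFun χ 2) {δ : SL(2, ℤ)}
    (hT : ∀ z : ℍ, h (δ • ((N : ℝ) +ᵥ z)) = h (δ • z)) :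
    (fun z : ℍ => h (δ • z)) ∈ expRing N := by
  set F : ℍ → ℂ := fun z => h (δ • z) * ModularForm.discriminant z ^ 2
  have hmd : MDiff F := by
    have hd : (0 : ℝ) < ((δ : GL (Fin 2) ℝ)).det.val := by simp
    exact (hh.1.comp (UpperHalfPlane.mdifferentiable_smul hd)).mul
      (mdifferentiable_discriminant.pow 2)
  have hΔ : ∀ z : ℍ, ModularForm.discriminant ((N : ℝ) +ᵥ z) = ModularForm.discriminant z := by
    intro z
    rw [← smul_T_pow_eq_vadd, discriminant_smul,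
      ModularGroup.denom_apply, ModularGroup.coe_T_zpow]
    simp
  have hper : ∀ z : ℍ, F ((N : ℝ) +ᵥ z) = F z := fun z => by simp only [F, hT, hΔ]
  have h1 := expands_qExpansion (h := N) (periodic_of_vadd hper) hmd (hh.2.2 δ)
  have h2 := ((expands_discriminant.width_mul (k := N)).pow 2)
  rw [one_mul] at h2
  have h3 := h1.mul (h2.inv (pow_ne_zero 2 ?_))
  · refine Expands.mem_expRing (h3.congr_fun' (Eventually.of_forall fun z => ?_))
    simp [F, ModularForm.discriminant_ne_zero]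
  · intro h0
    exact discSeries_ne_zero ((map_eq_zero_iff _ (RingHom.injective _)).1 h0)

end FLTAgent.JTors
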