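import Fermat.Agent.Genus.Export
import Fermat.Agent.JTors.CuspChar
import Fermat.Agent.JTors.RootPar
import Fermat.Agent.Periods.ParQuot

/-!
Orders at all places of `n`-th powers of functions with character trivial on elliptic and parabolic
elements.
-/

set_option autoImplicit false

noncomputable section

open ModularCurve AlgebraicCurve CongruenceSubgroup Filter
open UpperHalfPlane hiding I
open scoped MatrixGroups Manifold

namespace FLTAgent.JTors

open ModPoly Genus

theorem trace_sq_le_four_of_fixed {g : SL(2, ℤ)} {z : ℍ} (h : g • z = z) :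
    (g : Matrix (Fin 2) (Fin 2) ℤ).trace ^ 2 ≤ 4 := by
  set M := (g : Matrix (Fin 2) (Fin 2) ℤ) with hM
  rw [Matrix.trace_fin_two]
  have hdet : (M 0 0 : ℝ) * M 1 1 - M 0 1 * M 1 0 = 1 := by
    have : M.det = 1 := g.2
    rw [Matrix.det_fin_two] at this
    exact_mod_cast this
  have h1 : ((M 0 0 : ℂ) * z + M 0 1) / ((M 1 0 : ℂ) * z + M 1 1) = z := by
    have := congrArg UpperHalfPlane.coe h
    rw [UpperHalfPlane.coe_specialLinearGroup_apply] at this
    simpa using this
  rw [div_eq_iff (denom_int_ne_zero g z)] at h1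
  have him := congrArg Complex.im h1
  have hre := congrArg Complex.re h1
  simp only [Complex.add_im, Complex.mul_im, Complex.intCast_re, Complex.intCast_im,
    Complex.add_re, Complex.mul_re] at him hre
  have hy := z.im_pos
  have hd : (M 0 0 : ℝ) - M 1 1 = 2 * M 1 0 * (z : ℂ).re := by
    have : (z : ℂ).im ≠ 0 := hy.ne'
    apply mul_right_cancel₀ this
    linear_combination him
  suffices ((M 0 0 : ℝ) + M 1 1) ^ 2 ≤ 4 by exact_mod_cast this
  have hb : (M 0 1 : ℝ) =
      -((M 1 0 : ℝ) * ((z : ℂ).re * (z : ℂ).re + (z : ℂ).im * (z : ℂ).im)) := by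
    linear_combination hre - (z : ℂ).re * hd
  have key : ((M 0 0 : ℝ) + M 1 1) ^ 2 = 4 - 4 * ((M 1 0 : ℝ) * (z : ℂ).im) ^ 2 := by
    linear_combination ((M 0 0 : ℝ) - M 1 1 + 2 * M 1 0 * (z : ℂ).re) * hd + 4 * hdet +
      4 * (M 1 0 : ℝ) * hb
  linarith [sq_nonneg ((M 1 0 : ℝ) * (z : ℂ).im)]

theorem trace_sq_le_four_of_T_pow (a : SL(2, ℤ)) (s : ℕ) :
    ((a⁻¹ * ModularGroup.T ^ s * a : SL(2, ℤ)) : Matrix (Fin 2) (Fin 2) ℤ).trace ^ 2 ≤ 4 := by
  have h : ((a⁻¹ * ModularGroup.T ^ s * a : SL(2, ℤ)) : Matrix (Fin 2) (Fin 2) ℤ).trace =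
      ((ModularGroup.T ^ s : SL(2, ℤ)) : Matrix (Fin 2) (Fin 2) ℤ).trace := by
    rw [Matrix.SpecialLinearGroup.coe_mul, Matrix.trace_mul_comm,
      ← Matrix.SpecialLinearGroup.coe_mul]
    congr 1
    rw [← mul_assoc, mul_inv_cancel, one_mul]
  rw [h, ← zpow_natCast ModularGroup.T s, ModularGroup.coe_T_zpow, Matrix.trace_fin_two]
  norm_num

/-- The stabiliser of an orbit of the rotation. -/
theorem pow_ord_fix {K F : Type*} [Field K] [Field F] [Algebra K F] {X : Type*} [Fintype X]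
    {ι : K →+* ℂ} {x : F} (R : RamData ι x X) (hres : ∀ v : Place K F, HasResidueK v) (i : X) :
    (R.σ ^ ((R.place i).ord x).toNat) i = i := by
  classical
  set e := ((R.place i).ord x).toNat with he
  obtain ⟨h1, h2⟩ := R.fibre_eq hres i
  rw [← he] at h1
  rw [h1] at h2
  have hinj : Set.InjOn (fun n => (R.σ ^ n) i) (Finset.range e : Set ℕ) := by
    refine Finset.card_image_iff.1 ?_
    rw [Finset.card_range]
    have hpos := R.ord_pos i
    omega
  have hmem : (R.σ ^ e) i ∈ Finset.univ.filter fun i' => R.place i' = R.place i :=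
    Finset.mem_filter.2 ⟨Finset.mem_univ _, R.place_pow e i⟩
  rw [h1] at hmem
  obtain ⟨r, hr, hri⟩ := Finset.mem_image.1 hmem
  rw [Finset.mem_range] at hr
  have hfix : (R.σ ^ (e - r)) i = i := by
    have h3 : (R.σ ^ e) i = (R.σ ^ r) ((R.σ ^ (e - r)) i) := by
      rw [← Equiv.Perm.mul_apply, ← pow_add, Nat.add_sub_cancel' hr.le]
    rw [← hri] at h3
    exact ((R.σ ^ r).injective h3).symm
  rcases Nat.eq_zero_or_pos r with rfl | hr0
  · simpa using hfix
  · exfalso
    have := hinj (x₁ := e - r) (x₂ := 0) (by simp; omega) (by simp; omega)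
      (by simpa using hfix)
    omega

/-- A series fixed by a rotation of order `k` has order divisible by `k`. -/
theorem dvd_order_of_rot_eq {w : ℂˣ} {k : ℕ} (hw : IsPrimitiveRoot w k) {S : LaurentSeries ℂ}
    (hS : rot w S = S) : (k : ℤ) ∣ S.order := by
  rcases eq_or_ne S 0 with rfl | h0
  · simp
  have h := congrArg (fun T : LaurentSeries ℂ => T.coeff S.order) hS
  simp only [rot_coeff] at h
  exact (hw.zpow_eq_one_iff_dvd _).1
    (Units.ext ((mul_eq_right₀ (HahnSeries.coeff_order_eq_zero.not.2 h0)).1 h))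

theorem diskSeries_smul_pow {γ : SL(2, ℤ)} {z₀ : ℍ} (hfix : γ • z₀ = z₀) {g : ℍ → ℂ}
    (hg : MDiff g) : ∀ s : ℕ, diskSeries z₀ (fun z => g (γ ^ s • z)) =
      rot ((Units.mk0 (rotNum γ z₀) (rotNum_ne_zero γ z₀)) ^ s) (diskSeries z₀ g)
  | 0 => by simp [rot_one]
  | s + 1 => by
    have hm : MDiff fun z : ℍ => g (γ ^ s • z) := mdifferentiable_comp_smul hg _
    rw [pow_succ' (Units.mk0 (rotNum γ z₀) (rotNum_ne_zero γ z₀)) s, ← rot_rot, ← diskSeries_smul_pow hfix hg s,
      ← diskSeries_smul hfix hm]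
    congr 1
    funext z
    rw [pow_succ, mul_smul]

theorem expands_smul_T_pow {N : ℕ} [NeZero N] {f : ℍ → ℂ} {x : LaurentSeries ℂ}
    (hf : Expands N f x) :
    ∀ s : ℕ, Expands N (fun z : ℍ => f (ModularGroup.T ^ s • z)) (rot (zetaC N ^ s) x)
  | 0 => by simpa [rot_one] using hf
  | s + 1 => by
    rw [pow_succ' (zetaC N) s, ← rot_rot]
    refine (expands_comp_T (expands_smul_T_pow hf s)).congr_fun'
      (Eventually.of_forall fun z => ?_)
    show f (ModularGroup.T ^ s • ModularGroup.T • z) = _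
    rw [← mul_smul, ← pow_succ]

variable {N : ℕ} [NeZero N] {χ : Gamma0 N →* ℂˣ} {n : ℕ}

omit [NeZero N] in
theorem apply_smul_of_fix (hpar : ∀ γ : Gamma0 N, Periods.IsEllPar γ → χ γ = 1) {h : ℍ → ℂ}
    (hh : h ∈ CharFun χ 2) {a g : SL(2, ℤ)}
    (hmem : a⁻¹ * g * a ∈ Gamma0 N)
    (htr : ((a⁻¹ * g * a : SL(2, ℤ)) : Matrix (Fin 2) (Fin 2) ℤ).trace ^ 2 ≤ 4) (z : ℍ) :
    h (a⁻¹ • g • z) = h (a⁻¹ • z) := by
  have := hh.2.1 ⟨_, hmem⟩ (a⁻¹ • z)
  rw [hpar ⟨_, hmem⟩ htr, Units.val_one, one_mul] at this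
  rw [← this]
  congr 1
  rw [← mul_smul, ← mul_smul]
  congr 1
  group

omit [NeZero N] in
theorem smul_fixed_inv {q : Cosets N} {g : SL(2, ℤ)} (h : g⁻¹ • q = q) :
    q.out⁻¹ * g * q.out ∈ Gamma0 N := by
  have e : (QuotientGroup.mk (g⁻¹ * q.out) : Cosets N) = QuotientGroup.mk q.out := by
    rw [QuotientGroup.out_eq', ← smul_eq_mul, ← MulAction.Quotient.smul_mk,
      QuotientGroup.out_eq']
    exact h
  have h2 := QuotientGroup.eq.1 e
  rw [mul_inv_rev, inv_inv] at h2
  exact h2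

omit [NeZero N] in
theorem perm_inv_pow_apply (g : SL(2, ℤ)) (q : Cosets N) :
    ∀ s : ℕ, ((MulAction.toPerm g⁻¹ : Equiv.Perm (Cosets N)) ^ s) q = (g ^ s)⁻¹ • q
  | 0 => by simp
  | s + 1 => by
    rw [pow_succ' (MulAction.toPerm g⁻¹ : Equiv.Perm (Cosets N)) s, Equiv.Perm.mul_apply,
      perm_inv_pow_apply g q s, MulAction.toPerm_apply, ← mul_smul, ← mul_inv_rev, pow_succ]

theorem exists_fix_primitive (a : ℂ) : ∃ (z : ℍ) (γ : SL(2, ℤ)), jFun z = a ∧ γ • z = z ∧
    IsPrimitiveRoot (Units.mk0 (rotNum γ z) (rotNum_ne_zero γ z)) (jMult a) := by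
  by_cases h0 : a = 0
  · refine ⟨UpperHalfPlane.ρ, _, by rw [h0, jFun_rho], rho_fix, ?_⟩
    rw [show jMult a = 3 by simp [jMult, h0]]
    exact isPrimitiveRoot_rot_ST
  by_cases h1 : a = 1728
  · refine ⟨UpperHalfPlane.I, _, by rw [h1, jFun_I], I_fix, ?_⟩
    rw [show jMult a = 2 by simp [jMult, h1]]
    exact isPrimitiveRoot_rot_S
  obtain ⟨z, hz⟩ := exists_jFun_eq a
  refine ⟨z, 1, hz, one_smul _ _, ?_⟩
  rw [show jMult a = 1 by simp [jMult, h0, h1]]
  exact IsPrimitiveRoot.one_right_iff.mpr (Units.ext (by simp [rotNum]))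

variable {K : Type*} [Field K] [IsAlgClosed K] [Algebra ℚ K]

/-- All orders of `h ^ n` are divisible by `n`. -/
theorem dvd_ord_of_cuspChar (ι : K →+* ℂ)
    (hpar : ∀ γ : Gamma0 N, Periods.IsEllPar γ → χ γ = 1) {h : ℍ → ℂ} (hh : h ∈ CharFun χ 2)
    (h0 : h ≠ 0) {g : modFunRing N} (hg : (g : ℍ → ℂ) = h ^ n)
    {y : modularFunctionFieldC K N} (hy : qL N g = coeffMap ι (y : LaurentSeries K))
    (v : Place K (modularFunctionFieldC K N)) : (n : ℤ) ∣ v.ord y := by
  have hne : ∀ q : Cosets N, cosetFun q h ≠ 0 := fun q e => h0 (funext fun τ => by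
    simpa [cosetFun] using congrFun e (q.out • τ))
  rcases place_cases v with hv | ⟨a, hv⟩
  · obtain ⟨q, hq⟩ := (cuspData ι).exists_place_eq hasResidueK_modular sum_ord_inv_le_card hv
    obtain ⟨hk0, hk⟩ := (cuspData (N := N) ι).induces q
    have hks := (cuspData (N := N) ι).k_mul_ord q
    have hs := pow_ord_fix (cuspData (N := N) ι) hasResidueK_modular q
    rw [hq] at hk hks hs
    set k := (cuspData (N := N) ι).k q
    set s := (v.ord (jEl K N)⁻¹).toNat
    have hsv : (s : ℤ) = v.ord (jEl K N)⁻¹ := Int.toNat_of_nonneg hv.le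
    obtain ⟨k', hk'⟩ := Int.eq_ofNat_of_zero_le hk0.le
    have hks' : s * k' = N := by
      have : (s : ℤ) * k' = N := by
        rw [hsv, mul_comm, ← hk']
        exact hks
      exact_mod_cast this
    have hfixq : (ModularGroup.T ^ s)⁻¹ • q = q := by
      rw [← perm_inv_pow_apply]; exact hs
    have hinv : ∀ z : ℍ, h (q.out⁻¹ • ModularGroup.T ^ s • z) = h (q.out⁻¹ • z) :=
      apply_smul_of_fix hpar hh (smul_fixed_inv hfixq) (trace_sq_le_four_of_T_pow _ _)
    have hTN : ∀ (m : ℕ) (z : ℍ), h (q.out⁻¹ • (ModularGroup.T ^ s) ^ m • z) = h (q.out⁻¹ • z) := by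
      intro m
      induction m with
      | zero => simp
      | succ m ih => intro z; rw [pow_succ, mul_smul, ih, hinv]
    have hper : ∀ z : ℍ, h (q.out⁻¹ • ((N : ℝ) +ᵥ z)) = h (q.out⁻¹ • z) := fun z => by
      rw [← smul_T_pow_eq_vadd, zpow_natCast,
        show ModularGroup.T ^ N = (ModularGroup.T ^ s) ^ k' by rw [← pow_mul, hks']]
      exact hTN k' z
    obtain ⟨U, hU⟩ := mem_expRing_comp_smul hh hper
    have hrot : rot (zetaC N ^ s) U = U :=
      ((expands_smul_T_pow hU s).congr_fun' (Eventually.of_forall hinv)).unique hU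
    have hdvd : (k : ℤ) ∣ U.order := by
      rw [hk']
      exact dvd_order_of_rot_eq ((isPrimitiveRoot_zetaC N).pow (NeZero.pos N) hks'.symm) hrot
    have hval : (cuspData (N := N) ι).Φ q y = U ^ n := by
      show fieldEmb ι (cuspHom q) (cuspHom_injective q) y = _
      rw [fieldEmb_eq _ _ _ hy]
      refine qLAt_eq_of_expands ?_
      rw [hg]
      exact hU.pow n
    have hord := hk y
    rw [hval, HahnSeries.order_pow, nsmul_eq_mul] at hord
    obtain ⟨d, hd⟩ := hdvd
    exact ⟨d, mul_left_cancel₀ hk0.ne' (by rw [← hord, hd]; ring)⟩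
  · obtain ⟨z, γ, hz, hfix, hprim⟩ := exists_fix_primitive (ι a)
    set R := pointData (N := N) ι a z hz γ hfix hprim
    obtain ⟨q, hq⟩ := R.exists_place_eq hasResidueK_modular (sum_ord_le_card a) hv
    obtain ⟨hk0, hk⟩ := R.induces q
    have hks := R.k_mul_ord q
    have hs := pow_ord_fix R hasResidueK_modular q
    rw [hq] at hk hks hs
    set k := R.k q
    set s := (v.ord (jEl K N - algebraMap K _ a)).toNat
    have hsv : (s : ℤ) = v.ord (jEl K N - algebraMap K _ a) := Int.toNat_of_nonneg hv.le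
    obtain ⟨k', hk'⟩ := Int.eq_ofNat_of_zero_le hk0.le
    have hks' : s * k' = jMult (ι a) := by
      have : (s : ℤ) * k' = jMult (ι a) := by
        rw [hsv, mul_comm, ← hk']
        exact hks
      exact_mod_cast this
    have hfixq : (γ ^ s)⁻¹ • q = q := by
      rw [← perm_inv_pow_apply]; exact hs
    have hfixs : γ ^ s • z = z := by
      clear_value s
      clear hsv hs hks' hfixq
      induction s with
      | zero => simp
      | succ m ih => rw [pow_succ, mul_smul, hfix, ih]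
    have htr : ((q.out⁻¹ * γ ^ s * q.out : SL(2, ℤ)) : Matrix (Fin 2) (Fin 2) ℤ).trace ^ 2 ≤ 4 :=
      trace_sq_le_four_of_fixed (z := q.out⁻¹ • z) (by
        rw [mul_smul, mul_smul, smul_inv_smul, hfixs])
    have hinv : ∀ τ : ℍ, cosetFun q h (γ ^ s • τ) = cosetFun q h τ :=
      apply_smul_of_fix hpar hh (smul_fixed_inv hfixq) htr
    have hmd : MDiff (cosetFun q h) := mdifferentiable_comp_smul hh.1 q.out⁻¹
    have hrot : rot ((Units.mk0 (rotNum γ z) (rotNum_ne_zero γ z)) ^ s)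
        (diskSeries z (cosetFun q h)) = diskSeries z (cosetFun q h) := by
      rw [← diskSeries_smul_pow hfix hmd s]
      exact congrArg (diskSeries z) (funext hinv)
    have hdvd : (k : ℤ) ∣ (diskSeries z (cosetFun q h)).order := by
      rw [hk']
      exact dvd_order_of_rot_eq (hprim.pow (jMult_pos _) hks'.symm) hrot
    have hval : R.Φ q y = diskSeries z (cosetFun q h) ^ n := by
      show fieldEmb ι (pointHom z q) (pointHom_injective z q) y = _
      rw [fieldEmb_eq _ _ _ hy, pointHom_apply, hg, ← diskSeries_pow hmd]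
      rfl
    have hord := hk y
    rw [hval, HahnSeries.order_pow, nsmul_eq_mul] at hord
    obtain ⟨d, hd⟩ := hdvd
    exact ⟨d, mul_left_cancel₀ hk0.ne' (by rw [← hord, hd]; ring)⟩

end FLTAgent.JTors
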