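import Fermat.Agent.JTors.Surject
import Fermat.Agent.Periods.Main

/-!
The `p`-power torsion of `J₀(N)` uniformised by `Hom(ParQuot N, ℤ)`.
-/

set_option autoImplicit false

noncomputable section

open ModularCurve AlgebraicCurve CongruenceSubgroup
open scoped MatrixGroups

namespace FLTAgent.JTors

open Periods

variable {N : ℕ}

/-- `exp (2πi/n)` as a unit. -/
def zetaUnit (n : ℕ) : ℂˣ :=
  Units.mk0 (Complex.exp (2 * Real.pi * Complex.I / n)) (Complex.exp_ne_zero _)

theorem isPrimitiveRoot_zetaUnit {n : ℕ} (hn : n ≠ 0) : IsPrimitiveRoot (zetaUnit n) n :=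
  IsPrimitiveRoot.coe_units_iff.1 (Complex.isPrimitiveRoot_exp n hn)

theorem zetaUnit_mul_pow (n m : ℕ) (hm : m ≠ 0) : zetaUnit (n * m) ^ m = zetaUnit n := by
  refine Units.ext ?_
  rw [Units.val_pow_eq_pow_val, zetaUnit, zetaUnit, Units.val_mk0, Units.val_mk0,
    ← Complex.exp_nat_mul]
  congr 1
  push_cast
  rcases eq_or_ne n 0 with rfl | hn
  · simp
  have : (n : ℂ) ≠ 0 := Nat.cast_ne_zero.2 hn
  have : (m : ℂ) ≠ 0 := Nat.cast_ne_zero.2 hm
  field_simp

/-- The character `γ ↦ exp (2πi φ(γ)/n)`. -/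
def expChar (n : ℕ) (φ : ParQuot N →+ ℤ) : Gamma0 N →* ℂˣ where
  toFun γ := zetaUnit n ^ φ (parProj N (Additive.ofMul γ))
  map_one' := by simp
  map_mul' γ δ := by rw [ofMul_mul, map_add, map_add, zpow_add]

theorem expChar_apply (n : ℕ) (φ : ParQuot N →+ ℤ) (γ : Gamma0 N) :
    expChar n φ γ = zetaUnit n ^ φ (parProj N (Additive.ofMul γ)) := rfl

theorem expChar_add (n : ℕ) (φ ψ : ParQuot N →+ ℤ) :
    expChar n (φ + ψ) = expChar n φ * expChar n ψ :=
  MonoidHom.ext fun γ => by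
    rw [MonoidHom.mul_apply, expChar_apply, expChar_apply, expChar_apply, AddMonoidHom.add_apply,
      zpow_add]

theorem expChar_isEllPar (n : ℕ) (φ : ParQuot N →+ ℤ) {γ : Gamma0 N} (hγ : IsEllPar γ) :
    expChar n φ γ = 1 := by
  rw [expChar_apply, parProj_eq_zero hγ, map_zero, zpow_zero]

theorem expChar_pow (n : ℕ) (hn : n ≠ 0) (φ : ParQuot N →+ ℤ) (γ : Gamma0 N) :
    expChar n φ γ ^ n = 1 := by
  rw [expChar_apply, ← zpow_natCast, ← zpow_mul, mul_comm, zpow_mul, zpow_natCast,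
    (isPrimitiveRoot_zetaUnit hn).pow_eq_one, one_zpow]

theorem expChar_mul_pow (n m : ℕ) (hm : m ≠ 0) (φ : ParQuot N →+ ℤ) :
    expChar (n * m) φ ^ m = expChar n φ :=
  MonoidHom.ext fun γ => by
    show expChar (n * m) φ γ ^ m = _
    rw [expChar_apply, expChar_apply, ← zetaUnit_mul_pow n m hm, ← zpow_natCast, ← zpow_natCast,
      ← zpow_mul, ← zpow_mul]
    congr 1
    ring

theorem expChar_eq_one_iff {n : ℕ} (hn : n ≠ 0) (φ : ParQuot N →+ ℤ) :
    expChar n φ = 1 ↔ ∃ ψ : ParQuot N →+ ℤ, φ = n • ψ := by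
  constructor
  · intro h
    have hd : ∀ x, (n : ℤ) ∣ φ x := fun x => by
      obtain ⟨y, rfl⟩ := parProj_surjective N x
      exact ((isPrimitiveRoot_zetaUnit hn).zpow_eq_one_iff_dvd _).1
        (DFunLike.congr_fun h (Additive.toMul y))
    refine ⟨AddMonoidHom.mk' (fun x => φ x / n) fun x y => ?_, DFunLike.ext _ _ fun x => ?_⟩
    · rw [map_add, Int.add_ediv_of_dvd_left (hd x)]
    · show φ x = n • (φ x / n)
      rw [nsmul_eq_mul, Int.mul_ediv_cancel' (hd x)]
  · rintro ⟨ψ, rfl⟩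
    exact MonoidHom.ext fun γ => by
      rw [expChar_apply, AddMonoidHom.nsmul_apply, nsmul_eq_mul, zpow_mul, zpow_natCast,
        (isPrimitiveRoot_zetaUnit hn).pow_eq_one, one_zpow]
      rfl

variable [NeZero N]

theorem exists_expChar_eq {n : ℕ} (hn : n ≠ 0) {χ : Gamma0 N →* ℂˣ} (hχ : ∀ γ, χ γ ^ n = 1)
    (hpar : ∀ γ, IsEllPar γ → χ γ = 1) : ∃ φ : ParQuot N →+ ℤ, expChar n φ = χ := by
  have := parQuot_moduleFree N
  have := parQuot_moduleFinite N
  set b := Module.Free.chooseBasis ℤ (ParQuot N)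
  set c : ParQuot N →+ Additive ℂˣ :=
    parLift (MonoidHom.toAdditive χ) fun γ hγ => by simpa using hpar γ hγ with hc
  have hz := isPrimitiveRoot_zetaUnit hn
  have hex : ∀ i, ∃ e : ℤ, zetaUnit n ^ e = Additive.toMul (c (b i)) := by
    intro i
    obtain ⟨y, hy⟩ := parProj_surjective N (b i)
    have hpow : Additive.toMul (c (b i)) ^ n = 1 := by
      rw [← hy, hc, parLift_parProj]
      exact hχ _
    have := NeZero.mk hn
    have hv : ((Additive.toMul (c (b i)) : ℂˣ) : ℂ) ^ n = 1 := by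
      rw [← Units.val_pow_eq_pow_val, hpow, Units.val_one]
    obtain ⟨j, -, hj⟩ := (IsPrimitiveRoot.coe_units_iff.2 hz).eq_pow_of_pow_eq_one hv
    exact ⟨j, Units.ext (by rw [zpow_natCast, Units.val_pow_eq_pow_val, hj])⟩
  choose e he using hex
  set φ : ParQuot N →+ ℤ := (b.constr ℤ e).toAddMonoidHom
  set a : ParQuot N →+ Additive ℂˣ :=
    { toFun := fun x => Additive.ofMul (zetaUnit n ^ φ x)
      map_zero' := by simp
      map_add' := fun x y => by rw [map_add, zpow_add, ofMul_mul] }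
  have hac : a = c := by
    refine AddMonoidHom.toIntLinearMap_injective (b.ext fun i => ?_)
    show Additive.ofMul (zetaUnit n ^ φ (b i)) = c (b i)
    rw [show φ (b i) = e i from b.constr_basis ℤ e i, he]
    rfl
  refine ⟨φ, MonoidHom.ext fun γ => ?_⟩
  have h1 := DFunLike.congr_fun hac (parProj N (Additive.ofMul γ))
  rw [hc, parLift_parProj] at h1
  exact congrArg Additive.toMul h1

/-- The torsion class with character `exp (2πi φ/n)`. -/
def torsClass (n : ℕ) (φ : ParQuot N →+ ℤ) : JZero N :=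
  open Classical in
  if h : ∃ x : JZero N, IsTorsChar n x (expChar n φ) then h.choose else 0

theorem isTorsChar_torsClass {n : ℕ} (hn : n ≠ 0) (φ : ParQuot N →+ ℤ) :
    IsTorsChar n (torsClass n φ) (expChar n φ) := by
  have h := exists_isTorsChar_of_char hn (expChar_pow n hn φ) fun γ => expChar_isEllPar n φ
  rw [torsClass, dif_pos h]
  exact h.choose_spec

theorem IsTorsChar.inj {n : ℕ} (hn : n ≠ 0) {x y : JZero N} {χ : Gamma0 N →* ℂˣ}
    (hx : IsTorsChar n x χ) (hy : IsTorsChar n y χ) : x = y :=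
  torsionChar_injective hn hx.smul_eq_zero hy.smul_eq_zero
    ((torsionChar_eq hn hx).trans (torsionChar_eq hn hy).symm)

theorem finite_jZero_torsion (N : ℕ) [NeZero N] {n : ℕ} (hn : n ≠ 0) :
    {x : JZero N | n • x = 0}.Finite :=
  Set.Finite.of_finite_image
    ((finite_char (N := N) hn).subset (by
      rintro _ ⟨x, hx, rfl⟩
      exact (isTorsChar_torsionChar hn hx).pow_eq_one))
    fun _ hx _ hy h => torsionChar_injective hn hx hy h

variable (p : ℕ) [NeZero p]

/-- The uniformisation of the `p ^ n`-torsion. -/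
def torsionProj (n : ℕ) : (ParQuot N →+ ℤ) →+ JZero N :=
  AddMonoidHom.mk' (torsClass (p ^ n)) fun φ ψ => by
    have hn := pow_ne_zero n (NeZero.ne p)
    refine (isTorsChar_torsClass hn (φ + ψ)).inj hn ?_
    rw [expChar_add]
    exact (isTorsChar_torsClass hn φ).add (isTorsChar_torsClass hn ψ)

theorem isTorsChar_torsionProj (n : ℕ) (φ : ParQuot N →+ ℤ) :
    IsTorsChar (p ^ n) (torsionProj p n φ) (expChar (p ^ n) φ) :=
  isTorsChar_torsClass (pow_ne_zero n (NeZero.ne p)) φ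

theorem exists_torsionProj (n : ℕ) (x : JZero N) (hx : p ^ n • x = 0) :
    ∃ φ : ParQuot N →+ ℤ, torsionProj p n φ = x := by
  have hn := pow_ne_zero n (NeZero.ne p)
  have H := isTorsChar_torsionChar hn hx
  obtain ⟨φ, hφ⟩ := exists_expChar_eq hn H.pow_eq_one fun γ hγ => H.eq_one_of_isEllPar hn hγ
  exact ⟨φ, (isTorsChar_torsionProj p n φ).inj hn (hφ.symm ▸ H)⟩

theorem torsionProj_eq_zero_iff (n : ℕ) (φ : ParQuot N →+ ℤ) :
    torsionProj p n φ = 0 ↔ ∃ ψ : ParQuot N →+ ℤ, φ = p ^ n • ψ := by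
  have hn := pow_ne_zero n (NeZero.ne p)
  have H := isTorsChar_torsionProj p n φ
  rw [← expChar_eq_one_iff hn]
  constructor
  · intro h
    rw [h] at H
    exact H.unique hn (isTorsChar_zero _)
  · intro h
    rw [h] at H
    exact H.eq_zero hn

theorem torsionProj_succ (n : ℕ) (φ : ParQuot N →+ ℤ) :
    p • torsionProj p (n + 1) φ = torsionProj p n φ := by
  have hn := pow_ne_zero n (NeZero.ne p)
  have H := isTorsChar_torsionProj p (n + 1) φ
  rw [pow_succ] at H
  have H' := H.nsmul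
  rw [expChar_mul_pow _ _ (NeZero.ne p)] at H'
  exact H'.inj hn (isTorsChar_torsionProj p n φ)

end FLTAgent.JTors
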