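import Fermat.Agent.JTors.Embedding
import Fermat.Agent.Genus.Cosets
import Fermat.Agent.Hecke.Final
import Mathlib.RingTheory.Norm.Transitivity
import Mathlib.FieldTheory.IsAlgClosed.AlgebraicClosure

/-!
The norm from level `N l` to level `N` as a product of expansions.
-/

set_option autoImplicit false

noncomputable section

open ModularCurve AlgebraicCurve UpperHalfPlane CongruenceSubgroup Filter
open scoped MatrixGroups Manifold

namespace FLTAgent.JTors

open ModPoly

/-- The norm is the product over a complete system of embeddings. -/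
theorem map_norm_eq_prod {F A Ω : Type*} [Field F] [Field A] [Field Ω] [Algebra F A]
    [Module.Finite F A] [Algebra.IsSeparable F A] (i : F →+* Ω) {ι : Type*} [Fintype ι]
    (φ : ι → A →+* Ω) (hφ : ∀ x u, φ x (algebraMap F A u) = i u) (hinj : Function.Injective φ)
    (hcard : Fintype.card ι = Module.finrank F A) (v : A) :
    i (Algebra.norm F v) = ∏ x, φ x v := by
  set E := AlgebraicClosure Ω
  let e : Ω →+* E := algebraMap Ω E
  let _ : Algebra F E := (e.comp i).toAlgebra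
  let Φ : ι → (A →ₐ[F] E) := fun x =>
    { e.comp (φ x) with commutes' := fun u => congrArg e (hφ x u) }
  have hΦ : Function.Injective Φ := fun x y h => hinj (RingHom.ext fun a =>
    e.injective (DFunLike.congr_fun h a))
  have hbij : Function.Bijective Φ :=
    (Fintype.bijective_iff_injective_and_card Φ).2 ⟨hΦ, by rw [hcard, AlgHom.card]⟩
  refine e.injective ?_
  rw [map_prod]
  show algebraMap F E (Algebra.norm F v) = _
  rw [Algebra.norm_eq_prod_embeddings F E v]
  exact (Fintype.prod_bijective Φ hbij _ _ fun x => rfl).symm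

theorem Gamma0_le_of_dvd {N M : ℕ} (h : N ∣ M) : Gamma0 M ≤ Gamma0 N := fun γ hγ => by
  rw [Gamma0_mem, ZMod.intCast_zmod_eq_zero_iff_dvd] at hγ ⊢
  exact (Int.natCast_dvd_natCast.2 h).trans hγ

theorem modFunRing_le_of_dvd {N M : ℕ} [NeZero N] [NeZero M] (h : N ∣ M) :
    modFunRing N ≤ modFunRing M := fun g hg => by
  obtain ⟨k, rfl⟩ := h
  have : NeZero k := ⟨fun hk => NeZero.ne (N * k) (by simp [hk])⟩
  refine ⟨hg.1, fun γ hγ τ => hg.2.1 γ (Gamma0_le_of_dvd (dvd_mul_right N k) hγ) τ, fun γ => ?_⟩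
  obtain ⟨x, hx⟩ := comp_smul_mem_expRing hg γ
  exact ⟨_, hx.width_mul⟩

variable {N l : ℕ} [NeZero N] [NeZero l]

local notation "F⟮" M "⟯" => modularFunctionFieldBar M

theorem neZero_mul_level : NeZero (N * l) := ⟨Nat.mul_ne_zero (NeZero.ne N) (NeZero.ne l)⟩

local instance instNeZeroLevelMul : NeZero (N * l) := neZero_mul_level

/-- The expansion of level `N l` at `δ ∈ Γ₀(N)`. -/
def levelEmb (δ : Gamma0 N) : F⟮N * l⟯ →+* LaurentSeries ℂ :=
  expEmb (N * l) (qLAt (N * l) (δ : SL(2, ℤ))) (qLAt_injective _)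

theorem levelEmb_mul (δ : Gamma0 N) {v : F⟮N * l⟯} {a c : modFunRing (N * l)}
    (h : toC (N * l) v * qL (N * l) c = qL (N * l) a) :
    levelEmb δ v * qLAt (N * l) (δ : SL(2, ℤ)) c = qLAt (N * l) (δ : SL(2, ℤ)) a :=
  expEmb_mul _ _ _ h

theorem levelEmb_alpha (δ : Gamma0 N) (u : F⟮N⟯) :
    levelEmb δ (heckeAlphaBar (AlgebraicClosure ℚ) N l u) =
      qExpand ℂ (N * l) (toC N u) := by
  obtain ⟨a, b, hb, hab⟩ := exists_frac N u
  have hle := modFunRing_le_of_dvd (N := N) (M := N * l) (dvd_mul_right N l)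
  have hq : ∀ g : modFunRing N, qL (N * l) ⟨g, hle g.2⟩ = qL N g := fun g =>
    qL_eq_of_expands (expands_qL g)
  have hat : ∀ g : modFunRing N, qLAt (N * l) (δ : SL(2, ℤ)) ⟨g, hle g.2⟩ =
      qExpand ℂ (N * l) (qL N g) := fun g => by
    refine qLAt_eq_of_expands ?_
    have := (expands_qL g).width_mul (k := N * l)
    rw [one_mul] at this
    exact this.congr_fun' (Eventually.of_forall fun z => (smul_eq_of_mem g.2 δ.2 z).symm)
  have h1 : toC (N * l) (heckeAlphaBar (AlgebraicClosure ℚ) N l u) * qL (N * l) ⟨b, hle b.2⟩ =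
      qL (N * l) ⟨a, hle a.2⟩ := by
    rw [hq, hq, ← hab]
    rw [toC_apply, toC_apply, coe_heckeAlphaBar]
  have h2 := levelEmb_mul δ h1
  rw [hat, hat, ← hab, map_mul] at h2
  exact mul_right_cancel₀
    ((map_ne_zero_iff _ (qExpand ℂ (N * l)).injective).2 ((map_ne_zero_iff _ qL_injective).2 hb)) h2

theorem levelEmb_injective {ι : Type*} {δ : ι → Gamma0 N}
    (hδ : ∀ x y, (δ x : SL(2, ℤ)) * (δ y : SL(2, ℤ))⁻¹ ∈ Gamma0 (N * l) → x = y) :
    Function.Injective fun x => levelEmb (l := l) (δ x) := by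
  intro x y h
  set jN : F⟮N * l⟯ := ⟨_, Hecke.jd_mem (AlgebraicClosure ℚ) (dvd_refl (N * l))⟩
  set J : modFunRing (N * l) := ⟨jMul (N * l), jMul_mem dvd_rfl⟩
  have hJ : toC (N * l) jN * qL (N * l) 1 = qL (N * l) J := by
    rw [map_one, mul_one, qL_jMul dvd_rfl, toC_apply]
    exact (coeffMap_jqNModC' embC (N * l))
  have e1 := levelEmb_mul (δ x) hJ
  have e2 := levelEmb_mul (δ y) hJ
  simp only [map_one, mul_one] at e1 e2
  have hx : (fun z : ℍ => (J : ℍ → ℂ) ((δ x : SL(2, ℤ)) • z)) =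
      fun z : ℍ => (J : ℍ → ℂ) ((δ y : SL(2, ℤ)) • z) := by
    refine eq_of_expands (mdifferentiable_comp_smul J.2.1 _) (mdifferentiable_comp_smul J.2.1 _)
      (expands_qLAt _ J) ?_
    rw [← e1, show levelEmb (δ x) = levelEmb (l := l) (δ y) from h, e2]
    exact expands_qLAt _ J
  refine hδ x y (Genus.jMul_comp_smul_eq_self fun τ => ?_)
  have := congrFun hx ((δ y : SL(2, ℤ))⁻¹ • τ)
  rwa [smul_inv_smul, ← mul_smul] at this

theorem finrank_heckeAlphaBar (hl : l.Prime) (hlN : ¬ l ∣ N) :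
    finrankAlong (AlgebraicClosure ℚ) (heckeAlphaBar (AlgebraicClosure ℚ) N l) = l + 1 := by
  rw [Hecke.heckeAlphaBar_eq_degMap]
  have h := Hecke.finrankAlong_degMap (Hecke.degreeFacts (AlgebraicClosure ℚ))
    (M := N) (M' := N * l) (by rw [mul_one]; exact dvd_mul_right N l)
  rw [Hecke.dedekindPsi_mul_prime_of_not_dvd (NeZero.ne N) hl hlN, mul_comm (l + 1)] at h
  exact Nat.eq_of_mul_eq_mul_left (Hecke.dedekindPsi_pos (NeZero.ne N)) h

/-- The norm to level `N` is the product of the expansions at `δ x`. -/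
theorem qExpand_toC_normAlong (hl : l.Prime) (hlN : ¬ l ∣ N)
    {δ : Option (ZMod l) → Gamma0 N}
    (hδ : ∀ x y, (δ x : SL(2, ℤ)) * (δ y : SL(2, ℤ))⁻¹ ∈ Gamma0 (N * l) → x = y)
    (v : F⟮N * l⟯) :
    qExpand ℂ (N * l) (toC N (Hecke.normAlong (heckeAlphaBar (AlgebraicClosure ℚ) N l) v)) =
      ∏ x, levelEmb (δ x) v := by
  let _ := algebraAlong (heckeAlphaBar (AlgebraicClosure ℚ) N l)
  have hfin : Module.Finite F⟮N⟯ F⟮N * l⟯ :=
    Hecke.alphaBar_finiteAlong_of_facts (Hecke.levelFacts _) N l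
  have hc : CharZero F⟮N⟯ := charZero_of_injective_algebraMap
    (algebraMap (AlgebraicClosure ℚ) F⟮N⟯).injective
  have hsep : Algebra.IsSeparable F⟮N⟯ F⟮N * l⟯ := inferInstance
  have hcard : Fintype.card (Option (ZMod l)) = Module.finrank F⟮N⟯ F⟮N * l⟯ := by
    rw [Fintype.card_option, ZMod.card]
    exact (finrank_heckeAlphaBar hl hlN).symm
  exact map_norm_eq_prod (F := F⟮N⟯) (A := F⟮N * l⟯) ((qExpand ℂ (N * l)).comp (toC N))
    (fun x => levelEmb (δ x)) (fun x u => levelEmb_alpha (δ x) u) (levelEmb_injective hδ) hcard v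

end FLTAgent.JTors
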