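import Fermat.Agent.JTors.RootPar
import Fermat.Agent.Hecke.Inputs
import Mathlib.GroupTheory.Index

/-!
The character of a torsion class of `J₀(N)`.
-/

set_option autoImplicit false

noncomputable section

open ModularCurve AlgebraicCurve CongruenceSubgroup
open scoped MatrixGroups

namespace FLTAgent.JTors

variable {N : ℕ} [NeZero N]

/-- A function without zeros and poles is constant. -/
theorem exists_eq_algebraMap_of_ord_eq_zero {f : modularFunctionFieldBar N}
    (h : ∀ v : Place (AlgebraicClosure ℚ) (modularFunctionFieldBar N), v.ord f = 0) :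
    ∃ c : AlgebraicClosure ℚ, algebraMap _ _ c = f := by
  have := Hecke.isFunctionField_level (AlgebraicClosure ℚ) N
  have halg : IsAlgebraic (AlgebraicClosure ℚ) f := by
    by_contra ht
    obtain ⟨v, hv⟩ := FunctionField.exists_place_ord_pos
      (K := AlgebraicClosure ℚ) (F := modularFunctionFieldBar N) (x := f) ht
    rw [h v] at hv
    exact lt_irrefl _ hv
  have hint := halg.isIntegral
  have hd := IsAlgClosed.degree_eq_one_of_irreducible _ (minpoly.irreducible hint)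
  have := minpoly.mem_range_of_degree_eq_one (AlgebraicClosure ℚ) f hd
  exact this

/-- `χ` is a character of the class `x` killed by `n`. -/
def IsTorsChar (n : ℕ) (x : JZero N) (χ : Gamma0 N →* ℂˣ) : Prop :=
  ∃ (D : Divisor.degZero (K := AlgebraicClosure ℚ) (F := modularFunctionFieldBar N))
    (f : modularFunctionFieldBar N), Pic0.mk D = x ∧ f ≠ 0 ∧
      (∀ v, (n : ℤ) * (D : Divisor (AlgebraicClosure ℚ) (modularFunctionFieldBar N)) v = v.ord f) ∧ IsRootChar n f χ

variable {n : ℕ} {x y : JZero N} {χ ψ : Gamma0 N →* ℂˣ}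

omit [NeZero N] in
theorem mk_eq_mk_iff_exists
    {D D' : Divisor.degZero (K := AlgebraicClosure ℚ) (F := modularFunctionFieldBar N)} :
    Pic0.mk D = Pic0.mk D' ↔ ∃ u : modularFunctionFieldBar N, u ≠ 0 ∧
      ∀ v, (D : Divisor (AlgebraicClosure ℚ) (modularFunctionFieldBar N)) v - (D' : Divisor (AlgebraicClosure ℚ) (modularFunctionFieldBar N)) v = v.ord u := by
  rw [← sub_eq_zero (a := Pic0.mk D)]
  show ((D - D' : Divisor.degZero (K := AlgebraicClosure ℚ) (F := modularFunctionFieldBar N)) :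
    Pic0 (AlgebraicClosure ℚ) (modularFunctionFieldBar N)) = 0 ↔ _
  rw [QuotientAddGroup.eq_zero_iff, AddSubgroup.mem_addSubgroupOf, Divisor.mem_principal]
  simp [Divisor.IsPrincipal]

omit [NeZero N] in
theorem smul_mk_eq_zero_iff
    {D : Divisor.degZero (K := AlgebraicClosure ℚ) (F := modularFunctionFieldBar N)} :
    n • Pic0.mk D = 0 ↔ ∃ f : modularFunctionFieldBar N, f ≠ 0 ∧
      ∀ v, (n : ℤ) * (D : Divisor (AlgebraicClosure ℚ) (modularFunctionFieldBar N)) v = v.ord f := by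
  show ((n • D : Divisor.degZero (K := AlgebraicClosure ℚ) (F := modularFunctionFieldBar N)) :
    Pic0 (AlgebraicClosure ℚ) (modularFunctionFieldBar N)) = 0 ↔ _
  rw [QuotientAddGroup.eq_zero_iff, AddSubgroup.mem_addSubgroupOf, Divisor.mem_principal]
  simp [Divisor.IsPrincipal]

theorem exists_isTorsChar (hn : n ≠ 0) (hx : n • x = 0) : ∃ χ, IsTorsChar n x χ := by
  obtain ⟨D, rfl⟩ := Pic0.mk_surjective x
  obtain ⟨f, hf, hD⟩ := smul_mk_eq_zero_iff.1 hx
  obtain ⟨χ, hχ⟩ := exists_isRootChar hn hf fun v => ⟨_, (hD v).symm⟩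
  exact ⟨χ, D, f, rfl, hf, hD, hχ⟩

omit [NeZero N] in
theorem IsTorsChar.smul_eq_zero [NeZero N] (H : IsTorsChar n x χ) : n • x = 0 := by
  obtain ⟨D, f, rfl, hf, hD, -⟩ := H
  exact smul_mk_eq_zero_iff.2 ⟨f, hf, hD⟩

theorem IsTorsChar.unique (hn : n ≠ 0) (H : IsTorsChar n x χ) (H' : IsTorsChar n x ψ) :
    χ = ψ := by
  obtain ⟨D, f, rfl, hf, hD, hχ⟩ := H
  obtain ⟨D', f', hD', hf', hDf', hψ⟩ := H'
  obtain ⟨u, hu, huv⟩ := mk_eq_mk_iff_exists.1 hD'.symm
  have hden : f' * u ^ n ≠ 0 := mul_ne_zero hf' (pow_ne_zero n hu)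
  obtain ⟨c, hc⟩ := exists_eq_algebraMap_of_ord_eq_zero (N := N) (f := f / (f' * u ^ n))
    fun v => by
      rw [div_eq_mul_inv, v.ord_mul hf (inv_ne_zero hden), v.ord_inv,
        v.ord_mul hf' (pow_ne_zero n hu), Genus.ord_pow, ← hD v, ← hDf' v, ← huv v]
      ring
  obtain ⟨d, hd⟩ := IsAlgClosed.exists_pow_nat_eq c (Nat.pos_of_ne_zero hn)
  have hf'' : f = f' * (algebraMap _ _ d * u) ^ n := by
    rw [mul_pow, ← map_pow, hd, hc]
    field_simp
  have hdu : algebraMap (AlgebraicClosure ℚ) (modularFunctionFieldBar N) d * u ≠ 0 := fun h => by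
    rw [h, zero_pow hn, mul_zero] at hf''
    exact hf hf''
  rw [hf''] at hχ
  exact hχ.unique hn (hψ.mul_pow hdu)

theorem IsTorsChar.add (H : IsTorsChar n x χ) (H' : IsTorsChar n y ψ) :
    IsTorsChar n (x + y) (χ * ψ) := by
  obtain ⟨D, f, rfl, hf, hD, hχ⟩ := H
  obtain ⟨D', f', rfl, hf', hD', hψ⟩ := H'
  exact ⟨D + D', f * f', Pic0.mk_add D D', mul_ne_zero hf hf', fun v => by
    rw [AddSubgroup.coe_add, Finsupp.add_apply, v.ord_mul hf hf', mul_add, hD, hD'], hχ.mul hψ⟩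

theorem isTorsChar_zero (n : ℕ) : IsTorsChar n (0 : JZero N) 1 :=
  ⟨0, 1, Pic0.mk_zero, one_ne_zero, fun v => by simp, by
    simpa using isRootChar_pow (N := N) (n := n) (u := 1) one_ne_zero⟩

theorem IsTorsChar.eq_zero (hn : n ≠ 0) (H : IsTorsChar n x 1) : x = 0 := by
  obtain ⟨D, f, rfl, hf, hD, hχ⟩ := H
  obtain ⟨u, rfl⟩ := hχ.exists_pow_eq hn
  rw [← Pic0.mk_zero, mk_eq_mk_iff_exists]
  refine ⟨u, fun h => hf (by rw [h, zero_pow hn]), fun v => ?_⟩
  have := hD v
  rw [Genus.ord_pow] at this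
  simpa using mul_left_cancel₀ (Nat.cast_ne_zero.2 hn : (n : ℤ) ≠ 0) this

theorem IsTorsChar.eq_one_of_isEllPar (hn : n ≠ 0) (H : IsTorsChar n x χ) {γ : Gamma0 N}
    (hγ : Periods.IsEllPar γ) : χ γ = 1 := by
  obtain ⟨D, f, -, hf, hD, hχ⟩ := H
  exact hχ.eq_one_of_isEllPar hn (fun v => ⟨_, (hD v).symm⟩) hf hγ

theorem IsTorsChar.pow_eq_one (H : IsTorsChar n x χ) (γ : Gamma0 N) : χ γ ^ n = 1 :=
  let ⟨_, _, _, _, _, hχ⟩ := H
  hχ.pow_eq_one γ

theorem IsRootChar.of_pow_mul {f : modularFunctionFieldBar N} {n m : ℕ}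
    (H : IsRootChar (n * m) f χ) : IsRootChar n f (χ ^ m) := by
  obtain ⟨h, b, hd, hχ⟩ := H
  obtain ⟨g, hg, hgp⟩ := hd.eq
  refine ⟨h ^ m, b ^ m, ⟨pow_ne_zero m hd.b_ne, hd.mdiff.pow m, fun h0 => hd.ne (funext fun z =>
    eq_zero_of_pow_eq_zero (congrFun h0 z)), g, ?_, fun z => ?_⟩, fun γ z => ?_⟩
  · rw [map_pow, ← _root_.pow_mul, mul_comm m, hg]
  · rw [Pi.pow_apply, ← _root_.pow_mul, mul_comm m, hgp]
  · rw [Pi.pow_apply, Pi.pow_apply, hχ, _root_.mul_pow]
    rfl

/-- Characters of multiples. -/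
theorem IsTorsChar.nsmul {m : ℕ} (H : IsTorsChar (n * m) x χ) :
    IsTorsChar n (m • x) (χ ^ m) := by
  obtain ⟨D, f, rfl, hf, hD, hχ⟩ := H
  refine ⟨m • D, f, rfl, hf, fun v => ?_, hχ.of_pow_mul⟩
  rw [← hD v]
  push_cast
  simp [mul_assoc]

/-- The character of a torsion class (`1` off the `n`-torsion). -/
def torsionChar (n : ℕ) (x : JZero N) : Gamma0 N →* ℂˣ :=
  open Classical in if h : ∃ χ, IsTorsChar n x χ then h.choose else 1

theorem isTorsChar_torsionChar (hn : n ≠ 0) (hx : n • x = 0) :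
    IsTorsChar n x (torsionChar n x) := by
  have h := exists_isTorsChar hn hx
  rw [torsionChar, dif_pos h]
  exact h.choose_spec

theorem torsionChar_eq (hn : n ≠ 0) (H : IsTorsChar n x χ) : torsionChar n x = χ :=
  (isTorsChar_torsionChar hn H.smul_eq_zero).unique hn H

theorem torsionChar_add (hn : n ≠ 0) (hx : n • x = 0) (hy : n • y = 0) :
    torsionChar n (x + y) = torsionChar n x * torsionChar n y :=
  torsionChar_eq hn ((isTorsChar_torsionChar hn hx).add (isTorsChar_torsionChar hn hy))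

theorem torsionChar_injective (hn : n ≠ 0) (hx : n • x = 0) (hy : n • y = 0)
    (h : torsionChar n x = torsionChar n y) : x = y := by
  have hz : n • (x - y) = 0 := by rw [nsmul_sub, hx, hy, sub_zero]
  have h1 := torsionChar_add hn hz hy
  rw [sub_add_cancel, h] at h1
  have h1 : torsionChar n (x - y) = 1 := MonoidHom.ext fun γ => by
    have e := DFunLike.congr_fun h1 γ
    rw [MonoidHom.mul_apply] at e
    exact mul_eq_right.1 e.symm
  have := isTorsChar_torsionChar hn hz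
  rw [h1] at this
  exact sub_eq_zero.1 (this.eq_zero hn)

end FLTAgent.JTors
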