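import Fermat.Agent.JTors.TRep
import Fermat.Agent.JTors.NormExp
import Fermat.Agent.JTors.TorsionChar
import Fermat.Agent.Hecke.Points
import Fermat.Prelude.Thm_ModularCurve_coeffMap_qExpand

/-!
The Hecke operator `T l` acts on characters of torsion classes by the transfer.
-/

set_option autoImplicit false

noncomputable section

open ModularCurve AlgebraicCurve UpperHalfPlane CongruenceSubgroup Filter Topology
open scoped MatrixGroups Manifold

namespace FLTAgent.JTors

open ModPoly Periods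

variable {N l : ℕ}

theorem tProd_ne_zero [NeZero l] {F : ℍ → ℂ} (hF : MDiff F) (h0 : F ≠ 0) : tProd l F ≠ 0 := by
  intro h
  have h' : (∏ x : Option (ZMod l), fun z : ℍ => F (tRep l x • z)) = 0 := by
    rw [← h]; funext z; simp [tProd]
  obtain ⟨x, -, hx⟩ := (UpperHalfPlane.prod_eq_zero_iff fun x _ =>
    hF.comp (UpperHalfPlane.mdifferentiable_smul (tRep_det_pos l x))).1 h'
  exact h0 (funext fun z => by simpa using congrFun hx ((tRep l x)⁻¹ • z))

variable [NeZero N] [NeZero l]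

local instance instNeZeroLevelMul' : NeZero (N * l) := neZero_mul_level

/-- The expansion of `g ∘ tRep l x`. -/
def tExp (g : modFunRing N) (x : Option (ZMod l)) : expRing (N * l) :=
  ⟨fun z => (g : ℍ → ℂ) (tRep l x • z), by simpa using comp_tRep_mem_expRing g.2 x 1⟩

theorem qExpand_qL_tProd (g : modFunRing N) (h : tProd l (g : ℍ → ℂ) ∈ modFunRing N) :
    qExpand ℂ (N * l) (qL N ⟨tProd l (g : ℍ → ℂ), h⟩) =
      ∏ x, qLaurentHom (N * l) (tExp g x) := by
  rw [← map_prod]
  have h1 := (expands_qL (⟨tProd l (g : ℍ → ℂ), h⟩ : modFunRing N)).width_mul (k := N * l)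
  rw [one_mul] at h1
  refine h1.unique ?_
  have h2 := expands_expSeries (∏ x, tExp (l := l) g x)
  rw [qLaurentHom_apply]
  refine h2.congr_fun' (Eventually.of_forall fun z => ?_)
  rw [← Subalgebra.val_apply, map_prod]
  simp [tExp, tProd]

theorem expands_comp_none (g : modFunRing N) :
    Expands 1 (fun z : ℍ => (g : ℍ → ℂ) (tRep l none • z)) (qExpand ℂ l (qL N g)) := by
  have hl := NeZero.ne l
  have hφ : Tendsto (fun z : ℍ => tRep l none • z) atImInfty atImInfty := by
    rw [atImInfty, tendsto_comap_iff]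
    refine ((tendsto_comap (f := UpperHalfPlane.im) (x := atTop)).const_mul_atTop
      (r := (l : ℝ)) (by exact_mod_cast NeZero.pos l)).congr fun z => ?_
    show (l : ℝ) * z.im = ((tRep l none • z : ℍ) : ℂ).im
    rw [coe_tRep_none_smul hl]
    simp
  have := (expands_qL g).comp_scale (h' := 1) (k := l) 1 hφ fun z => by
    rw [coe_tRep_none_smul hl, Units.val_one, one_mul, Function.Periodic.qParam,
      Function.Periodic.qParam, ← Complex.exp_nat_mul]
    congr 1
    push_cast
    ring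
  simpa [twist_one_unit] using this

/-- The expansion at `δ x` of the pullback of `f` to level `N l`. -/
theorem levelEmb_beta_mul {n : ℕ} {f : modularFunctionFieldBar N} {g b : modFunRing N}
    (hg : toC N f * qL N b ^ n = qL N g) {δ γ : Option (ZMod l) → Gamma0 N}
    (hδ : ∀ (x : Option (ZMod l)) (z : ℍ),
      tRep l none • (δ x : SL(2, ℤ)) • z = (γ x : SL(2, ℤ)) • tRep l x • z)
    (x : Option (ZMod l)) :
    levelEmb (δ x) (heckeBetaBar (AlgebraicClosure ℚ) N l f) *
      qLaurentHom (N * l) (tExp b x) ^ n = qLaurentHom (N * l) (tExp g x) := by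
  obtain ⟨a', c', hc', hac⟩ := exists_frac (N * l) (heckeBetaBar (AlgebraicClosure ℚ) N l f)
  have hmd : ∀ u : modFunRing N, MDiff fun z : ℍ => (u : ℍ → ℂ) (tRep l none • z) := fun u =>
    u.2.1.comp (UpperHalfPlane.mdifferentiable_smul (tRep_det_pos l none))
  have hser : qL (N * l) a' * qExpand ℂ l (qL N b) ^ n =
      qExpand ℂ l (qL N g) * qL (N * l) c' := by
    rw [← hac, ← hg, map_mul, map_pow]
    rw [show toC (N * l) (heckeBetaBar (AlgebraicClosure ℚ) N l f) = qExpand ℂ l (toC N f) by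
      rw [toC_apply, toC_apply, coe_heckeBetaBar, coeffMap_qExpand]]
    ring
  have hfun : ∀ z : ℍ, (a' : ℍ → ℂ) z * (b : ℍ → ℂ) (tRep l none • z) ^ n =
      (g : ℍ → ℂ) (tRep l none • z) * (c' : ℍ → ℂ) z := by
    have e := eq_of_expands (f := (a' : ℍ → ℂ) * (fun z : ℍ => (b : ℍ → ℂ) (tRep l none • z)) ^ n)
      (g := (fun z : ℍ => (g : ℍ → ℂ) (tRep l none • z)) * (c' : ℍ → ℂ))
      (a'.2.1.mul ((hmd b).pow n)) ((hmd g).mul c'.2.1)
      ((expands_qL a').mul ((expands_comp_none b).pow n))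
      (hser ▸ (expands_comp_none g).mul (expands_qL c'))
    exact fun z => congrFun e z
  have hb : ∀ z : ℍ, ∀ u : modFunRing N, (u : ℍ → ℂ) (tRep l none • (δ x : SL(2, ℤ)) • z) =
      (u : ℍ → ℂ) (tRep l x • z) := fun z u => by
    rw [hδ, smul_eq_of_mem u.2 (γ x).2]
  have h1 : qLAt (N * l) (δ x : SL(2, ℤ)) a' * qLaurentHom (N * l) (tExp b x) ^ n =
      qLaurentHom (N * l) (tExp g x) * qLAt (N * l) (δ x : SL(2, ℤ)) c' := by
    refine Expands.unique (h := N * l) ((expands_qLAt _ a').mul ((expands_expSeries (tExp b x)).pow n))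
      (((expands_expSeries (tExp g x)).mul (expands_qLAt _ c')).congr_fun'
        (Eventually.of_forall fun z => ?_))
    have := hfun ((δ x : SL(2, ℤ)) • z)
    rw [hb z b, hb z g] at this
    simpa [tExp] using this.symm
  rw [← levelEmb_mul (δ x) hac, mul_assoc, mul_comm (qLAt _ _ c'), ← mul_assoc] at h1
  exact mul_right_cancel₀ ((map_ne_zero_iff _ (qLAt_injective _)).2 hc') h1

/-- `T l` on characters is the transfer. -/
theorem IsTorsChar.hecke (hl : l.Prime) (hlN : ¬ l ∣ N) {n : ℕ} {x : JZero N}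
    {χ χ' : Gamma0 N →* ℂˣ} (H : IsTorsChar n x χ)
    (hχ' : ∀ (γ : Gamma0 N) (σ : Equiv.Perm (Option (ZMod l))) (δ : Option (ZMod l) → Gamma0 N),
      IsTransfer (tRep l) γ σ δ → χ' γ = ∏ i, χ (δ i)) :
    IsTorsChar n (heckeOperatorBar N ⟨l, hl⟩ x) χ' := by
  have : Fact l.Prime := ⟨hl⟩
  obtain ⟨D, f, rfl, hf, hD, h, b, hd, hχ⟩ := H
  obtain ⟨g, hg, hgp⟩ := hd.eq
  have hpd := Hecke.hasPrincipalDivisors_level (AlgebraicClosure ℚ) (N * l)
  have hfacts := Hecke.levelFacts (AlgebraicClosure ℚ)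
  have hα := Hecke.alphaBarIntegral_of_facts hfacts N l
  have hβ := Hecke.betaBarIntegral_of_facts hfacts N l
  have hmem := Hecke.heckeDivBar_mem_degZero hfacts N l hα hβ D
  obtain ⟨_, _, _, hfin, -, hN⟩ := Hecke.heckeInputsAlong (AlgebraicClosure ℚ) N l
  set f' := Hecke.normAlong (heckeAlphaBar (AlgebraicClosure ℚ) N l)
    (heckeBetaBar (AlgebraicClosure ℚ) N l f)
  have hf' : f' ≠ 0 := Hecke.normAlong_ne_zero _ hfin (by simpa using hf)
  refine ⟨⟨_, hmem⟩, f', ?_, hf', fun v => ?_, tProd l h,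
    ⟨_, tProd_mem_modFunRing hl hlN b.2⟩, ?_, fun γ z => ?_⟩
  · exact (Hecke.heckeOperatorAlong_mk hfacts N l D hα hβ hmem).symm
  · have e := Hecke.heckeDivBar_apply_of_apply_eq_ord N l hα hβ hfin hN hf
      (D := n • (D : Divisor (AlgebraicClosure ℚ) (modularFunctionFieldBar N))) (fun w => by
        rw [Finsupp.smul_apply, nsmul_eq_mul]; exact hD w) v
    rw [map_nsmul, Finsupp.smul_apply, nsmul_eq_mul] at e
    exact e
  · refine ⟨fun e => tProd_ne_zero b.2.1 (coe_ne_zero hd.b_ne) (congrArg Subtype.val e),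
      mdifferentiable_tProd hd.mdiff, tProd_ne_zero hd.mdiff hd.ne,
      ⟨_, tProd_mem_modFunRing hl hlN g.2⟩, ?_, fun z => ?_⟩
    · obtain ⟨δ, γ, hδ, hinj⟩ := exists_gamma0_tRep hl hlN
      apply (qExpand ℂ (N * l)).injective
      rw [map_mul, map_pow, qExpand_qL_tProd, qExpand_qL_tProd,
        qExpand_toC_normAlong hl hlN hinj, ← Finset.prod_pow, ← Finset.prod_mul_distrib]
      exact Finset.prod_congr rfl fun x _ => levelEmb_beta_mul hg hδ x
    · simp only [tProd, ← Finset.prod_pow, hgp]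
  · obtain ⟨σ, δ, hT⟩ := exists_isTransfer_tRep hlN γ
    rw [tProd_smul (c := fun γ => (χ γ : ℂ)) hχ hT z, hχ' γ σ δ hT, Units.coe_prod]

end FLTAgent.JTors
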