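import Fermat.Agent.JTors.HeckeChar
import Fermat.Agent.JTors.Proj
import Fermat.Agent.GalRep.Model
import Fermat.Agent.Periods.HeckeLattice

/-!
# The torsion model of `J₀(N)`
-/

set_option autoImplicit false

noncomputable section

open ModularCurve AlgebraicCurve CongruenceSubgroup
open scoped MatrixGroups

namespace FLTAgent.JTors

open Periods

variable {N : ℕ} [NeZero N]

theorem homLattice_free : Module.Free ℤ (ParQuot N →+ ℤ) :=
  have := parQuot_moduleFree N
  have := parQuot_moduleFinite N
  Module.Free.of_equiv (addMonoidHomLequivInt ℤ).symm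

theorem homLattice_finite : Module.Finite ℤ (ParQuot N →+ ℤ) :=
  have := parQuot_moduleFree N
  have := parQuot_moduleFinite N
  Module.Finite.equiv (addMonoidHomLequivInt ℤ).symm

theorem torsionProj_heckeAct {S : Set ℕ} (p : ℕ) [NeZero p] (n : ℕ) {l : ℕ} (hl : l.Prime)
    (hlN : ¬ l ∣ N) (hlS : l ∉ S) (φ : ParQuot N →+ ℤ) :
    torsionProj p n (heckeAct S (hdim N) (CuspForm.heckeAlgebra.T hl hlN hlS) φ) =
      heckeOperatorBar N ⟨l, hl⟩ (torsionProj p n φ) := by
  have : NeZero l := ⟨hl.ne_zero⟩
  refine (isTorsChar_torsionProj p n _).inj (pow_ne_zero n (NeZero.ne p))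
    ((isTorsChar_torsionProj p n φ).hecke hl hlN fun γ σ δ h => ?_)
  simp only [expChar_apply]
  rw [heckeAct_T_apply (hdim N) hl hlN hlS φ γ σ δ h]
  exact map_sum (AddMonoidHom.mk' (fun k : ℤ => Additive.ofMul (zetaUnit (p ^ n) ^ k))
    fun a b => by rw [zpow_add, ofMul_mul]) _ Finset.univ

/-- The `p`-power torsion of `J₀(N)` uniformised by `Hom(ParQuot N, ℤ)`. -/
def torsionModel (N : ℕ) [NeZero N] (p : ℕ) [NeZero p] : GalRep.TorsionModel N p where
  H := ParQuot N →+ ℤ
  free := homLattice_free
  finite := homLattice_finite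
  act := heckeAct (GalRep.levelPrimes N) (hdim N)
  act_injective := heckeAct_injective (hdim N)
  proj := torsionProj p
  exists_proj := exists_torsionProj p
  proj_eq_zero_iff := torsionProj_eq_zero_iff p
  proj_succ := torsionProj_succ p
  proj_act := fun n _ hℓ hℓN φ =>
    torsionProj_heckeAct p n hℓ hℓN (GalRep.notMem_levelPrimes hℓN) φ

end FLTAgent.JTors
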