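import Mathlib.FieldTheory.IsAlgClosed.Classification
import Mathlib.Analysis.Complex.Polynomial.Basic
import Mathlib.RingTheory.Algebraic.Basic

/-!
A complex number with finitely many conjugates under `Aut(ℂ)` is algebraic.
-/

namespace FLTAgent.JTors

theorem exists_aut_add_one {x : ℂ} (hx : Transcendental ℚ x) :
    ∃ σ : ℂ ≃+* ℂ, σ x = x + 1 := by
  classical
  have hs : AlgebraicIndepOn ℚ id ({x} : Set ℂ) :=
    (algebraicIndependent_unique_type_iff (x := fun y : ({x} : Set ℂ) => (y : ℂ))).2 hx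
  obtain ⟨B, hxB, hB⟩ := exists_isTranscendenceBasis_superset hs
  have hxB' : x ∈ B := hxB rfl
  set v : B → ℂ := fun b => b
  have hv : IsTranscendenceBasis ℚ v := hB
  let _ := IsAlgClosed.isAlgClosure_of_transcendence_basis v hv
  let a : MvPolynomial B ℚ →ₐ[ℚ] MvPolynomial B ℚ :=
    MvPolynomial.aeval fun b => if (b : ℂ) = x then MvPolynomial.X b + 1 else MvPolynomial.X b
  let a' : MvPolynomial B ℚ →ₐ[ℚ] MvPolynomial B ℚ :=
    MvPolynomial.aeval fun b => if (b : ℂ) = x then MvPolynomial.X b - 1 else MvPolynomial.X b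
  let φ : MvPolynomial B ℚ ≃ₐ[ℚ] MvPolynomial B ℚ := AlgEquiv.ofAlgHom a a'
    (MvPolynomial.algHom_ext fun b => by
      by_cases hb : (b : ℂ) = x <;> simp [a, a', hb])
    (MvPolynomial.algHom_ext fun b => by
      by_cases hb : (b : ℂ) = x <;> simp [a, a', hb])
  let e := (hv.1.aevalEquiv.symm.trans (φ.trans hv.1.aevalEquiv)).toRingEquiv
  refine ⟨IsAlgClosure.equivOfEquiv ℂ ℂ e, ?_⟩
  set y := hv.1.aevalEquiv (MvPolynomial.X ⟨x, hxB'⟩) with hy
  have hyx : algebraMap _ ℂ y = x := by simp [hy, v]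
  have h := IsAlgClosure.equivOfEquiv_algebraMap ℂ ℂ e y
  rw [hyx] at h
  rw [h]
  simp [e, hy, φ, a, v]

theorem isAlgebraic_of_finite_orbit {x : ℂ}
    (h : (Set.range fun σ : ℂ ≃+* ℂ => σ x).Finite) : IsAlgebraic ℚ x := by
  by_contra hx
  obtain ⟨σ, hσ⟩ := exists_aut_add_one hx
  have key : ∀ k : ℕ, (σ ^ k) x = x + k := by
    intro k
    induction k with
    | zero => simp
    | succ k ih =>
      rw [pow_succ', RingAut.mul_apply, ih, map_add, hσ, map_natCast]
      push_cast
      ring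
  have hinj : Function.Injective fun k : ℕ => (σ ^ k) x := by
    intro i j hij
    simpa [key] using hij
  exact Set.infinite_range_of_injective hinj (h.subset (by rintro _ ⟨k, rfl⟩; exact ⟨_, rfl⟩))

/-- An algebraic complex number lies in the image of any embedding of the algebraic closure. -/
theorem mem_range_of_isAlgebraic (ι : AlgebraicClosure ℚ →+* ℂ) {x : ℂ} (hx : IsAlgebraic ℚ x) :
    x ∈ Set.range ι := by
  obtain ⟨p, hp0, hp⟩ := hx
  have hsplit : (p.map (algebraMap ℚ (AlgebraicClosure ℚ))).Splits := IsAlgClosed.splits _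
  have hroots := hsplit.roots_map ι
  have hmem : x ∈ ((p.map (algebraMap ℚ (AlgebraicClosure ℚ))).map ι).roots := by
    rw [Polynomial.mem_roots ((Polynomial.map_ne_zero_iff ι.injective).2
      ((Polynomial.map_ne_zero_iff (algebraMap ℚ (AlgebraicClosure ℚ)).injective).2 hp0)),
      Polynomial.map_map, Polynomial.IsRoot.def, Polynomial.eval_map,
      Subsingleton.elim (ι.comp (algebraMap ℚ (AlgebraicClosure ℚ))) (algebraMap ℚ ℂ)]
    exact hp
  rw [hroots] at hmem
  obtain ⟨y, -, rfl⟩ := Multiset.mem_map.1 hmem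
  exact ⟨y, rfl⟩

end FLTAgent.JTors
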