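import Fermat.Agent.JTors.ConjDiv
import Fermat.Agent.JTors.CuspChar
import Fermat.Agent.JTors.RootPar
import Fermat.Agent.IntegralStructure.Main
import Fermat.Agent.Periods.Structure
import Fermat.Prelude.Def_ModularCurve_X0ModL

/-!
Characters of exponent `n` and the conjugates of their expansions.
-/

set_option autoImplicit false

noncomputable section

open UpperHalfPlane CongruenceSubgroup Filter Function Topology ModularCurve
open scoped MatrixGroups Manifold ModularForm

namespace FLTAgent.JTors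

open ModPoly

variable {N : ℕ} [NeZero N] {n : ℕ}

theorem finite_char (hn : n ≠ 0) : {χ : Gamma0 N →* ℂˣ | ∀ γ, χ γ ^ n = 1}.Finite := by
  have := Periods.sl2z_fg
  obtain ⟨S, hS⟩ := (Subgroup.fg_of_index_ne_zero (Gamma0 N) : Group.FG (Gamma0 N)).out
  have hfin : {u : ℂˣ | u ^ n = 1}.Finite := by
    have : {z : ℂ | z ^ n = 1}.Finite :=
      ((Polynomial.nthRoots n (1 : ℂ)).toFinset.finite_toSet).subset fun x hx => by
        simpa [Polynomial.mem_nthRoots (Nat.pos_of_ne_zero hn)] using hx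
    refine (this.preimage (f := ((↑) : ℂˣ → ℂ)) Units.val_injective.injOn).subset fun u hu => ?_
    have : (u : ℂ) ^ n = 1 := by
      rw [← Units.val_pow_eq_pow_val, show u ^ n = 1 from hu, Units.val_one]
    exact this
  have hpi := Set.Finite.pi' (t := fun _ : S => {u : ℂˣ | u ^ n = 1}) fun _ => hfin
  refine Set.Finite.of_finite_image (f := fun χ => fun s : S => χ (s : Gamma0 N))
    (hpi.subset ?_) ?_
  · rintro _ ⟨χ, hχ, rfl⟩ s
    exact hχ _
  · intro χ _ ψ _ h
    exact MonoidHom.eq_of_eqOn_dense hS fun s hs => congrFun h ⟨s, hs⟩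

theorem coeffMap_discSeries (σ : ℂ →+* ℂ) : coeffMap σ discSeries = discSeries := by
  rw [discSeries, map_mul, coeffMap_single, map_one, coeffMap_ofPowerSeries]
  congr 2
  ext i
  simp

omit [NeZero N] in
theorem expands_div_disc {k : ℤ} (g : CuspForm (Gamma0 N) k) (m : ℕ) :
    Expands 1 (fun z => g z / ModularForm.discriminant z ^ m)
      (HahnSeries.ofPowerSeries ℤ ℂ (qExpansion 1 (g : ℍ → ℂ)) * (discSeries ^ m)⁻¹) := by
  have hmem := (IntegralStructure.qC g).2
  have h1 := expands_qExpansion (h := 1) (f := (g : ℍ → ℂ))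
    (by rw [Nat.cast_one]; exact_mod_cast hmem.1) hmem.2.1 hmem.2.2
  rw [Nat.cast_one] at h1
  refine (h1.mul ((expands_discriminant.pow m).inv (pow_ne_zero m discSeries_ne_zero))).congr_fun'
    (Eventually.of_forall fun z => ?_)
  simp [div_eq_mul_inv]

/-- The conjugate of the expansion of a function with character is one such. -/
theorem exists_conj_cuspChar (σ : ℂ ≃+* ℂ) (hn : n ≠ 0) {χ : Gamma0 N →* ℂˣ}
    (hχ : TrivialAtInfty χ) (hχn : ∀ γ, χ γ ^ n = 1) (h : CuspChar χ)
    (h0 : (h : ℍ → ℂ) ≠ 0) :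
    ∃ (χ' : Gamma0 N →* ℂˣ) (hχ' : TrivialAtInfty χ'), (∀ γ, χ' γ ^ n = 1) ∧
      ∃ h' : CharFun χ' 2, (h' : ℍ → ℂ) ∈ CuspChar χ' ∧
        coeffMap (σ : ℂ →+* ℂ) (charExp hχ ⟨(h : ℍ → ℂ), h.2.1⟩) = charExp hχ' h' := by
  set X := charExp hχ ⟨(h : ℍ → ℂ), h.2.1⟩ with hX
  have hX0 : X ≠ 0 := (map_ne_zero_iff _ (charExp_injective hχ)).2 fun e =>
    h0 (congrArg Subtype.val e)
  set C := cuspPow hn hχn h
  obtain ⟨g, hg⟩ := IntegralStructure.exists_conjForm σ C
  have hk : (((12 * 2 * n : ℕ) : ℤ)) = 12 * ((2 * n : ℕ) : ℤ) := by push_cast; ring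
  set f : modFunRing N := ⟨_, pow_mem_modFunRing hn hχn h⟩
  set f' : modFunRing N := ⟨_, div_discriminant_pow_mem hk g⟩
  have hqf : qL N f = X ^ n := qL_eq_of_expands ((expands_charExp hχ _).pow n)
  have hqf2 : qL N f = HahnSeries.ofPowerSeries ℤ ℂ (qExpansion 1 (C : ℍ → ℂ)) *
      (discSeries ^ (2 * n))⁻¹ := by
    refine qL_eq_of_expands ((expands_div_disc C (2 * n)).congr_fun'
      (Eventually.of_forall fun z => ?_))
    show C z / _ = (h : ℍ → ℂ) z ^ n
    rw [cuspPow_apply, mul_pow, ← pow_mul, mul_div_assoc,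
      div_self (pow_ne_zero _ (ModularForm.discriminant_ne_zero z)), mul_one]
  have hqf' : qL N f' = coeffMap (σ : ℂ →+* ℂ) (qL N f) := by
    rw [hqf2, map_mul, map_inv₀, map_pow, coeffMap_discSeries, coeffMap_ofPowerSeries]
    refine qL_eq_of_expands ?_
    have hg' : qExpansion 1 (g : ℍ → ℂ) =
        PowerSeries.map (σ : ℂ →+* ℂ) (qExpansion 1 (C : ℍ → ℂ)) := by
      simpa [IntegralStructure.qHom_apply] using hg
    rw [← hg']
    exact expands_div_disc g (2 * n)
  have hf'0 : f' ≠ 0 := fun e => by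
    rw [e, map_zero, hqf, map_pow] at hqf'
    exact pow_ne_zero n ((map_ne_zero_iff _ (RingHom.injective _)).2 hX0) hqf'.symm
  have hdiv : ∀ z : ℍ, n ∣ analyticOrderNatAt ((f' : ℍ → ℂ) ∘ ofComplex) (z : ℂ) := by
    intro z
    rw [← Int.natCast_dvd_natCast, ← order_diskSeries_eq z (mdiff_coe f') (coe_ne_zero hf'0)]
    have := dvd_order_of_conj σ (n := (n : ℤ)) (f := f) (f' := f') (fun z q => by
      have hm : MDiff (Genus.cosetFun q (h : ℍ → ℂ)) := mdifferentiable_comp_smul h.2.1.1 q.out⁻¹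
      rw [Genus.pointHom_apply, show Genus.cosetFun q (f : ℍ → ℂ) =
          (Genus.cosetFun q (h : ℍ → ℂ)) ^ n from rfl,
        diskSeries_pow hm, HahnSeries.order_pow, nsmul_eq_mul]
      exact dvd_mul_right _ _) hqf' z (QuotientGroup.mk 1)
    rw [Genus.pointHom_apply, Genus.cosetFun_mk f'.2] at this
    simpa using this
  obtain ⟨h', hh', hpow⟩ := exists_root (mdiff_coe f') (coe_ne_zero hf'0) hn hdiv
  have hh'0 : h' ≠ 0 := fun e =>
    coe_ne_zero hf'0 (funext fun z => by rw [← hpow, e]; simp [zero_pow hn])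
  obtain ⟨χ', hχ'n, hχ'⟩ := exists_rootChar hh' hh'0 hn fun γ z => by
    rw [hpow, hpow, smul_eq_coe]
  have hexp' : Expands 1 (fun z => h' z ^ n) (coeffMap (σ : ℂ →+* ℂ) X ^ n) := by
    rw [← map_pow, ← hqf, ← hqf']
    exact (expands_qL f').congr_fun' (Eventually.of_forall fun z => (hpow z).symm)
  have hY0 : coeffMap (σ : ℂ →+* ℂ) X ≠ 0 := (map_ne_zero_iff _ (RingHom.injective _)).2 hX0
  set Y := coeffMap (σ : ℂ →+* ℂ) X
  set o := Y.order
  set q : ℍ → ℂ := fun z => h' z * (Function.Periodic.qParam 1 z ^ o)⁻¹ with hq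
  have hqpow : Expands 1 (fun z => q z ^ n) (Y ^ n * (HahnSeries.single (o * n) 1)⁻¹) := by
    have hsing : Expands 1 (fun z : ℍ => Function.Periodic.qParam 1 z ^ (o * n))
        (HahnSeries.single (o * n) (1 : ℂ)) :=
      ⟨o * n, fun _ => 1, analyticAt_const, by simp [taylorPS_const],
        Eventually.of_forall fun z => by simp⟩
    refine (hexp'.mul (hsing.inv (HahnSeries.single_ne_zero one_ne_zero))).congr_fun'
      (Eventually.of_forall fun z => ?_)
    simp only [q, Pi.mul_apply, Pi.inv_apply, mul_pow, inv_pow]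
    rw [← zpow_natCast (_ ^ o) n, ← zpow_mul]
  have hYne : Y ^ n * (HahnSeries.single (o * n) (1 : ℂ))⁻¹ ≠ 0 :=
    mul_ne_zero (pow_ne_zero _ hY0) (inv_ne_zero (HahnSeries.single_ne_zero one_ne_zero))
  obtain ⟨hlim, hL⟩ := tendsto_of_expands_order_zero hqpow hYne (by
    rw [HahnSeries.order_mul (pow_ne_zero _ hY0)
      (inv_ne_zero (HahnSeries.single_ne_zero one_ne_zero)), Genus.order_inv',
      HahnSeries.order_single one_ne_zero, HahnSeries.order_pow, nsmul_eq_mul]
    ring)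
  have hT : TrivialAtInfty χ' := by
    intro γ hγ
    obtain ⟨t, ht⟩ := smul_upper_eq_vadd hγ
    refine Units.ext (eq_one_of_translate (q := q) (A := 0) le_rfl ?_ hn hL hlim (t := (t : ℝ))
      fun z _ => ?_)
    · have hc : ContinuousOn (fun z : ℂ => (Function.Periodic.qParam 1 z ^ o)⁻¹)
          {z : ℂ | 0 < z.im} :=
        (((Function.Periodic.differentiable_qParam (h := 1)).continuous.continuousOn).zpow₀ o
          fun z _ => Or.inl (Function.Periodic.qParam_ne_zero z)).inv₀ fun z _ =>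
            zpow_ne_zero _ (Function.Periodic.qParam_ne_zero z)
      refine ((analyticOnNhd_comp_ofComplex hh').continuousOn.mul hc).congr fun z hz => ?_
      simp [q, ofComplex_apply_of_im_pos (show 0 < z.im from hz)]
    · have hper : Function.Periodic.qParam 1 (((t : ℝ) +ᵥ z : ℍ) : ℂ) =
          Function.Periodic.qParam 1 (z : ℂ) := by
        rw [UpperHalfPlane.coe_vadd, Function.Periodic.qParam, Function.Periodic.qParam,
          Complex.exp_eq_exp_iff_exists_int]
        exact ⟨t, by push_cast; ring⟩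
      simp only [q, hper]
      rw [← ht, hχ']
      ring
  have hzero : ∀ δ : SL(2, ℤ),
      IsZeroAtImInfty fun z => h' (δ • z) * ModularForm.discriminant z ^ 2 := fun δ => by
    refine tendsto_zero_of_pow (n := n) ?_
    refine (IntegralStructure.cusp_slash_zero g δ : Tendsto _ _ _).congr fun z => ?_
    rw [ModularForm.SL_slash_apply, mul_pow, hpow]
    show _ = g (δ • z) / ModularForm.discriminant (δ • z) ^ (2 * n) *
      (ModularForm.discriminant z ^ 2) ^ n
    have hd : denom δ z ≠ 0 := denom_ne_zero _ z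
    have h12 : (denom δ z ^ (12 : ℤ)) ^ (2 * n) = denom δ z ^ ((12 * 2 * n : ℕ) : ℤ) := by
      rw [← zpow_natCast, ← zpow_mul]; push_cast; ring_nf
    rw [discriminant_smul, mul_pow, h12, ← pow_mul, zpow_neg]
    field_simp [ModularForm.discriminant_ne_zero z]
  have hmem : h' ∈ CharFun χ' 2 := ⟨hh', hχ', fun δ => (hzero δ).boundedAtFilter⟩
  set X' := charExp hT ⟨h', hmem⟩
  have hX'pow : X' ^ n = Y ^ n := ((expands_charExp hT _).pow n).unique hexp'
  have hX'0 : X' ≠ 0 := fun e => by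
    rw [e, zero_pow hn] at hX'pow
    exact pow_ne_zero n hY0 hX'pow.symm
  have := NeZero.mk hn
  obtain ⟨μ, hμ⟩ := HasEnoughRootsOfUnity.exists_primitiveRoot ℂ n
  obtain ⟨i, -, hi⟩ := (hμ.map_of_injective (f := algebraMap ℂ (LaurentSeries ℂ))
    (RingHom.injective _)).eq_pow_of_pow_eq_one (ξ := Y / X')
    (by rw [div_pow, hX'pow, div_self (pow_ne_zero n hY0)])
  refine ⟨χ', hT, hχ'n, μ ^ i • ⟨h', hmem⟩,
    Submodule.smul_mem (CuspChar χ') (μ ^ i) ⟨hmem, hzero⟩, ?_⟩
  rw [map_smul, ← HahnSeries.C_mul_eq_smul,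
    show HahnSeries.C (μ ^ i) = algebraMap ℂ (LaurentSeries ℂ) (μ ^ i) by
      rw [algebraMap_laurentSeries_eq_single]; rfl,
    map_pow, hi, div_mul_cancel₀ _ hX'0]

end FLTAgent.JTors
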