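import Fermat.Agent.Genus.Export
import Fermat.Agent.JTors.Order
import Fermat.Agent.JTors.SeriesDescent

/-!
Divisibility of all orders on the upper half plane is preserved by conjugating the coefficients
of the `q`-expansion.
-/

set_option autoImplicit false

noncomputable section

open ModularCurve AlgebraicCurve
open UpperHalfPlane hiding I
open scoped MatrixGroups Manifold

namespace FLTAgent.JTors

open ModPoly Genus

variable {N : ℕ} [NeZero N]

omit [NeZero N] in
theorem coeffMap_mem_fieldC [NeZero N] (σ : ℂ ≃+* ℂ) {x : LaurentSeries ℂ}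
    (hx : x ∈ modularFunctionFieldC ℂ N) :
    coeffMap (σ : ℂ →+* ℂ) x ∈ modularFunctionFieldC ℂ N := by
  induction hx using IntermediateField.adjoin_induction with
  | mem y hy =>
    rcases hy with rfl | rfl
    · rw [coeffMap_jqModC' (σ : ℂ →+* ℂ)]; exact jqModC_mem ℂ N
    · rw [coeffMap_jqNModC' (σ : ℂ →+* ℂ)]; exact jqNModC_mem ℂ N
  | algebraMap c =>
    rw [algebraMap_laurentSeries_eq_single, coeffMap_single, ← algebraMap_laurentSeries_eq_single]
    exact IntermediateField.algebraMap_mem _ _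
  | add a b _ _ ha hb => rw [map_add]; exact add_mem ha hb
  | inv a _ ha => rw [map_inv₀]; exact inv_mem ha
  | mul a b _ _ ha hb => rw [map_mul]; exact mul_mem ha hb

/-- The coefficient conjugation of `ℂ(j, jN)`. -/
def conjField (σ : ℂ ≃+* ℂ) : modularFunctionFieldC ℂ N →+* modularFunctionFieldC ℂ N :=
  ((coeffMap (σ : ℂ →+* ℂ)).comp (modularFunctionFieldC ℂ N).val.toRingHom).codRestrict
    (modularFunctionFieldC ℂ N).toSubfield fun x => coeffMap_mem_fieldC σ x.2

theorem coe_conjField (σ : ℂ ≃+* ℂ) (x : modularFunctionFieldC ℂ N) :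
    (conjField σ x : LaurentSeries ℂ) = coeffMap (σ : ℂ →+* ℂ) (x : LaurentSeries ℂ) := rfl

theorem conjField_algebraMap (σ : ℂ ≃+* ℂ) (c : ℂ) :
    conjField (N := N) σ (algebraMap ℂ _ c) = algebraMap ℂ _ (σ c) := by
  apply Subtype.ext
  rw [coe_conjField, algebraMap_field_coe, algebraMap_field_coe, coeffMap_single]
  rfl

theorem conjField_jEl (σ : ℂ ≃+* ℂ) : conjField (N := N) σ (jEl ℂ N) = jEl ℂ N :=
  Subtype.ext (coeffMap_jqModC' (σ : ℂ →+* ℂ))

theorem jMult_symm (σ : ℂ ≃+* ℂ) (a : ℂ) : jMult (σ.symm a) = jMult a := by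
  have h0 : σ.symm a = 0 ↔ a = 0 := map_eq_zero_iff σ.symm σ.symm.injective
  have h1 : σ.symm a = 1728 ↔ a = 1728 :=
    ⟨fun h => by simpa [map_ofNat σ] using congrArg σ h, fun h => by simp [h, map_ofNat σ.symm]⟩
  simp only [jMult, h0, h1]

/-- Orders on the upper half plane of conjugate functions. -/
theorem dvd_order_of_conj (σ : ℂ ≃+* ℂ) {n : ℤ} {f f' : modFunRing N}
    (hf : ∀ (z : ℍ) (q : Cosets N), n ∣ (pointHom z q f).order)
    (hc : qL N f' = coeffMap (σ : ℂ →+* ℂ) (qL N f)) (z : ℍ) (q : Cosets N) :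
    n ∣ (pointHom z q f').order := by
  set φ := fieldEmb (RingHom.id ℂ) (pointHom z q) (pointHom_injective z q)
  have hφ : Over (RingHom.id ℂ) φ := over_fieldEmb _ _ _
  set ψ : modularFunctionFieldC ℂ N →+* LaurentSeries ℂ := φ.comp (conjField σ)
  have hψ : Over (σ : ℂ →+* ℂ) ψ := fun c => by
    show φ (conjField σ (algebraMap ℂ _ c)) = _
    rw [conjField_algebraMap]
    exact hφ (σ c)
  set a := jFun z
  set b := σ.symm a
  have hψj : (ψ (jEl ℂ N - algebraMap ℂ _ b)).order = jMult b := by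
    have : conjField σ (jEl ℂ N - algebraMap ℂ _ b) = jEl ℂ N - algebraMap ℂ _ a := by
      rw [map_sub, conjField_jEl, conjField_algebraMap, σ.apply_symm_apply]
    show (φ (conjField σ _)).order = _
    rw [this, map_sub, fieldEmb_jEl, hφ a, pointHom_jFun, RingHom.id_apply, diskSeries_sub_const,
      order_diskSeries_jFun_sub, jMult_symm]
  obtain ⟨k, hk⟩ := exists_induces_placeOfEmb ψ hψ ⟨jEl ℂ N - algebraMap ℂ _ b, by
    rw [hψj]; exact_mod_cast jMult_pos b⟩
  set v := placeOfEmb ψ hψ _
  have hkb : k * v.ord (jEl ℂ N - algebraMap ℂ _ b) = jMult b := (hk.2 _).symm.trans hψj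
  have hval : ψ ⟨qL N f, qL_mem f⟩ = pointHom z q f' := by
    show φ (conjField σ _) = _
    refine fieldEmb_eq _ _ _ ?_
    rw [coe_conjField, hc]
    ext i
    simp
  rw [← hval, hk.2]
  rcases exists_point_or_cusp (RingHom.id ℂ) v with ⟨a', z', q', k', hz', hk'⟩ | ⟨q', k', hk'⟩
  · have hord : (fieldEmb (RingHom.id ℂ) (pointHom z' q') (pointHom_injective z' q')
        (jEl ℂ N - algebraMap ℂ _ b)).order =
        (diskSeries z' fun w => jFun w - b).order := by
      rw [map_sub, fieldEmb_jEl, over_fieldEmb _ _ _ b, pointHom_jFun, RingHom.id_apply,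
        diskSeries_sub_const]
    have hab : jFun z' = b := by
      by_contra hne
      have h0 : (diskSeries z' fun w => jFun w - b).order = 0 :=
        (order_diskSeries_eq_zero z' (g := fun w => jFun w - b) (sub_ne_zero.2 hne)).1
      rw [← hord, hk'.2] at h0
      rcases mul_eq_zero.1 h0 with h1 | h1
      · exact hk'.1.ne' h1
      · rw [h1, mul_zero] at hkb
        have := jMult_pos b
        omega
    rw [hk'.2, ← hab, order_diskSeries_jFun_sub, hab] at hord
    have hkk : k' = k := by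
      have hv : v.ord (jEl ℂ N - algebraMap ℂ _ b) ≠ 0 := fun h => by
        rw [h, mul_zero] at hkb
        have := jMult_pos b
        omega
      exact mul_right_cancel₀ hv (hord.trans hkb.symm)
    rw [← hkk, ← hk'.2, fieldEmb_eq (g := f) _ _ _ (by ext i; simp)]
    exact hf z' q'
  · exfalso
    have hord : (fieldEmb (RingHom.id ℂ) (cuspHom q') (cuspHom_injective q')
        (jEl ℂ N - algebraMap ℂ _ b)).order ≤ -(N : ℤ) := by
      rw [map_sub, fieldEmb_jEl, over_fieldEmb _ _ _ b, cuspHom_jFun, RingHom.id_apply]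
      refine HahnSeries.order_le_of_coeff_ne_zero ?_
      have hN : -(N : ℤ) ≠ 0 := neg_ne_zero.2 (Nat.cast_ne_zero.2 (NeZero.ne N))
      rw [HahnSeries.coeff_sub, HahnSeries.coeff_single_of_ne hN, sub_zero,
        show -(N : ℤ) = (N : ℤ) * (-1) by ring, qExpand_coeff_mul]
      simpa using (coeff_jqModC_pow_self ℂ 1).trans_ne one_ne_zero
    rw [hk'.2] at hord
    have hN := NeZero.pos N
    have hpos : 0 < v.ord (jEl ℂ N - algebraMap ℂ _ b) :=
      pos_of_mul_pos_right (by rw [hkb]; exact_mod_cast jMult_pos b) hk.1.le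
    have := mul_pos hk'.1 hpos
    omega

end FLTAgent.JTors
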