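import Fermat.Agent.PicTorsion.Divisible
import Fermat.Agent.Hecke.Inputs

/-!
# `J₀(N)(ℚ̄)` is divisible
-/

set_option autoImplicit false

noncomputable section

open AlgebraicCurve ModularCurve

namespace FLTAgent.JTors

theorem exists_nsmul_eq_jZero (N : ℕ) [NeZero N] (l : ℕ) [Fact l.Prime] (x : JZero N) :
    ∃ y : JZero N, l • y = x := by
  have : FLTAgent.FunctionField.IsFunctionField (AlgebraicClosure ℚ) (modularFunctionFieldBar N) :=
    Hecke.isFunctionField_level (AlgebraicClosure ℚ) N
  exact PicTorsion.exists_nsmul_eq l x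

theorem exists_nsmul_eq_jZero_of_prime (N : ℕ) [NeZero N] {l : ℕ} (hl : l.Prime) (x : JZero N) :
    ∃ y : JZero N, l • y = x :=
  have : Fact l.Prime := ⟨hl⟩
  exists_nsmul_eq_jZero N l x

end FLTAgent.JTors
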