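import Mathlib.Algebra.Algebra.Rat
import Mathlib.RingTheory.Localization.FractionRing
import Fermat.Prelude.Def_GaloisRep_ComplexConjugation
import Fermat.Agent.ModPoly.Hermite
import Fermat.Agent.Genus.DiskExpand
import Fermat.Agent.Genus.EmbPlace
import Fermat.Agent.Hecke.DegMaps
import Fermat.Agent.JTors.FieldDescent

/-!
Embeddings of the modular function field over `ℚ̄` into fields of Laurent series at the points and
cusps of the upper half plane.
-/

noncomputable section

open ModularCurve AlgebraicCurve
open scoped MatrixGroups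

namespace FLTAgent.JTors

open ModPoly

/-- The fixed embedding of `ℚ̄` into `ℂ`. -/
def embC : AlgebraicClosure ℚ →+* ℂ := complexEmbedding.toRingHom

variable (N : ℕ) [NeZero N]

instance isDomain_modFunRing : IsDomain (modFunRing N) :=
  (qL_injective (N := N)).isDomain (qL N).toRingHom

/-- The field of fractions of `modFunRing N`. -/
abbrev MFrac : Type _ := FractionRing (modFunRing N)

variable {N}

/-- Extension of an injective expansion map to the field of fractions. -/
def liftFrac (ψ : modFunRing N →ₐ[ℂ] LaurentSeries ℂ) (hψ : Function.Injective ψ) :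
    MFrac N →+* LaurentSeries ℂ :=
  IsFractionRing.lift (g := ψ.toRingHom) hψ

theorem liftFrac_algebraMap (ψ : modFunRing N →ₐ[ℂ] LaurentSeries ℂ) (hψ : Function.Injective ψ)
    (a : modFunRing N) : liftFrac ψ hψ (algebraMap (modFunRing N) (MFrac N) a) = ψ a :=
  IsFractionRing.lift_algebraMap hψ a

variable (N)

/-- The `q`-expansion of a quotient. -/
def qFrac : MFrac N →+* LaurentSeries ℂ := liftFrac (qL N) qL_injective

theorem qFrac_algebraMap (a : modFunRing N) :
    qFrac N (algebraMap (modFunRing N) (MFrac N) a) = qL N a :=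
  liftFrac_algebraMap _ _ a

theorem qFrac_injective : Function.Injective (qFrac N) := (qFrac N).injective

theorem laurentBaseChange_le_range :
    (laurentBaseChange ℂ (modularFunctionFieldFull N) : Set (LaurentSeries ℂ)) ⊆
      Set.range (qFrac N) := by
  have hconst : ∀ c : ℂ, algebraMap ℂ (LaurentSeries ℂ) c ∈ (qFrac N).fieldRange := fun c =>
    ⟨algebraMap (modFunRing N) (MFrac N) (algebraMap ℂ (modFunRing N) c), by
      rw [qFrac_algebraMap, AlgHom.commutes]⟩
  have hgen : ∀ x ∈ modularFunctionFieldFull N, coeffEmb ℂ x ∈ (qFrac N).fieldRange := by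
    intro x hx
    induction hx using IntermediateField.adjoin_induction with
    | mem y hy =>
      obtain ⟨d, hd, hdN, rfl⟩ := hy
      have := hd
      refine ⟨algebraMap (modFunRing N) (MFrac N) ⟨jMul d, jMul_mem hdN⟩, ?_⟩
      rw [qFrac_algebraMap, qL_jMul hdN, Hecke.coeffEmb_qExpand, Hecke.coeffEmb_jq]
    | algebraMap c =>
      rw [show coeffEmb ℂ (algebraMap ℚ (LaurentSeries ℚ) c) =
          algebraMap ℂ (LaurentSeries ℂ) (c : ℂ) by
        rw [algebraMap_laurentSeries_eq_single, algebraMap_laurentSeries_eq_single, coeffEmb,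
          coeffMap_single]
        simp]
      exact hconst _
    | add y z _ _ hy hz => rw [map_add]; exact add_mem hy hz
    | inv y _ hy => rw [map_inv₀]; exact inv_mem hy
    | mul y z _ _ hy hz => rw [map_mul]; exact mul_mem hy hz
  intro x hx
  have : x ∈ (qFrac N).fieldRange := by
    rw [SetLike.mem_coe, mem_laurentBaseChange_iff] at hx
    refine (Subfield.closure_le.2 ?_) hx
    rintro _ (⟨c, rfl⟩ | ⟨y, hy, rfl⟩)
    · exact hconst c
    · exact hgen y hy
  exact this

/-- Coefficientwise embedding of the function field over `ℚ̄`. -/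
def toC : modularFunctionFieldBar N →+* LaurentSeries ℂ :=
  (coeffMap embC).comp (modularFunctionFieldBar N).val.toRingHom

omit [NeZero N] in
theorem toC_apply (f : modularFunctionFieldBar N) :
    toC N f = coeffMap embC (f : LaurentSeries (AlgebraicClosure ℚ)) := rfl

omit [NeZero N] in
theorem toC_injective : Function.Injective (toC N) := (toC N).injective

omit [NeZero N] in
theorem toC_mem (f : modularFunctionFieldBar N) :
    toC N f ∈ laurentBaseChange ℂ (modularFunctionFieldFull N) :=
  coeffMap_mem_laurentBaseChange' _ embC f.2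

theorem toC_mem_range (f : modularFunctionFieldBar N) : toC N f ∈ (qFrac N).fieldRange :=
  laurentBaseChange_le_range N (toC_mem N f)

/-- The function field over `ℚ̄` inside the field of fractions of `modFunRing N`. -/
def toFrac : modularFunctionFieldBar N →+* MFrac N :=
  ((RingEquiv.ofBijective (qFrac N).rangeRestrictField
      (RingHom.rangeRestrictField_bijective (qFrac N))).symm.toRingHom).comp
    ((toC N).codRestrict (qFrac N).fieldRange (toC_mem_range N))

theorem qFrac_toFrac (f : modularFunctionFieldBar N) : qFrac N (toFrac N f) = toC N f :=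
  congrArg Subtype.val ((RingEquiv.ofBijective (qFrac N).rangeRestrictField
    (RingHom.rangeRestrictField_bijective (qFrac N))).apply_symm_apply
      ((toC N).codRestrict (qFrac N).fieldRange (toC_mem_range N) f))

/-- Every element is a quotient of two functions on the upper half plane. -/
theorem exists_frac (f : modularFunctionFieldBar N) :
    ∃ a b : modFunRing N, b ≠ 0 ∧ toC N f * qL N b = qL N a := by
  obtain ⟨a, b, hb, he⟩ := IsFractionRing.div_surjective (A := modFunRing N) (toFrac N f)
  have hb0 : b ≠ 0 := nonZeroDivisors.ne_zero hb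
  refine ⟨a, b, hb0, ?_⟩
  rw [← qFrac_toFrac, ← he, map_div₀, qFrac_algebraMap, qFrac_algebraMap,
    div_mul_cancel₀ _ ((map_ne_zero_iff _ qL_injective).2 hb0)]

/-- The embedding of the function field over `ℚ̄` attached to an expansion map. -/
def expEmb (ψ : modFunRing N →ₐ[ℂ] LaurentSeries ℂ) (hψ : Function.Injective ψ) :
    modularFunctionFieldBar N →+* LaurentSeries ℂ :=
  (liftFrac ψ hψ).comp (toFrac N)

theorem expEmb_mul (ψ : modFunRing N →ₐ[ℂ] LaurentSeries ℂ) (hψ : Function.Injective ψ)
    {f : modularFunctionFieldBar N} {a b : modFunRing N} (h : toC N f * qL N b = qL N a) :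
    expEmb N ψ hψ f * ψ b = ψ a := by
  have : toFrac N f * algebraMap _ (MFrac N) b = algebraMap _ (MFrac N) a := by
    apply qFrac_injective N
    rw [map_mul, qFrac_toFrac, qFrac_algebraMap, qFrac_algebraMap, h]
  have h2 := congrArg (liftFrac ψ hψ) this
  rwa [map_mul, liftFrac_algebraMap, liftFrac_algebraMap] at h2

theorem over_expEmb (ψ : modFunRing N →ₐ[ℂ] LaurentSeries ℂ) (hψ : Function.Injective ψ) :
    Genus.Over embC (expEmb N ψ hψ) := by
  intro c
  have h : toC N (algebraMap (AlgebraicClosure ℚ) (modularFunctionFieldBar N) c) * qL N 1 =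
      qL N (algebraMap ℂ _ (embC c)) := by
    rw [map_one, mul_one, AlgHom.commutes, toC_apply,
      show ((algebraMap (AlgebraicClosure ℚ) (modularFunctionFieldBar N) c :
          modularFunctionFieldBar N) : LaurentSeries (AlgebraicClosure ℚ)) =
        algebraMap (AlgebraicClosure ℚ) (LaurentSeries (AlgebraicClosure ℚ)) c from rfl,
      algebraMap_laurentSeries_eq_single, coeffMap_single, algebraMap_laurentSeries_eq_single]
  have h2 := expEmb_mul N ψ hψ h
  rw [map_one, mul_one, AlgHom.commutes, algebraMap_laurentSeries_eq_single] at h2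
  exact h2

/-- The expansion at a point. -/
def diskExp (z₀ : UpperHalfPlane) : modFunRing N →ₐ[ℂ] LaurentSeries ℂ :=
  Genus.diskHom (modFunRing N) (fun _ h => h.1) z₀

omit [NeZero N] in
theorem diskExp_injective (z₀ : UpperHalfPlane) : Function.Injective (diskExp N z₀) :=
  Genus.diskHom_injective _ _ z₀

omit [NeZero N] in
theorem diskExp_apply (z₀ : UpperHalfPlane) (g : modFunRing N) :
    diskExp N z₀ g = Genus.diskSeries z₀ (g : UpperHalfPlane → ℂ) := rfl

theorem eq_zero_or_eq_mul_ord (ψ : modFunRing N →ₐ[ℂ] LaurentSeries ℂ)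
    (hψ : Function.Injective ψ) :
    (∀ f, (expEmb N ψ hψ f).order = 0) ∨
      ∃ (v : Place (AlgebraicClosure ℚ) (modularFunctionFieldBar N)) (k : ℤ),
        0 < k ∧ ∀ f, (expEmb N ψ hψ f).order = k * v.ord f := by
  by_cases hx : ∃ f, 0 < (expEmb N ψ hψ f).order
  · obtain ⟨k, hk, hall⟩ := Genus.exists_induces_placeOfEmb _ (over_expEmb N ψ hψ) hx
    exact Or.inr ⟨_, k, hk, hall⟩
  · refine Or.inl fun f => ?_
    push Not at hx
    have h1 := hx f
    have h2 := hx f⁻¹
    rw [map_inv₀, Genus.order_inv'] at h2
    omega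

/-- If all orders of `f` are multiples of `n`, so are its orders at points and cusps. -/
theorem dvd_order_expEmb {f : modularFunctionFieldBar N} {n : ℤ}
    (hdiv : ∀ v : Place (AlgebraicClosure ℚ) (modularFunctionFieldBar N), n ∣ v.ord f)
    (ψ : modFunRing N →ₐ[ℂ] LaurentSeries ℂ) (hψ : Function.Injective ψ) :
    n ∣ (expEmb N ψ hψ f).order := by
  rcases eq_zero_or_eq_mul_ord N ψ hψ with h | ⟨v, k, -, h⟩
  · simp [h]
  · rw [h]; exact (hdiv v).mul_left k

/-- A function with all orders divisible by `n` agrees, at a point or a cusp, with the `n`-th power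
of some element up to order zero. -/
theorem exists_order_eq_mul {f : modularFunctionFieldBar N} {n : ℤ}
    (hdiv : ∀ v : Place (AlgebraicClosure ℚ) (modularFunctionFieldBar N), n ∣ v.ord f)
    (ψ : modFunRing N →ₐ[ℂ] LaurentSeries ℂ) (hψ : Function.Injective ψ) :
    ∃ p : modularFunctionFieldBar N, p ≠ 0 ∧
      (expEmb N ψ hψ f).order = n * (expEmb N ψ hψ p).order := by
  rcases eq_zero_or_eq_mul_ord N ψ hψ with h | ⟨v, k, -, h⟩
  · exact ⟨1, one_ne_zero, by simp [h]⟩
  · obtain ⟨d, hd⟩ := hdiv v
    obtain ⟨π, hπ0, hπ⟩ := Genus.exists_ord_eq_one v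
    exact ⟨π ^ d, zpow_ne_zero _ hπ0, by rw [h, h, hd, v.ord_zpow, hπ]; ring⟩

end FLTAgent.JTors
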