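import Fermat.Agent.JTors.HeckeChar
import Fermat.Agent.JTors.Proj
import Fermat.Agent.LevelSq.Push

/-!
The pushforward along a degeneracy map acts on characters of torsion classes by a transfer: the
norm of a function is the product of its compositions with representatives.
-/

set_option autoImplicit false
set_option linter.unusedSectionVars false

noncomputable section

open ModularCurve AlgebraicCurve UpperHalfPlane CongruenceSubgroup Filter Topology
open scoped MatrixGroups Manifold

namespace FLTAgent.JTors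

open ModPoly Periods

/-- Representatives for the pushforward along `x(q) ↦ x(q ^ d)` from level `M` to level `L`, with
expansions in width `w`. -/
structure IsPushReps {ι : Type*} (L M d w : ℕ) (R : ι → GL (Fin 2) ℝ) : Prop where
  le_width : L ≤ w
  det_pos : ∀ i, 0 < (R i).det.val
  cusp : ∀ g ∈ modFunRing M, ∀ (i : ι) (δ : SL(2, ℤ)),
    (fun z : ℍ => g (R i • δ • z)) ∈ expRing w
  scale : ∀ g ∈ modFunRing L, ∀ (i : ι) (z : ℍ), g (tRep d none • R i • z) = g z
  transfer : ∀ γ : Gamma0 L, ∃ (σ : Equiv.Perm ι) (δ : ι → Gamma0 M),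
    ∀ i, R i * ((γ : SL(2, ℤ)) : GL (Fin 2) ℝ) = ((δ i : SL(2, ℤ)) : GL (Fin 2) ℝ) * R (σ i)
  sep : ∀ i i', (∀ e : ℕ, e ≠ 0 → e ∣ M → ∀ z : ℍ, jMul e (R i • z) = jMul e (R i' • z)) → i = i'

variable {ι : Type*} {L M d w : ℕ} [NeZero L] [NeZero M] [NeZero d] [NeZero w]
  {R : ι → GL (Fin 2) ℝ}

/-- Composition with a representative, as expansions. -/
def repExp (hR : IsPushReps L M d w R) (i : ι) : modFunRing M →ₐ[ℂ] LaurentSeries ℂ :=
  (qLaurentHom w).comp
    { toFun := fun g => ⟨fun z => (g : ℍ → ℂ) (R i • z), by simpa using hR.cusp g g.2 i 1⟩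
      map_one' := rfl
      map_mul' := fun _ _ => rfl
      map_zero' := rfl
      map_add' := fun _ _ => rfl
      commutes' := fun _ => rfl }

theorem expands_repExp (hR : IsPushReps L M d w R) (i : ι) (g : modFunRing M) :
    Expands w (fun z => (g : ℍ → ℂ) (R i • z)) (repExp hR i g) :=
  expands_expSeries _

omit [NeZero L] [NeZero d] [NeZero w] in
theorem mdiff_comp_rep {i : ι} (hpos : 0 < (R i).det.val) {g : ℍ → ℂ} (hg : MDiff g) :
    MDiff fun z : ℍ => g (R i • z) :=
  hg.comp (UpperHalfPlane.mdifferentiable_smul hpos)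

theorem repExp_injective (hR : IsPushReps L M d w R) (i : ι) :
    Function.Injective (repExp hR i) := fun f g h => by
  refine Subtype.ext (funext fun z => ?_)
  have e := eq_of_expands (mdiff_comp_rep (hR.det_pos i) f.2.1) (mdiff_comp_rep (hR.det_pos i) g.2.1)
    (expands_repExp hR i f) (h ▸ expands_repExp hR i g)
  have := congrFun e ((R i)⁻¹ • z)
  simpa using this

/-- The embedding of the function field of level `M` at a representative. -/
def repEmb (hR : IsPushReps L M d w R) (i : ι) : modularFunctionFieldBar M →+* LaurentSeries ℂ :=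
  expEmb M (repExp hR i) (repExp_injective hR i)

theorem repEmb_degMap (hR : IsPushReps L M d w R) (h : L * d ∣ M) (i : ι)
    (u : modularFunctionFieldBar L) :
    repEmb hR i (Hecke.degMap (AlgebraicClosure ℚ) d h u) = qExpand ℂ w (toC L u) := by
  obtain ⟨a, b, hb, hab⟩ := exists_frac L u
  obtain ⟨a', c', hc', hac⟩ := exists_frac M (Hecke.degMap (AlgebraicClosure ℚ) d h u)
  have hmd : ∀ g : modFunRing L, MDiff fun z : ℍ => (g : ℍ → ℂ) (tRep d none • z) := fun g =>
    g.2.1.comp (UpperHalfPlane.mdifferentiable_smul (tRep_det_pos d none))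
  have hser : qL M a' * qExpand ℂ d (qL L b) = qExpand ℂ d (qL L a) * qL M c' := by
    rw [← hac, ← hab, map_mul, toC_apply M, toC_apply L,
      show ((Hecke.degMap (AlgebraicClosure ℚ) d h u : modularFunctionFieldBar M) :
        LaurentSeries (AlgebraicClosure ℚ)) = qExpand (AlgebraicClosure ℚ) d
          (u : LaurentSeries (AlgebraicClosure ℚ)) from Hecke.coe_degMap _ d h u, coeffMap_qExpand]
    ring
  have hfun : ∀ z : ℍ, (a' : ℍ → ℂ) z * (b : ℍ → ℂ) (tRep d none • z) =
      (a : ℍ → ℂ) (tRep d none • z) * (c' : ℍ → ℂ) z := fun z =>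
    congrFun (eq_of_expands (f := (a' : ℍ → ℂ) * fun z : ℍ => (b : ℍ → ℂ) (tRep d none • z))
      (g := (fun z : ℍ => (a : ℍ → ℂ) (tRep d none • z)) * (c' : ℍ → ℂ))
      (a'.2.1.mul (hmd b)) ((hmd a).mul c'.2.1)
      ((expands_qL a').mul (expands_comp_none b))
      (hser ▸ (expands_comp_none a).mul (expands_qL c'))) z
  have hw : ∀ g : modFunRing L, Expands w (g : ℍ → ℂ) (qExpand ℂ w (qL L g)) := fun g => by
    have := (expands_qL g).width_mul (k := w)
    rwa [one_mul] at this
  have h1 : repExp hR i a' * qExpand ℂ w (qL L b) = qExpand ℂ w (qL L a) * repExp hR i c' := by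
    refine Expands.unique (h := w) ((expands_repExp hR i a').mul (hw b))
      (((hw a).mul (expands_repExp hR i c')).congr_fun' (Eventually.of_forall fun z => ?_))
    have := hfun (R i • z)
    rw [hR.scale _ b.2, hR.scale _ a.2] at this
    simpa using this.symm
  have h2 := expEmb_mul M (repExp hR i) (repExp_injective hR i) hac
  rw [← h2, ← hab, map_mul] at h1
  have hb' : qExpand ℂ w (qL L b) ≠ 0 :=
    (map_ne_zero_iff _ (qExpand ℂ w).injective).2 ((map_ne_zero_iff _ qL_injective).2 hb)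
  have hc'' : repExp hR i c' ≠ 0 := (map_ne_zero_iff _ (repExp_injective hR i)).2 hc'
  refine mul_right_cancel₀ (mul_ne_zero hc'' hb') ?_
  rw [← mul_assoc, repEmb]
  exact h1.trans (by ring)

theorem repEmb_injective (hR : IsPushReps L M d w R) :
    Function.Injective fun i => repEmb hR i := by
  intro i i' h
  refine hR.sep i i' fun e he0 hedvd z => ?_
  have : NeZero e := ⟨he0⟩
  set jN : modularFunctionFieldBar M := ⟨_, Hecke.jd_mem (AlgebraicClosure ℚ) hedvd⟩
  set J : modFunRing M := ⟨jMul e, jMul_mem hedvd⟩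
  have hJ : toC M jN * qL M 1 = qL M J := by
    rw [map_one, mul_one, qL_jMul hedvd, toC_apply]
    exact (coeffMap_jqNModC' embC e)
  have e1 := expEmb_mul M (repExp hR i) (repExp_injective hR i) hJ
  have e2 := expEmb_mul M (repExp hR i') (repExp_injective hR i') hJ
  simp only [map_one, mul_one] at e1 e2
  have hx : (fun z : ℍ => (J : ℍ → ℂ) (R i • z)) = fun z : ℍ => (J : ℍ → ℂ) (R i' • z) := by
    refine eq_of_expands (mdiff_comp_rep (hR.det_pos i) J.2.1)
      (mdiff_comp_rep (hR.det_pos i') J.2.1) (expands_repExp hR i J) ?_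
    rw [← e1, show expEmb M (repExp hR i) (repExp_injective hR i) = repEmb hR i' from h, repEmb, e2]
    exact expands_repExp hR i' J
  exact congrFun hx z

variable [Fintype ι]

/-- The product over the representatives. -/
def repProd (R : ι → GL (Fin 2) ℝ) (F : ℍ → ℂ) : ℍ → ℂ := fun z => ∏ i, F (R i • z)

theorem mdifferentiable_repProd (hR : IsPushReps L M d w R) {F : ℍ → ℂ} (hF : MDiff F) :
    MDiff (repProd R F) := by
  have : repProd R F = ∏ i, fun z : ℍ => F (R i • z) := by funext z; simp [repProd]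
  rw [this]
  have h : ∀ i ∈ (Finset.univ : Finset ι), MDiff fun z : ℍ => F (R i • z) :=
    fun i _ => mdiff_comp_rep (hR.det_pos i) hF
  exact Finset.prod_induction _ (fun G : ℍ → ℂ => MDiff G) (fun _ _ ha hb => ha.mul hb) mdifferentiable_const h

theorem repProd_ne_zero (hR : IsPushReps L M d w R) {F : ℍ → ℂ} (hF : MDiff F) (h0 : F ≠ 0) :
    repProd R F ≠ 0 := by
  intro h
  have h' : (∏ i, fun z : ℍ => F (R i • z)) = 0 := by
    rw [← h]; funext z; simp [repProd]
  obtain ⟨i, -, hi⟩ := (UpperHalfPlane.prod_eq_zero_iff fun i _ =>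
    hF.comp (UpperHalfPlane.mdifferentiable_smul (hR.det_pos i))).1 h'
  exact h0 (funext fun z => by simpa using congrFun hi ((R i)⁻¹ • z))

omit [NeZero L] [NeZero M] [NeZero d] [NeZero w] in
theorem repProd_smul {F : ℍ → ℂ} {c : Gamma0 M → ℂ}
    (hF : ∀ (γ : Gamma0 M) (z : ℍ), F ((γ : SL(2, ℤ)) • z) = c γ * F z) {γ : Gamma0 L}
    {σ : Equiv.Perm ι} {δ : ι → Gamma0 M}
    (h : ∀ i, R i * ((γ : SL(2, ℤ)) : GL (Fin 2) ℝ) =
      ((δ i : SL(2, ℤ)) : GL (Fin 2) ℝ) * R (σ i)) (z : ℍ) :
    repProd R F ((γ : SL(2, ℤ)) • z) = (∏ i, c (δ i)) * repProd R F z := by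
  have : ∀ i, R i • (γ : SL(2, ℤ)) • z = (δ i : SL(2, ℤ)) • R (σ i) • z := fun i => by
    rw [ModularGroup.sl_moeb, ModularGroup.sl_moeb, ← mul_smul, ← mul_smul, h i]
  simp only [repProd, this, hF, Finset.prod_mul_distrib]
  congr 1
  exact Equiv.prod_comp σ (fun i => F (R i • z))

theorem repProd_mem_modFunRing (hR : IsPushReps L M d w R) {g : ℍ → ℂ} (hg : g ∈ modFunRing M) :
    repProd R g ∈ modFunRing L := by
  refine mem_modFunRing_of_isBounded (mdifferentiable_repProd hR hg.1) (fun γ hγ z => ?_)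
    fun δ => ?_
  · obtain ⟨σ, δ, h⟩ := hR.transfer ⟨γ, hγ⟩
    have := repProd_smul (c := fun _ => 1)
      (fun γ z => by simpa using smul_eq_of_mem hg γ.2 z) h z
    simpa using this
  · have hmem : (∏ i, fun z : ℍ => g (R i • δ • z)) ∈ expRing w :=
      prod_mem fun i _ => hR.cusp g hg i δ
    obtain ⟨m, hm⟩ := exists_isBounded_of_mem_expRing hmem
    refine ⟨m, Asymptotics.IsBigO.trans (Asymptotics.isBigO_of_le _ fun z => ?_) hm⟩
    rw [norm_mul, norm_mul, norm_pow, norm_pow, Function.Periodic.norm_qParam,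
      Function.Periodic.norm_qParam, show repProd R g (δ • z) =
        (∏ i, fun z : ℍ => g (R i • δ • z)) z by simp [repProd]]
    gcongr ?_ ^ _ * _
    rw [Real.exp_le_exp, neg_mul, neg_mul, neg_div, neg_div, neg_le_neg_iff]
    refine div_le_div_of_nonneg_left (by positivity [z.im_pos]) (by exact_mod_cast NeZero.pos L) ?_
    exact_mod_cast hR.le_width

/-- The expansion of the product. -/
theorem qExpand_qL_repProd (hR : IsPushReps L M d w R) (g : modFunRing M)
    (h : repProd R (g : ℍ → ℂ) ∈ modFunRing L) :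
    qExpand ℂ w (qL L ⟨repProd R (g : ℍ → ℂ), h⟩) = ∏ i, repExp hR i g := by
  have h1 := (expands_qL (⟨repProd R (g : ℍ → ℂ), h⟩ : modFunRing L)).width_mul (k := w)
  rw [one_mul] at h1
  refine h1.unique ?_
  simp only [repExp, AlgHom.comp_apply, ← map_prod]
  refine (expands_expSeries _).congr_fun' (Eventually.of_forall fun z => ?_)
  rw [← Subalgebra.val_apply, map_prod, Finset.prod_apply]
  rfl

/-- **The pushforward acts on characters by the transfer.** -/
theorem IsTorsChar.push (hR : IsPushReps L M d w R) (h : L * d ∣ M)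
    (hcard : Fintype.card ι =
      finrankAlong (AlgebraicClosure ℚ) (Hecke.degMap (AlgebraicClosure ℚ) d h))
    {n : ℕ} {x : JZero M} {χ : Gamma0 M →* ℂˣ} {χ' : Gamma0 L →* ℂˣ} (H : IsTorsChar n x χ)
    (hχ' : ∀ (γ : Gamma0 L) (σ : Equiv.Perm ι) (δ : ι → Gamma0 M),
      (∀ i, R i * ((γ : SL(2, ℤ)) : GL (Fin 2) ℝ) =
        ((δ i : SL(2, ℤ)) : GL (Fin 2) ℝ) * R (σ i)) → χ' γ = ∏ i, χ (δ i)) :
    IsTorsChar n (LevelSq.pushPic d h x) χ' := by
  obtain ⟨D, f, rfl, hf, hD, F, b, hd, hχ⟩ := H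
  obtain ⟨g, hg, hgp⟩ := hd.eq
  have hfin := (Hecke.levelFacts (AlgebraicClosure ℚ)).finite L M d h
  have hint := (Hecke.levelFacts (AlgebraicClosure ℚ)).integral d h
  have hN := (Hecke.levelFacts (AlgebraicClosure ℚ)).norm L M d h hfin
  set f' := Hecke.normAlong (Hecke.degMap (AlgebraicClosure ℚ) d h) f
  refine ⟨LevelSq.pushDegZero d h D, f', (LevelSq.pushPic_mk d h D).symm,
    Hecke.normAlong_ne_zero _ hfin hf, fun v => ?_, repProd R F,
    ⟨_, repProd_mem_modFunRing hR b.2⟩, ?_, fun γ z => ?_⟩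
  · have e := Hecke.pushforwardAlong_of_normFormula (Hecke.degMap (AlgebraicClosure ℚ) d h) hint
      hfin hN hf (D := n • (D : Divisor (AlgebraicClosure ℚ) (modularFunctionFieldBar M)))
      (fun w => by rw [Finsupp.smul_apply, nsmul_eq_mul]; exact hD w) v
    rw [map_nsmul, Finsupp.smul_apply, nsmul_eq_mul] at e
    exact e
  · refine ⟨fun e => repProd_ne_zero hR b.2.1 (coe_ne_zero hd.b_ne) (congrArg Subtype.val e),
      mdifferentiable_repProd hR hd.mdiff, repProd_ne_zero hR hd.mdiff hd.ne,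
      ⟨_, repProd_mem_modFunRing hR g.2⟩, ?_, fun z => ?_⟩
    · let _ := algebraAlong (Hecke.degMap (AlgebraicClosure ℚ) d h)
      have hfin' : Module.Finite (modularFunctionFieldBar L) (modularFunctionFieldBar M) := hfin
      have hc : CharZero (modularFunctionFieldBar L) := charZero_of_injective_algebraMap
        (algebraMap (AlgebraicClosure ℚ) (modularFunctionFieldBar L)).injective
      have hsep : Algebra.IsSeparable (modularFunctionFieldBar L) (modularFunctionFieldBar M) :=
        Algebra.IsSeparable.of_integral _ _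
      have hnorm : qExpand ℂ w (toC L f') = ∏ i, repEmb hR i f :=
        map_norm_eq_prod ((qExpand ℂ w).comp (toC L)) (fun i => repEmb hR i)
          (fun i u => repEmb_degMap hR h i u) (repEmb_injective hR) hcard f
      apply (qExpand ℂ w).injective
      rw [map_mul, map_pow, qExpand_qL_repProd hR, qExpand_qL_repProd hR, hnorm,
        ← Finset.prod_pow, ← Finset.prod_mul_distrib]
      refine Finset.prod_congr rfl fun i _ => ?_
      rw [← map_pow, repEmb]
      exact expEmb_mul M (repExp hR i) (repExp_injective hR i) (by rw [map_pow]; exact hg)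
    · simp only [repProd, ← Finset.prod_pow, hgp]
  · obtain ⟨σ, δ, hT⟩ := hR.transfer γ
    rw [repProd_smul (c := fun γ => (χ γ : ℂ)) hχ hT z, hχ' γ σ δ hT, Units.coe_prod]

/-- **The pushforward of the uniformised torsion is the transfer.** -/
theorem pushPic_torsionProj (hR : IsPushReps L M d w R) (h : L * d ∣ M)
    (hcard : Fintype.card ι =
      finrankAlong (AlgebraicClosure ℚ) (Hecke.degMap (AlgebraicClosure ℚ) d h))
    {p : ℕ} [NeZero p] (n : ℕ) (φ : ParQuot M →+ ℤ) (φ' : ParQuot L →+ ℤ)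
    (hφ' : ∀ (γ : Gamma0 L) (σ : Equiv.Perm ι) (δ : ι → Gamma0 M),
      (∀ i, R i * ((γ : SL(2, ℤ)) : GL (Fin 2) ℝ) =
        ((δ i : SL(2, ℤ)) : GL (Fin 2) ℝ) * R (σ i)) →
      φ' (parProj L (Additive.ofMul γ)) = ∑ i, φ (parProj M (Additive.ofMul (δ i)))) :
    LevelSq.pushPic d h (torsionProj p n φ) = torsionProj p n φ' := by
  classical
  refine ((isTorsChar_torsionProj p n φ).push hR h hcard (χ' := expChar (p ^ n) φ')
    fun γ σ δ hT => ?_).inj (pow_ne_zero n (NeZero.ne p)) (isTorsChar_torsionProj p n φ')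
  simp only [expChar_apply, hφ' γ σ δ hT]
  exact map_sum (AddMonoidHom.mk' (fun k : ℤ => Additive.ofMul (zetaUnit (p ^ n) ^ k))
    fun a b => by rw [zpow_add]; rfl) _ _

end FLTAgent.JTors
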