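import Fermat.Agent.JTors.PushChar
import Fermat.Agent.LevelSq.NormPower
import Fermat.Prelude.Thm_ModularCurve_coeff_jqModC_neg_one

/-!
The two pushforwards from level `L q` to level `L`, for a prime `q` dividing `L`, are transfers on
torsion characters.
-/

set_option autoImplicit false
set_option linter.unusedSectionVars false

noncomputable section

open ModularCurve AlgebraicCurve UpperHalfPlane CongruenceSubgroup Filter Topology
open scoped MatrixGroups Manifold

namespace FLTAgent.JTors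

open ModPoly Periods

variable {L q : ℕ}

/-- The lower unipotent representatives. -/
def lowRep (L q : ℕ) (j : ZMod q) : SL(2, ℤ) :=
  ⟨!![1, 0; (L : ℤ) * j.val, 1], by simp [Matrix.det_fin_two_of]⟩

theorem lowRep_mem (j : ZMod q) : lowRep L q j ∈ Gamma0 L := by
  rw [Gamma0_mem]
  simp [lowRep]

theorem apply_one_zero_mul_lowRep_inv (X : SL(2, ℤ)) (i : ZMod q) :
    (X * (lowRep L q i)⁻¹ : SL(2, ℤ)) 1 0 = X 1 0 - (L : ℤ) * i.val * X 1 1 := by
  rw [Matrix.SpecialLinearGroup.coe_mul, Matrix.SpecialLinearGroup.coe_inv,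
    Matrix.adjugate_fin_two]
  simp [lowRep, Matrix.mul_apply, Fin.sum_univ_two, -ZMod.natCast_val]
  ring

theorem lowRep_injective_mod [NeZero L] [NeZero q] {i j : ZMod q}
    (h : lowRep L q i * (lowRep L q j)⁻¹ ∈ Gamma0 (L * q)) : i = j := by
  rw [Gamma0_mem, apply_one_zero_mul_lowRep_inv, ZMod.intCast_zmod_eq_zero_iff_dvd] at h
  simp [lowRep, -ZMod.natCast_val] at h
  rw [← mul_sub, mul_dvd_mul_iff_left (by exact_mod_cast NeZero.ne L : (L : ℤ) ≠ 0)] at h
  have := (ZMod.intCast_eq_intCast_iff_dvd_sub (j.val : ℤ) (i.val : ℤ) q).mpr h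
  simpa using this.symm

/-- The right action of `Γ₀(L)` on the lower unipotent classes. -/
theorem exists_lowRep_transfer [Fact q.Prime] [NeZero L] (hqL : q ∣ L) (γ : Gamma0 L) :
    ∃ (σ : Equiv.Perm (ZMod q)) (δ : ZMod q → Gamma0 (L * q)),
      ∀ j, lowRep L q j * (γ : SL(2, ℤ)) = (δ j : SL(2, ℤ)) * lowRep L q (σ j) := by
  have hex : ∀ j : ZMod q, ∃ i : ZMod q,
      lowRep L q j * (γ : SL(2, ℤ)) * (lowRep L q i)⁻¹ ∈ Gamma0 (L * q) := by
    intro j
    set X := lowRep L q j * (γ : SL(2, ℤ)) with hX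
    have hXmem : X ∈ Gamma0 L := mul_mem (lowRep_mem j) γ.2
    obtain ⟨c, hc⟩ := (ZMod.intCast_zmod_eq_zero_iff_dvd _ _).mp (Gamma0_mem.mp hXmem)
    have hd : ((X 1 1 : ℤ) : ZMod q) ≠ 0 := by
      intro h0
      have hdet : (X : Matrix (Fin 2) (Fin 2) ℤ).det = 1 := X.2
      rw [Matrix.det_fin_two] at hdet
      have h1 : ((X 1 0 : ℤ) : ZMod q) = 0 := by
        rw [hc, Int.cast_mul, Int.cast_natCast, (ZMod.natCast_eq_zero_iff L q).mpr hqL, zero_mul]
      have := congrArg (fun t : ℤ => (t : ZMod q)) hdet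
      simp [h0, h1] at this
    refine ⟨(c : ZMod q) / ((X 1 1 : ℤ) : ZMod q), ?_⟩
    rw [Gamma0_mem, apply_one_zero_mul_lowRep_inv, ZMod.intCast_zmod_eq_zero_iff_dvd, hc,
      mul_assoc, ← mul_sub, Nat.cast_mul]
    refine mul_dvd_mul_left _ ((ZMod.intCast_zmod_eq_zero_iff_dvd _ _).mp ?_)
    rw [Int.cast_sub, Int.cast_mul, Int.cast_natCast, ZMod.natCast_zmod_val,
      div_mul_cancel₀ _ hd, sub_self]
  choose σ hσ using hex
  have hinj : Function.Injective σ := fun j j' h => lowRep_injective_mod (by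
    have h1 := (Gamma0 (L * q)).mul_mem (hσ j) ((Gamma0 (L * q)).inv_mem (hσ j'))
    rwa [h, show lowRep L q j * (γ : SL(2, ℤ)) * (lowRep L q (σ j'))⁻¹ *
      (lowRep L q j' * (γ : SL(2, ℤ)) * (lowRep L q (σ j'))⁻¹)⁻¹ =
        lowRep L q j * (lowRep L q j')⁻¹ by group] at h1)
  exact ⟨Equiv.ofBijective σ (Finite.injective_iff_bijective.mp hinj), fun j => ⟨_, hσ j⟩,
    fun j => by
      show lowRep L q j * (γ : SL(2, ℤ)) =
        lowRep L q j * (γ : SL(2, ℤ)) * (lowRep L q (σ j))⁻¹ * lowRep L q (σ j)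
      rw [inv_mul_cancel_right]⟩

theorem tRep_one_none_smul (z : ℍ) : tRep 1 none • z = z :=
  UpperHalfPlane.ext (by rw [coe_tRep_none_smul one_ne_zero, Nat.cast_one, one_mul])

/-- Representatives for the first pushforward. -/
theorem isPushReps_low [Fact q.Prime] [NeZero L] (hqL : q ∣ L) :
    IsPushReps L (L * q) 1 (L * q) fun j : ZMod q => ((lowRep L q j : SL(2, ℤ)) : GL (Fin 2) ℝ) where
  le_width := Nat.le_mul_of_pos_right L (Fact.out : q.Prime).pos
  det_pos j := by simp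
  cusp g hg j δ := by
    simp only [← ModularGroup.sl_moeb, ← mul_smul]
    exact comp_smul_mem_expRing hg _
  scale g hg j z := by
    rw [tRep_one_none_smul, ← ModularGroup.sl_moeb]
    exact smul_eq_of_mem hg (lowRep_mem j) z
  transfer γ := by
    obtain ⟨σ, δ, h⟩ := exists_lowRep_transfer hqL γ
    exact ⟨σ, δ, fun j => by
      simp only [← map_mul, h j]⟩
  sep i j h := lowRep_injective_mod (Genus.jMul_comp_smul_eq_self fun τ => by
    have := h (L * q) (mul_ne_zero (NeZero.ne L) (Fact.out : q.Prime).ne_zero) dvd_rfl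
      ((lowRep L q j)⁻¹ • τ)
    rw [← ModularGroup.sl_moeb, ← ModularGroup.sl_moeb, smul_inv_smul, ← mul_smul] at this
    exact this)

theorem expands_jMul_one_tRep (hq : q ≠ 0) (j : ZMod q) :
    haveI : NeZero q := ⟨hq⟩
    Expands q (fun z : ℍ => jMul 1 (tRep q (some j) • z))
      (twist (Units.mk0 (Complex.exp (2 * Real.pi * Complex.I * j.val / q)) (Complex.exp_ne_zero _))
        (jqModC ℂ)) := by
  have : NeZero q := ⟨hq⟩
  have hq' : (q : ℂ) ≠ 0 := Nat.cast_ne_zero.2 hq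
  have hφ : Tendsto (fun z : ℍ => tRep q (some j) • z) atImInfty atImInfty := by
    rw [atImInfty, tendsto_comap_iff]
    refine ((tendsto_comap (f := UpperHalfPlane.im) (x := atTop)).const_mul_atTop
      (r := (1 / q : ℝ)) (by positivity)).congr fun z => ?_
    show (1 / q : ℝ) * z.im = ((tRep q (some j) • z : ℍ) : ℂ).im
    rw [coe_tRep_some_smul hq, Complex.div_natCast_im, Complex.add_im, Complex.natCast_im, UpperHalfPlane.coe_im,
      add_zero]
    ring
  have h := (expands_jMul (d := 1)).comp_scale (h' := q) (k := 1)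
    (Units.mk0 (Complex.exp (2 * Real.pi * Complex.I * j.val / q)) (Complex.exp_ne_zero _)) hφ
    fun z => by
      rw [Units.val_mk0, coe_tRep_some_smul hq, pow_one, Function.Periodic.qParam,
        Function.Periodic.qParam, ← Complex.exp_add]
      congr 1
      push_cast
      field_simp
      ring
  rwa [qExpand_one_apply, qExpand_one_apply] at h

/-- Representatives for the second pushforward. -/
theorem isPushReps_up [Fact q.Prime] [NeZero L] (hqL : q ∣ L) :
    IsPushReps L (L * q) q (L * q * q) fun j : ZMod q => tRep q (some j) where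
  le_width := (Nat.le_mul_of_pos_right L (Fact.out : q.Prime).pos).trans
    (Nat.le_mul_of_pos_right _ (Fact.out : q.Prime).pos)
  det_pos j := tRep_det_pos q _
  cusp g hg j δ := by
    have : NeZero q := ⟨(Fact.out : q.Prime).ne_zero⟩
    have : NeZero (L * q) := ⟨mul_ne_zero (NeZero.ne L) (NeZero.ne q)⟩
    exact comp_tRep_mem_expRing hg (some j) δ
  scale g hg j z := by
    have hq := (Fact.out : q.Prime).ne_zero
    have hT : ModularGroup.T ^ (j.val : ℤ) ∈ Gamma0 L := by
      rw [Gamma0_mem, ModularGroup.coe_T_zpow]; simp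
    rw [show tRep q none • tRep q (some j) • z = ModularGroup.T ^ (j.val : ℤ) • z from
      UpperHalfPlane.ext (by
        rw [coe_tRep_none_smul hq, coe_tRep_some_smul hq, ModularGroup.coe_T_zpow_smul_eq,
          mul_div_cancel₀ _ (Nat.cast_ne_zero.2 hq)]
        push_cast
        ring)]
    exact smul_eq_of_mem hg hT z
  transfer γ := by
    have : NeZero q := ⟨(Fact.out : q.Prime).ne_zero⟩
    have hcL : (L : ℤ) ∣ (γ : SL(2, ℤ)) 1 0 :=
      (ZMod.intCast_zmod_eq_zero_iff_dvd _ _).mp (Gamma0_mem.mp γ.2)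
    have hc : (q : ℤ) ∣ (γ : SL(2, ℤ)) 1 0 := (Int.natCast_dvd_natCast.mpr hqL).trans hcL
    choose g hg hmul using fun x =>
      P2MW.S_ModularForm_heckeT_slash_eq_self_of_mem_Gamma0.ModularForm.HeckeSlashInvariance.heckeMatrix_mul_of_dvd
        (γ : SL(2, ℤ)) hc x
    refine ⟨_, fun x => ⟨g x, ?_⟩, hmul⟩
    rw [Gamma0_mem, ZMod.intCast_zmod_eq_zero_iff_dvd, hg x, Nat.cast_mul, mul_comm (L : ℤ)]
    exact mul_dvd_mul_left _ hcL
  sep i j h := by
    have hq := (Fact.out : q.Prime).ne_zero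
    have : NeZero q := ⟨hq⟩
    have h1 := expands_jMul_one_tRep hq i
    rw [funext (h 1 one_ne_zero (one_dvd _))] at h1
    have e := congrArg (fun x : LaurentSeries ℂ => x.coeff (-1)) (h1.unique (expands_jMul_one_tRep hq j))
    simp only [twist_coeff, coeff_jqModC_neg_one,
      mul_one, zpow_neg, zpow_one, Units.val_inv_eq_inv_val, Units.val_mk0, inv_inj] at e
    rw [Complex.exp_eq_exp_iff_exists_int] at e
    obtain ⟨k, hk⟩ := e
    have hq' : (q : ℂ) ≠ 0 := Nat.cast_ne_zero.2 hq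
    have h2 : ((i.val : ℤ) : ℂ) = ((j.val : ℤ) + k * q : ℤ) := by
      have hpi := Complex.two_pi_I_ne_zero
      field_simp at hk
      push_cast
      linear_combination hk
    have := congrArg (fun t : ℤ => (t : ZMod q)) (Int.cast_injective h2)
    simpa using this

variable {M' : ℕ}

/-- **The first pushforward on the uniformised torsion.** -/
theorem pushPic_low_torsionProj [Fact q.Prime] [NeZero L] [NeZero (L * q)] (hqL : q ∣ L)
    (h : L * 1 ∣ L * q) {p : ℕ} [NeZero p] (n : ℕ) (φ : ParQuot (L * q) →+ ℤ)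
    (φ' : ParQuot L →+ ℤ)
    (hφ' : ∀ (γ : Gamma0 L) (σ : Equiv.Perm (ZMod q)) (δ : ZMod q → Gamma0 (L * q)),
      (∀ j, ((lowRep L q j : SL(2, ℤ)) : GL (Fin 2) ℝ) * ((γ : SL(2, ℤ)) : GL (Fin 2) ℝ) =
        ((δ j : SL(2, ℤ)) : GL (Fin 2) ℝ) * ((lowRep L q (σ j) : SL(2, ℤ)) : GL (Fin 2) ℝ)) →
      φ' (parProj L (Additive.ofMul γ)) = ∑ j, φ (parProj (L * q) (Additive.ofMul (δ j)))) :
    LevelSq.pushPic 1 h (torsionProj p n φ) = torsionProj p n φ' := by
  obtain ⟨M', hM'⟩ := hqL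
  have : NeZero M' := ⟨fun e => NeZero.ne L (by rw [hM', e, mul_zero])⟩
  exact pushPic_torsionProj (isPushReps_low ⟨M', hM'⟩) h
    (by rw [ZMod.card, LevelSq.finrankAlong_top_one (by rw [hM', mul_comm]) rfl h]) n φ φ' hφ'

/-- **The second pushforward on the uniformised torsion.** -/
theorem pushPic_up_torsionProj [Fact q.Prime] [NeZero L] [NeZero (L * q)] [NeZero q] [NeZero M']
    (hL : L = M' * q) (hq' : ¬ q ∣ M') (h : L * q ∣ L * q) {p : ℕ} [NeZero p] (n : ℕ)
    (φ : ParQuot (L * q) →+ ℤ) (φ' : ParQuot L →+ ℤ)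
    (hφ' : ∀ (γ : Gamma0 L) (σ : Equiv.Perm (ZMod q)) (δ : ZMod q → Gamma0 (L * q)),
      (∀ j, tRep q (some j) * ((γ : SL(2, ℤ)) : GL (Fin 2) ℝ) =
        ((δ j : SL(2, ℤ)) : GL (Fin 2) ℝ) * tRep q (some (σ j))) →
      φ' (parProj L (Additive.ofMul γ)) = ∑ j, φ (parProj (L * q) (Additive.ofMul (δ j)))) :
    LevelSq.pushPic q h (torsionProj p n φ) = torsionProj p n φ' := by
  have : NeZero (L * q * q) := ⟨mul_ne_zero (NeZero.ne _) (NeZero.ne q)⟩
  exact pushPic_torsionProj (isPushReps_up (hL ▸ dvd_mul_left q M')) h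
    (by rw [ZMod.card, LevelSq.finrankAlong_top_q hq' hL rfl h]) n φ φ' hφ'

end FLTAgent.JTors
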