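import Mathlib.Analysis.Complex.HasPrimitives
import Mathlib.Analysis.Analytic.Order
import Mathlib.Analysis.Complex.CauchyIntegral
import Mathlib.Analysis.SpecialFunctions.Complex.Log
import Mathlib.Analysis.Calculus.MeanValue

/-!
Holomorphic `n`-th roots on discs.
-/

open Metric Set Filter Topology

namespace FLTAgent.JTors

/-- A zero-free holomorphic function on a disc is an exponential. -/
theorem exists_log_ball {g : ℂ → ℂ} {c : ℂ} {r : ℝ} (hr : 0 < r)
    (hg : DifferentiableOn ℂ g (ball c r)) (h0 : ∀ z ∈ ball c r, g z ≠ 0) :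
    ∃ L : ℂ → ℂ, DifferentiableOn ℂ L (ball c r) ∧
      ∀ z ∈ ball c r, Complex.exp (L z) = g z := by
  have hd : DifferentiableOn ℂ (fun z => deriv g z / g z) (ball c r) :=
    (hg.deriv isOpen_ball).div hg h0
  obtain ⟨L, hLc, hL⟩ := (hd.isExactOn_ball).with_val_at c (Complex.log (g c))
  refine ⟨L, fun z hz => (hL z hz).differentiableAt.differentiableWithinAt, ?_⟩
  have hder : ∀ z ∈ ball c r, HasDerivAt (fun w => g w * Complex.exp (-L w)) 0 z := by
    intro z hz
    have h1 : HasDerivAt g (deriv g z) z :=
      (hg.differentiableAt (isOpen_ball.mem_nhds hz)).hasDerivAt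
    refine (h1.mul ((hL z hz).neg.cexp)).congr_deriv ?_
    have := h0 z hz
    field_simp
    simp
  intro z hz
  have key : g z * Complex.exp (-L z) = g c * Complex.exp (-L c) := by
    refine (convex_ball c r).is_const_of_fderivWithin_eq_zero (𝕜 := ℂ)
      (f := fun w => g w * Complex.exp (-L w))
      (fun w hw => (hder w hw).differentiableAt.differentiableWithinAt)
      (fun w hw => ?_) hz (mem_ball_self hr)
    rw [fderivWithin_of_isOpen isOpen_ball hw, (hder w hw).hasFDerivAt.fderiv]
    ext; simp
  have hc : g c * Complex.exp (-L c) = 1 := by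
    rw [hLc, Complex.exp_neg, Complex.exp_log (h0 c (mem_ball_self hr))]
    exact mul_inv_cancel₀ (h0 c (mem_ball_self hr))
  rw [hc, Complex.exp_neg] at key
  have := Complex.exp_ne_zero (L z)
  field_simp at key
  exact key.symm

private theorem exists_root_ball_aux {c : ℂ} {r : ℝ} (hr : 0 < r) {n : ℕ} (hn : n ≠ 0)
    (S : Finset ℂ) : ∀ g : ℂ → ℂ, AnalyticOnNhd ℂ g (ball c r) →
      (∀ z ∈ ball c r, g z = 0 → z ∈ S) →
      (∀ z ∈ ball c r, analyticOrderAt g z ≠ ⊤ ∧ n ∣ analyticOrderNatAt g z) →
      ∃ h : ℂ → ℂ, DifferentiableOn ℂ h (ball c r) ∧ ∀ z ∈ ball c r, h z ^ n = g z := by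
  induction S using Finset.induction with
  | empty =>
    intro g hg hS _
    obtain ⟨L, hL, hLg⟩ := exists_log_ball hr hg.differentiableOn
      (fun z hz h => by simpa using hS z hz h)
    refine ⟨fun z => Complex.exp (L z / n), (hL.div_const _).cexp, fun z hz => ?_⟩
    rw [← Complex.exp_nat_mul, mul_div_cancel₀ _ (by exact_mod_cast hn), hLg z hz]
  | @insert a S ha ih =>
    intro g hg hS hord
    by_cases hab : a ∈ ball c r
    · obtain ⟨hfin, k, hk⟩ := hord a hab
      obtain ⟨u, hu, hu0, hgu⟩ := (hg a hab).analyticOrderAt_ne_top.1 hfin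
      rw [hk] at hgu
      classical
      set G : ℂ → ℂ := fun z => if z = a then u a else g z / (z - a) ^ (n * k) with hG
      have hGa : G =ᶠ[𝓝 a] u := by
        filter_upwards [hgu] with z hz
        rcases eq_or_ne z a with rfl | hza
        · simp [hG]
        · simp only [hG, if_neg hza, hz, smul_eq_mul]
          field_simp [sub_ne_zero.2 hza]
      have hGan : AnalyticOnNhd ℂ G (ball c r) := by
        intro z hz
        rcases eq_or_ne z a with rfl | hza
        · exact hu.congr hGa.symm
        · refine (((hg z hz).div ((analyticAt_id.sub analyticAt_const).pow (n * k))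
            (pow_ne_zero _ (sub_ne_zero.2 hza)))).congr ?_
          filter_upwards [isOpen_ne.mem_nhds hza] with w hw
          simp [hG, if_neg hw]
      have hgG : ∀ z, z ∈ ball c r → g z = (z - a) ^ (n * k) * G z := by
        intro z hz
        rcases eq_or_ne z a with rfl | hza
        · simpa [hG] using hgu.self_of_nhds
        · simp only [hG, if_neg hza]
          field_simp [sub_ne_zero.2 hza]
      have hGS : ∀ z ∈ ball c r, G z = 0 → z ∈ S := by
        intro z hz h
        have hza : z ≠ a := by
          rintro rfl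
          exact hu0 (by simpa [hG] using h)
        have : g z = 0 := by rw [hgG z hz, h, mul_zero]
        exact (Finset.mem_insert.1 (hS z hz this)).resolve_left hza
      have hGord : ∀ z ∈ ball c r, analyticOrderAt G z ≠ ⊤ ∧ n ∣ analyticOrderNatAt G z := by
        intro z hz
        rcases eq_or_ne z a with rfl | hza
        · have h1 : analyticOrderAt G z = 0 :=
            (hGan z hz).analyticOrderAt_eq_zero.2 (by simpa [hG] using hu0)
          simp [analyticOrderNatAt, h1]
        · have hcong : g =ᶠ[𝓝 z] (fun w => (w - a) ^ (n * k)) * G := by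
            filter_upwards [isOpen_ball.mem_nhds hz] with w hw using hgG w hw
          have hP : AnalyticAt ℂ (fun w => (w - a) ^ (n * k)) z := by fun_prop
          have hP0 : analyticOrderAt (fun w => (w - a) ^ (n * k)) z = 0 :=
            hP.analyticOrderAt_eq_zero.2 (pow_ne_zero _ (sub_ne_zero.2 hza))
          have heq : analyticOrderAt g z = analyticOrderAt G z := by
            rw [analyticOrderAt_congr hcong, analyticOrderAt_mul hP (hGan z hz), hP0, zero_add]
          refine ⟨heq ▸ (hord z hz).1, ?_⟩
          have := (hord z hz).2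
          rwa [analyticOrderNatAt, heq] at this
      obtain ⟨h, hh, hhG⟩ := ih G hGan hGS hGord
      refine ⟨fun z => (z - a) ^ k * h z, (by fun_prop : DifferentiableOn ℂ (fun z : ℂ => (z - a) ^ k) _).mul hh,
        fun z hz => ?_⟩
      rw [mul_pow, ← pow_mul, hhG z hz, mul_comm k n, ← hgG z hz]
    · exact ih g hg (fun z hz h => (Finset.mem_insert.1 (hS z hz h)).resolve_left
        (fun e => hab (e ▸ hz))) hord

private theorem finite_zeros_closedBall {g : ℂ → ℂ} {c : ℂ} {r : ℝ} {z₀ : ℂ}
    (hg : AnalyticOnNhd ℂ g (closedBall c r)) (hgz₀ : g z₀ ≠ 0)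
    (hz₀ : z₀ ∈ closedBall c r) : (closedBall c r ∩ g ⁻¹' {0}).Finite := by
  have hclosed : IsClosed (closedBall c r ∩ g ⁻¹' {0}) :=
    hg.continuousOn.preimage_isClosed_of_isClosed isClosed_closedBall isClosed_singleton
  refine ((isCompact_closedBall c r).of_isClosed_subset hclosed inter_subset_left).finite
    (isDiscrete_iff_forall_mem_exists_isOpen.2 fun x hx => ?_)
  rcases hg.eqOn_zero_or_eventually_ne_zero_of_preconnected
    (convex_closedBall c r).isPreconnected with h | h
  · exact absurd (h hz₀) hgz₀
  · rcases (hg x hx.1).eventually_eq_zero_or_eventually_ne_zero with h' | h'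
    · exact absurd (hg.eqOn_zero_of_preconnected_of_eventuallyEq_zero
        (convex_closedBall c r).isPreconnected hx.1 h' hz₀) hgz₀
    · rw [eventually_nhdsWithin_iff, _root_.eventually_nhds_iff] at h'
      obtain ⟨U, hU, hUo, hxU⟩ := h'
      refine ⟨U, hUo, ?_⟩
      ext y
      simp only [mem_inter_iff, mem_singleton_iff]
      constructor
      · rintro ⟨hy, _, hgy⟩
        by_contra hne
        exact hU y hy hne hgy
      · rintro rfl
        exact ⟨hxU, hx⟩

/-- A holomorphic function near a closed disc, all of whose orders are multiples of `n`,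
has a holomorphic `n`-th root on the open disc. -/
theorem exists_root_ball {g : ℂ → ℂ} {c : ℂ} {r : ℝ} (hr : 0 < r) {n : ℕ} (hn : n ≠ 0)
    (hg : AnalyticOnNhd ℂ g (closedBall c r)) (hne : ∃ z ∈ ball c r, g z ≠ 0)
    (hdiv : ∀ z ∈ ball c r, n ∣ analyticOrderNatAt g z) :
    ∃ h : ℂ → ℂ, DifferentiableOn ℂ h (ball c r) ∧ ∀ z ∈ ball c r, h z ^ n = g z := by
  obtain ⟨z₀, hz₀, hgz₀⟩ := hne
  have hconn : IsPreconnected (closedBall c r) := (convex_closedBall c r).isPreconnected
  have htop : ∀ z ∈ closedBall c r, analyticOrderAt g z ≠ ⊤ := fun z hz =>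
    hg.analyticOrderAt_ne_top_of_isPreconnected hconn (ball_subset_closedBall hz₀) hz
      (by rw [(hg z₀ (ball_subset_closedBall hz₀)).analyticOrderAt_eq_zero.2 hgz₀]; simp)
  have hfin : (closedBall c r ∩ g ⁻¹' {0}).Finite :=
    finite_zeros_closedBall hg hgz₀ (ball_subset_closedBall hz₀)
  exact exists_root_ball_aux hr hn hfin.toFinset g (hg.mono ball_subset_closedBall)
    (fun z hz h => hfin.mem_toFinset.2 ⟨ball_subset_closedBall hz, h⟩)
    (fun z hz => ⟨htop z (ball_subset_closedBall hz), hdiv z hz⟩)

end FLTAgent.JTors
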