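import Fermat.Agent.JTors.ConjChar
import Fermat.Agent.JTors.PlaceDiv
import Fermat.Agent.JTors.TorsionChar
import Fermat.Agent.JTors.SeriesDescent
import Fermat.Agent.ModPoly.Generation

/-!
Every character of exponent `n` trivial on elliptic and parabolic elements comes from a torsion
class of `J₀(N)`.
-/

set_option autoImplicit false

noncomputable section

open ModularCurve AlgebraicCurve UpperHalfPlane CongruenceSubgroup Filter
open scoped MatrixGroups Manifold

namespace FLTAgent.JTors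

open ModPoly

variable {N : ℕ} [NeZero N] {n : ℕ}

/-- The characters of exponent `n` trivial at `∞`. -/
def InftyChar (N n : ℕ) : Type :=
  {χ : Gamma0 N →* ℂˣ // TrivialAtInfty χ ∧ ∀ γ, χ γ ^ n = 1}

omit [NeZero N] in
theorem trivialAtInfty_of_isEllPar {χ : Gamma0 N →* ℂˣ}
    (hpar : ∀ γ : Gamma0 N, Periods.IsEllPar γ → χ γ = 1) : TrivialAtInfty χ := fun γ hγ =>
  hpar γ (by
    set M := ((γ : SL(2, ℤ)) : Matrix (Fin 2) (Fin 2) ℤ) with hM
    have hdet : M.det = 1 := (γ : SL(2, ℤ)).2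
    rw [Matrix.det_fin_two, hγ, mul_zero, sub_zero] at hdet
    show M.trace ^ 2 ≤ 4
    rw [Matrix.trace_fin_two]
    rcases Int.eq_one_or_neg_one_of_mul_eq_one hdet with e | e <;>
      rw [e] at hdet ⊢ <;> nlinarith)

/-- The expansions of the functions with a given character. -/
def expSpace (c : InftyChar N n) : Submodule ℂ (LaurentSeries ℂ) :=
  LinearMap.range ((charExp (m := 2) c.2.1).comp (Submodule.inclusion (cuspChar_le c.1)))

theorem exists_algebraic_cuspChar (hn : n ≠ 0) (c : InftyChar N n) :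
    ∃ (h : CuspChar c.1), (h : ℍ → ℂ) ≠ 0 ∧
      ∀ k, IsAlgebraic ℚ ((charExp (m := 2) c.2.1 ⟨(h : ℍ → ℂ), h.2.1⟩).coeff k) := by
  have : Finite (InftyChar N n) :=
    Set.Finite.to_subtype ((finite_char (N := N) hn).subset fun χ hχ => hχ.2)
  obtain ⟨H, ⟨h, hh⟩, hH0, halg⟩ := exists_algebraic_mem (expSpace (N := N) (n := n))
    (fun c => by
      obtain ⟨h, hh, h0⟩ := exists_cuspChar_ne_zero c.2.1 (norm_eq_one_of_pow hn c.2.2)
      refine (Submodule.ne_bot_iff _).2 ⟨_, ⟨⟨h, hh⟩, rfl⟩, fun e => h0 ?_⟩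
      exact congrArg Subtype.val (charExp_injective c.2.1 (e.trans (map_zero _).symm)))
    (fun c d hcd => by
      rw [Submodule.eq_bot_iff]
      rintro _ ⟨⟨h, rfl⟩, ⟨h', hh'⟩⟩
      by_contra h0
      have heq : (h' : ℍ → ℂ) = (h : ℍ → ℂ) :=
        eq_of_expands h'.2.1.1 h.2.1.1 (expands_charExp d.2.1 ⟨(h' : ℍ → ℂ), h'.2.1⟩) (by
          have := expands_charExp c.2.1 ⟨(h : ℍ → ℂ), h.2.1⟩
          convert this using 1
          exact hh')
      have hne : (h : ℍ → ℂ) ≠ 0 := fun e => h0 (by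
        rw [show h = 0 from Subtype.ext e, map_zero])
      exact hcd (Subtype.ext (char_unique hne h.2.1.2.1 (heq ▸ h'.2.1.2.1))))
    (fun c => by
      obtain ⟨B, hB⟩ := exists_order_le (m := 2) c.2.1 hn c.2.2
      exact ⟨B, by
        rintro _ ⟨h, rfl⟩ h0
        exact hB _ fun e => h0 (by rw [LinearMap.comp_apply, e, map_zero])⟩)
    (fun σ c => by
      rintro _ ⟨h, rfl⟩
      rcases eq_or_ne (h : ℍ → ℂ) 0 with h0 | h0
      · exact ⟨c, by rw [show h = 0 from Subtype.ext h0, map_zero, map_zero]; exact zero_mem _⟩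
      obtain ⟨χ', hχ', hn', h', hh', e⟩ := exists_conj_cuspChar σ hn c.2.1 c.2.2 h h0
      exact ⟨⟨χ', hχ', hn'⟩, ⟨⟨(h' : ℍ → ℂ), hh'⟩, e.symm⟩⟩) c
  refine ⟨h, fun e => hH0 ?_, fun k => ?_⟩
  · rw [← hh, show h = 0 from Subtype.ext e, map_zero]
  · have := halg k
    rw [← hh] at this
    exact this

/-- Transport to the field `ℚ̄(j, jN)`. -/
theorem dvd_ord_of_eq {E : IntermediateField (AlgebraicClosure ℚ) (LaurentSeries (AlgebraicClosure ℚ))}
    (hE : E = modularFunctionFieldC (AlgebraicClosure ℚ) N)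
    {χ : Gamma0 N →* ℂˣ} (hpar : ∀ γ : Gamma0 N, Periods.IsEllPar γ → χ γ = 1) {h : ℍ → ℂ}
    (hh : h ∈ CharFun χ 2) (h0 : h ≠ 0) {g : modFunRing N} (hg : (g : ℍ → ℂ) = h ^ n)
    {y : E} (hy : qL N g = coeffMap embC (y : LaurentSeries (AlgebraicClosure ℚ)))
    (v : Place (AlgebraicClosure ℚ) E) : (n : ℤ) ∣ v.ord y := by
  subst hE
  exact dvd_ord_of_cuspChar embC hpar hh h0 hg hy v

/-- Every character of exponent `n` trivial on elliptic and parabolic elements is the character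
of a torsion class. -/
theorem exists_isTorsChar_of_char (hn : n ≠ 0) {χ : Gamma0 N →* ℂˣ} (hχn : ∀ γ, χ γ ^ n = 1)
    (hpar : ∀ γ : Gamma0 N, Periods.IsEllPar γ → χ γ = 1) :
    ∃ x : JZero N, IsTorsChar n x χ := by
  have hχ := trivialAtInfty_of_isEllPar hpar
  obtain ⟨h, h0, halg⟩ := exists_algebraic_cuspChar hn (⟨χ, hχ, hχn⟩ : InftyChar N n)
  set X := charExp hχ ⟨(h : ℍ → ℂ), h.2.1⟩ with hX
  set g : modFunRing N := ⟨_, pow_mem_modFunRing hn hχn h⟩
  have hqg : qL N g = X ^ n := qL_eq_of_expands ((expands_charExp hχ _).pow n)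
  let _ : Algebra (AlgebraicClosure ℚ) ℂ := embC.toAlgebra
  have hcoeff : ∀ k, (qL N g).coeff k ∈ Set.range (algebraMap (AlgebraicClosure ℚ) ℂ) := by
    intro k
    rw [hqg]
    have hX1 : X ∈ coeffSubring embC.fieldRange.toSubring := fun k =>
      mem_range_of_isAlgebraic embC (halg k)
    have hmem : X ^ n ∈ coeffSubring embC.fieldRange.toSubring := pow_mem hX1 n
    exact hmem k
  obtain ⟨y, hy, hyX⟩ := exists_coeffMap_eq_of_mem (K := AlgebraicClosure ℚ)
    (modularFunctionFieldFull N) (qL_mem_laurentBaseChange g) hcoeff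
  set f : modularFunctionFieldBar N := ⟨y, hy⟩
  have hf : qL N g = coeffMap embC (f : LaurentSeries (AlgebraicClosure ℚ)) := hyX.symm
  have hf0 : f ≠ 0 := fun e => by
    rw [e, ZeroMemClass.coe_zero, map_zero, hqg] at hf
    refine pow_ne_zero n ((map_ne_zero_iff _ (charExp_injective hχ)).2 ?_) hf
    exact fun e' => h0 (congrArg Subtype.val e')
  have hdvd : ∀ v : Place (AlgebraicClosure ℚ) (modularFunctionFieldBar N), (n : ℤ) ∣ v.ord f :=
    dvd_ord_of_eq (modularFunctionFieldBar_eq N) hpar h.2.1 h0 (g := g) rfl hf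
  have := Hecke.hasPrincipalDivisors_level (AlgebraicClosure ℚ) N
  obtain ⟨E, hE, hdeg⟩ := HasPrincipalDivisors.exists_divisor
    (K := AlgebraicClosure ℚ) (F := modularFunctionFieldBar N) f hf0
  set D : Divisor (AlgebraicClosure ℚ) (modularFunctionFieldBar N) :=
    E.mapRange (· / (n : ℤ)) (Int.zero_ediv _)
  have hD : ∀ v, (n : ℤ) * D v = v.ord f := fun v => by
    show (n : ℤ) * (E v / (n : ℤ)) = _
    rw [Int.mul_ediv_cancel' (by rw [hE]; exact hdvd v), hE]
  have hnE : n • D = E := Finsupp.ext fun v => by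
    rw [Finsupp.smul_apply, nsmul_eq_mul, hD, hE]
  have hD0 : D ∈ Divisor.degZero (K := AlgebraicClosure ℚ) (F := modularFunctionFieldBar N) := by
    rw [Divisor.mem_degZero]
    rw [← hnE, map_nsmul, nsmul_eq_mul] at hdeg
    exact (mul_eq_zero.1 hdeg).resolve_left (Nat.cast_ne_zero.2 hn)
  refine ⟨Pic0.mk ⟨D, hD0⟩, ⟨D, hD0⟩, f, rfl, hf0, hD, (h : ℍ → ℂ), 1,
    ⟨one_ne_zero, h.2.1.1, h0, g, ?_, fun z => rfl⟩, h.2.1.2.1⟩
  rw [map_one, one_pow, mul_one, toC_apply, ← hf]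

end FLTAgent.JTors
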